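import Fermat.Agent.Jacobian.Setup.Chart

/-!
# Evaluation at the rational point

Sections near the point expand in power series, with constant term the value at the point.
-/

set_option autoImplicit false

noncomputable section

open CategoryTheory AlgebraicGeometry TopologicalSpace AlgebraicCurve NeronModelInfra

namespace FermatAgent.Jacobian

universe u

variable {k : Type u} [Field k] {C : Scheme.{u}} (c : C ⟶ Spec (CommRingCat.of k))

variable [IsIntegral C]

variable [IsAlgClosed k] [SmoothOfRelativeDimension 1 c] [IsProper c]
  (ε : SchemeHomOver (𝟙 (Spec (CommRingCat.of k))) c)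

/-- Sections near the point as functions regular at its place. -/
def toPlaceRing {W : C.Opens} [Nonempty W] (hW : basePt c ε ∈ W) :
    SecRing c W →+* (basePlace c ε).toValuationSubring :=
  (toFunField c W).codRestrict (basePlace c ε).toValuationSubring.toSubring
    fun s => toFunField_mem_pointRing c hW s

theorem toPlaceRing_algebraMap {W : C.Opens} [Nonempty W] (hW : basePt c ε ∈ W) (a : k) :
    toPlaceRing c ε hW (algebraMap k (SecRing c W) a) =
      algebraMap k (basePlace c ε).toValuationSubring a :=
  Subtype.ext (toFunField_sectionsHom c W a)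

/-- The power series expansion of sections near the point. -/
def expSeriesOpen {W : C.Opens} [Nonempty W] (hW : basePt c ε ∈ W) :
    SecRing c W →ₐ[k] PowerSeries k :=
  { (expHom (baseUnif c ε) (ord_baseUnif c ε)).comp (toPlaceRing c ε hW) with
    commutes' := fun a => by
      show expHom _ _ (toPlaceRing c ε hW (algebraMap k (SecRing c W) a)) = _
      rw [toPlaceRing_algebraMap, expHom_algebraMap]
      rfl }

theorem expSeriesOpen_apply {W : C.Opens} [Nonempty W] (hW : basePt c ε ∈ W) (s : SecRing c W) :
    expSeriesOpen c ε hW s =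
      expHom (baseUnif c ε) (ord_baseUnif c ε) (toPlaceRing c ε hW s) := rfl

theorem ofPowerSeries_expSeriesOpen {W : C.Opens} [Nonempty W] (hW : basePt c ε ∈ W)
    (s : SecRing c W) :
    HahnSeries.ofPowerSeries ℤ k (expSeriesOpen c ε hW s) = expOpen c ε W s :=
  (expField_coe _ _ (toPlaceRing c ε hW s)).symm

theorem expSeriesOpen_chartVar :
    expSeriesOpen c ε (basePt_mem_chartOpen c ε) (chartVar c ε) = PowerSeries.X := by
  rw [expSeriesOpen_apply, show toPlaceRing c ε _ (chartVar c ε) = baseUnif c ε from
    Subtype.ext (toFunField_chartVar c ε), expHom_uniformiser]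

omit [IsAlgClosed k] [SmoothOfRelativeDimension 1 c] [IsIntegral C] [IsProper c] in
/-- The value at the rational point of the constants. -/
theorem stalkConst_comp_stalkClosedPointTo :
    CommRingCat.ofHom (stalkConst c (basePt c ε)) ≫
      Scheme.stalkClosedPointTo (R := CommRingCat.of k) ε.1 = 𝟙 (CommRingCat.of k) := by
  refine Spec.map_injective ?_
  rw [Spec.map_comp, Spec.map_id, ← fromSpecStalk_comp c]
  erw [← Category.assoc, Scheme.Spec_stalkClosedPointTo_fromSpecStalk]
  exact ε.2

/-- Evaluation at the rational point is the constant term of the expansion. -/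
theorem stalkClosedPointTo_germ {W : C.Opens} [Nonempty W] (hW : basePt c ε ∈ W)
    (s : SecRing c W) :
    Scheme.stalkClosedPointTo (R := CommRingCat.of k) ε.1
        (C.presheaf.germ W (basePt c ε) hW s) =
      PowerSeries.constantCoeff (expSeriesOpen c ε hW s) := by
  set π := baseUnif c ε
  set hπ := ord_baseUnif c ε
  set f := toPlaceRing c ε hW s with hf
  set a := Curve.valueAlgHom (basePlace c ε) f with ha
  have hc : PowerSeries.constantCoeff (expSeriesOpen c ε hW s) = a := by
    rw [← PowerSeries.coeff_zero_eq_constantCoeff_apply, expSeriesOpen_apply,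
      coeff_expHom_eq π hπ (p := Polynomial.C a) (n := 1) ?_ Nat.one_pos, Polynomial.coeff_C_zero]
    rw [pow_one, Polynomial.aeval_C]
    exact ⟨expStep π hπ f, by rw [sub_eq_iff_eq_add', ← expStep_spec]⟩
  rw [hc]
  -- the difference with the constant is not a unit at the point
  set d : C.presheaf.stalk (basePt c ε) :=
    C.presheaf.germ W (basePt c ε) hW s - stalkConst c (basePt c ε) a with hd
  have hnu : ¬ IsUnit d := by
    intro hu
    have h1 : stalkToFun c (basePt c ε) d = ((f - algebraMap k _ a : _) : FunField c) := by
      rw [hd, map_sub, stalkToFun_germ, stalkToFun_stalkConst]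
      rfl
    obtain ⟨w, hw⟩ := hu.exists_right_inv
    have h2 : IsUnit (f - algebraMap k (basePlace c ε).toValuationSubring a) := by
      refine IsUnit.of_mul_eq_one ⟨stalkToFun c (basePt c ε) w, ⟨w, rfl⟩⟩ (Subtype.ext ?_)
      have h3 := congrArg (stalkToFun c (basePt c ε)) hw
      rw [map_mul, map_one, h1] at h3
      exact h3
    have h4 := h2.map (Curve.valueAlgHom (basePlace c ε))
    rw [map_sub, AlgHom.commutes] at h4
    exact not_isUnit_zero (sub_self a ▸ h4)
  have h0 : Scheme.stalkClosedPointTo (R := CommRingCat.of k) ε.1 d = 0 := by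
    by_contra hne
    exact hnu ((Scheme.isLocalHom_stalkClosedPointTo' (R := k) ε.1).map_nonunit d
      (isUnit_iff_ne_zero.2 hne))
  have h5 := ConcreteCategory.congr_hom (stalkConst_comp_stalkClosedPointTo c ε) a
  erw [hd, map_sub, sub_eq_zero] at h0
  exact h0.trans h5

end FermatAgent.Jacobian
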