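import Fermat.Agent.Jacobian.Setup.SecExpansion
import Fermat.Agent.Jacobian.Setup.RatPoint
import Fermat.Prelude.Def_AlgebraicGeometry_RelativePicardFunctor

/-!
# Naturality of the expansions, and evaluation along the section
-/

set_option autoImplicit false

noncomputable section

open CategoryTheory CategoryTheory.Limits AlgebraicGeometry AlgebraicGeometry.RelPicard
  TopologicalSpace NeronModelInfra

namespace FermatAgent.Jacobian

open scoped TensorProduct

universe u

variable {k : Type u} [Field k] {C : Scheme.{u}} (c : C ⟶ Spec (CommRingCat.of k))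
  {A B : Type u} [CommRing A] [Algebra k A] [CommRing B] [Algebra k B] (f : A →ₐ[k] B)

/-- A morphism of algebras as a map of spectra over the base. -/
def algHomOver : SchemeHomOver (algSpecMap (k := k) B) (algSpecMap (k := k) A) :=
  ⟨Spec.map (CommRingCat.ofHom f.toRingHom), by
    rw [← Spec.map_comp, ← CommRingCat.ofHom_comp]
    exact congrArg (fun φ => Spec.map (CommRingCat.ofHom φ)) f.comp_algebraMap⟩

theorem baseChangeSnd_fst : baseChangeSnd c (algHomOver f) ≫ pullback.fst c _ = pullback.fst c _ := by
  rw [baseChangeSnd, pullback.lift_fst, Category.comp_id]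

theorem baseChangeSnd_snd : baseChangeSnd c (algHomOver f) ≫ pullback.snd c _ =
    pullback.snd c _ ≫ Spec.map (CommRingCat.ofHom f.toRingHom) := by
  rw [baseChangeSnd, pullback.lift_snd]
  rfl

theorem openAbove_le (W : C.Opens) :
    openAbove c B W ≤ baseChangeSnd c (algHomOver f) ⁻¹ᵁ openAbove c A W := by
  show openAbove c B W ≤ (baseChangeSnd c (algHomOver f) ≫ pullback.fst c _) ⁻¹ᵁ W
  rw [baseChangeSnd_fst]

/-- The pullback of functions along a change of algebra. -/
def secBC (W : C.Opens) :
    Γ(curveOver c A, openAbove c A W) →+* Γ(curveOver c B, openAbove c B W) :=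
  ((baseChangeSnd c (algHomOver f)).appLE (openAbove c A W) (openAbove c B W)
    (openAbove_le c f W)).hom

theorem secBC_curveSec (W : C.Opens) (s : Γ(C, W)) :
    secBC c f W (curveSec c A W s) = curveSec c B W s := by
  have h : (pullback.fst c (algSpecMap (k := k) A)).app W ≫
      (baseChangeSnd c (algHomOver f)).appLE (openAbove c A W) (openAbove c B W)
        (openAbove_le c f W) = (pullback.fst c (algSpecMap (k := k) B)).app W := by
    rw [← Scheme.Hom.appLE_eq_app, Scheme.Hom.appLE_comp_appLE]
    simp only [baseChangeSnd_fst, Scheme.Hom.appLE_eq_app]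
  exact ConcreteCategory.congr_hom h s

theorem secBC_baseSec (W : C.Opens) (a : A) :
    secBC c f W (baseSec c A W a) = baseSec c B W (f a) := by
  have hf : (Spec.map (CommRingCat.ofHom f.toRingHom)).appTop =
      (Spec.map (CommRingCat.ofHom f.toRingHom)).appLE ⊤ ⊤ le_top := by
    simp [Scheme.Hom.appLE]
  have h : ((Scheme.ΓSpecIso (CommRingCat.of A)).inv ≫
      (pullback.snd c (algSpecMap (k := k) A)).appLE ⊤ (openAbove c A W) le_top) ≫
      (baseChangeSnd c (algHomOver f)).appLE (openAbove c A W) (openAbove c B W)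
        (openAbove_le c f W) =
    CommRingCat.ofHom f.toRingHom ≫ (Scheme.ΓSpecIso (CommRingCat.of B)).inv ≫
      (pullback.snd c (algSpecMap (k := k) B)).appLE ⊤ (openAbove c B W) le_top := by
    rw [← Category.assoc (CommRingCat.ofHom f.toRingHom), Scheme.ΓSpecIso_inv_naturality,
      Category.assoc, Category.assoc, hf, Scheme.Hom.appLE_comp_appLE, Scheme.Hom.appLE_comp_appLE]
    simp only [baseChangeSnd_snd]
  exact ConcreteCategory.congr_hom h a

variable (ε : SchemeHomOver (𝟙 (Spec (CommRingCat.of k))) c)

theorem rigSection_le {W : C.Opens} (hW : ε.1 (IsLocalRing.closedPoint k) ∈ W) :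
    ⊤ ≤ rigSection c (algSpecMap (k := k) A) ε ⁻¹ᵁ openAbove c A W := by
  intro p _
  show (rigSection c (algSpecMap (k := k) A) ε ≫ pullback.fst c _) p ∈ W
  rw [rigSection, pullback.lift_fst, Scheme.Hom.comp_apply]
  convert hW using 3
  exact Subsingleton.elim (α := PrimeSpectrum k) _ _

/-- The value of a section along the rational point. -/
def rigValue {W : C.Opens} (hW : ε.1 (IsLocalRing.closedPoint k) ∈ W) :
    Γ(curveOver c A, openAbove c A W) →+* A :=
  ((rigSection c (algSpecMap (k := k) A) ε).appLE (openAbove c A W) ⊤ (rigSection_le c ε hW) ≫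
    (Scheme.ΓSpecIso (CommRingCat.of A)).hom).hom

theorem rigValue_baseSec {W : C.Opens} (hW : ε.1 (IsLocalRing.closedPoint k) ∈ W) (a : A) :
    rigValue c ε hW (baseSec c A W a) = a := by
  have h : ((Scheme.ΓSpecIso (CommRingCat.of A)).inv ≫
      (pullback.snd c (algSpecMap (k := k) A)).appLE ⊤ (openAbove c A W) le_top) ≫
      (rigSection c (algSpecMap (k := k) A) ε).appLE (openAbove c A W) ⊤ (rigSection_le c ε hW) ≫
        (Scheme.ΓSpecIso (CommRingCat.of A)).hom = 𝟙 _ := by
    rw [Category.assoc, Scheme.Hom.appLE_comp_appLE_assoc]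
    simp only [rigSection, pullback.lift_snd]
    simp [Scheme.Hom.appLE]
  exact ConcreteCategory.congr_hom h a

variable [IsAlgClosed k] [SmoothOfRelativeDimension 1 c] [IsIntegral C] [IsProper c]

theorem rigValue_curveSec {W : C.Opens} [Nonempty W] (hW : basePt c ε ∈ W) (s : Γ(C, W)) :
    rigValue c ε (A := A) hW (curveSec c A W s) =
      algebraMap k A (PowerSeries.constantCoeff (expSeriesOpen c ε hW s)) := by
  have hW' : ε.1 (IsLocalRing.closedPoint (CommRingCat.of k)) ∈ W := hW
  have hle : ⊤ ≤ ε.1 ⁻¹ᵁ W := (Scheme.preimage_eq_top_of_closedPoint_mem ε.1 hW').ge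
  have h1 : (pullback.fst c (algSpecMap (k := k) A)).app W ≫
      (rigSection c (algSpecMap (k := k) A) ε).appLE (openAbove c A W) ⊤ (rigSection_le c ε hW) ≫
        (Scheme.ΓSpecIso (CommRingCat.of A)).hom =
      (ε.1.appLE W ⊤ hle ≫ (Scheme.ΓSpecIso (CommRingCat.of k)).hom) ≫
        CommRingCat.ofHom (algebraMap k A) := by
    rw [Category.assoc, ← Scheme.ΓSpecIso_naturality, appTop_algSpecMap,
      ← Scheme.Hom.appLE_eq_app, Scheme.Hom.appLE_comp_appLE_assoc,
      Scheme.Hom.appLE_comp_appLE_assoc]
    simp only [rigSection, pullback.lift_fst]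
  have h2 := ConcreteCategory.congr_hom h1 s
  refine h2.trans (congrArg (algebraMap k A) ?_)
  refine Eq.trans ?_ (stalkClosedPointTo_germ c ε hW s)
  refine Eq.trans ?_ (ConcreteCategory.congr_hom
    (Scheme.germ_stalkClosedPointTo (R := CommRingCat.of k) ε.1 W hW') s).symm
  simp [Scheme.Hom.appLE]
  rfl

/-- The value along the rational point is the constant term of the expansion. -/
theorem rigValue_eq_coeff_expSec {W : C.Opens} [Nonempty W] (hW : basePt c ε ∈ W)
    (hWa : IsAffineOpen W) (x : Γ(curveOver c A, openAbove c A W)) :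
    rigValue c ε hW x = (expSec c ε A W hWa x).coeff 0 := by
  obtain ⟨y, rfl⟩ := (sectionsEquiv c A hWa).surjective x
  induction y using TensorProduct.induction_on with
  | zero => simp
  | add y z hy hz => rw [map_add, map_add, map_add, HahnSeries.coeff_add, hy, hz]
  | tmul a s =>
    rw [expSec_sectionsEquiv, tensorExp_tmul, coeff_C_mul, coeff_lsMap, sectionsEquiv_tmul,
      map_mul, rigValue_baseSec]
    refine congrArg (a * ·) ((rigValue_curveSec c ε hW s).trans (congrArg (algebraMap k A) ?_))
    rw [← ofPowerSeries_expSeriesOpen c ε hW, show (0 : ℤ) = ((0 : ℕ) : ℤ) from rfl,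
      HahnSeries.ofPowerSeries_apply_coeff, PowerSeries.coeff_zero_eq_constantCoeff_apply]

/-- The expansion commutes with change of coefficients. -/
theorem expSec_secBC {W : C.Opens} [Nonempty W] (hW : IsAffineOpen W)
    (x : Γ(curveOver c A, openAbove c A W)) :
    expSec c ε B W hW (secBC c f W x) = lsMap f.toRingHom (expSec c ε A W hW x) := by
  obtain ⟨y, rfl⟩ := (sectionsEquiv c A hW).surjective x
  induction y using TensorProduct.induction_on with
  | zero => simp
  | add y z hy hz => rw [map_add, map_add, map_add, map_add, map_add, hy, hz]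
  | tmul a s =>
    have h : secBC c f W (sectionsEquiv c A hW (a ⊗ₜ s)) = sectionsEquiv c B hW (f a ⊗ₜ s) := by
      rw [sectionsEquiv_tmul, sectionsEquiv_tmul, map_mul, secBC_baseSec]
      exact congrArg (baseSec c B W (f a) * ·) (secBC_curveSec c f W s)
    rw [h, expSec_sectionsEquiv, expSec_sectionsEquiv, tensorExp_tmul, tensorExp_tmul, map_mul,
      lsMap_C]
    congr 1
    ext i
    simp

end FermatAgent.Jacobian
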