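import Mathlib.FieldTheory.IsAlgClosed.Basic
import Mathlib.RingTheory.Jacobson.Ring
import Mathlib.RingTheory.TensorProduct.Free
import Mathlib.RingTheory.TensorProduct.Nontrivial
import Mathlib.RingTheory.FiniteType

/-!
# Domains over an algebraically closed field stay domains after extension

For domains `B`, `D` over an algebraically closed field `k`, the ring `B ⊗[k] D` is a domain:
specialise the coefficients of two zero divisors at the `k`-points of a finitely generated
subalgebra of `B`.
-/

set_option autoImplicit false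

noncomputable section

namespace FermatAgent.Jacobian

open scoped TensorProduct

universe u v w

variable {k : Type u} [Field k]

/-- A maximal ideal of a finitely generated algebra over an algebraically closed field is the
kernel of a point. -/
theorem exists_algHom_ker_eq [IsAlgClosed k] {B : Type v} [CommRing B] [Algebra k B]
    [Algebra.FiniteType k B] (m : Ideal B) [m.IsMaximal] :
    ∃ φ : B →ₐ[k] k, RingHom.ker φ = m := by
  let _ : Field (B ⧸ m) := Ideal.Quotient.field m
  have : Module.Finite k (B ⧸ m) := finite_of_finite_type_of_isJacobsonRing k (B ⧸ m)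
  have hbij := IsAlgClosed.algebraMap_bijective_of_isIntegral (k := k) (K := B ⧸ m)
  let e : k ≃ₐ[k] B ⧸ m := AlgEquiv.ofBijective (Algebra.ofId k (B ⧸ m)) hbij
  refine ⟨e.symm.toAlgHom.comp (Ideal.Quotient.mkₐ k m), ?_⟩
  ext x
  rw [RingHom.mem_ker, AlgHom.comp_apply]
  exact (map_eq_zero_iff _ e.symm.injective).trans Ideal.Quotient.eq_zero_iff_mem

/-- An element of a finitely generated domain over an algebraically closed field vanishing at
every point is zero. -/
theorem eq_zero_of_forall_algHom [IsAlgClosed k] {B : Type v} [CommRing B] [IsDomain B]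
    [Algebra k B] [Algebra.FiniteType k B] {c : B} (h : ∀ π : B →ₐ[k] k, π c = 0) : c = 0 := by
  have hj : IsJacobsonRing B := isJacobsonRing_of_finiteType (A := k)
  have hc : c ∈ (⊥ : Ideal B).jacobson := by
    refine Ideal.mem_sInf.2 fun m hm => ?_
    have : m.IsMaximal := hm.2
    obtain ⟨φ, rfl⟩ := exists_algHom_ker_eq (k := k) m
    exact h φ
  rwa [IsJacobsonRing.out hj (Ideal.isPrime_bot (α := B)).isRadical, Ideal.mem_bot] at hc

/-- Over an algebraically closed field the tensor product of two domains is a domain. -/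
theorem isDomain_tensorProduct [IsAlgClosed k] (B : Type v) (D : Type w) [CommRing B] [IsDomain B]
    [Algebra k B] [CommRing D] [IsDomain D] [Algebra k D] : IsDomain (B ⊗[k] D) := by
  classical
  have : Nontrivial (B ⊗[k] D) :=
    Algebra.TensorProduct.nontrivial_of_algebraMap_injective_of_isDomain k B D
      (FaithfulSMul.algebraMap_injective k B) (FaithfulSMul.algebraMap_injective k D)
  suffices NoZeroDivisors (B ⊗[k] D) from NoZeroDivisors.to_isDomain _
  refine ⟨fun {x y} hxy => ?_⟩
  let b := Module.Free.chooseBasis k D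
  let bB := Algebra.TensorProduct.basis B b
  let s : Finset B := (bB.repr x).frange ∪ (bB.repr y).frange
  let B₀ : Subalgebra k B := Algebra.adjoin k (s : Set B)
  have : Algebra.FiniteType k B₀ :=
    (Subalgebra.fg_iff_finiteType _).1 (Subalgebra.fg_adjoin_finset s)
  let b₀ := Algebra.TensorProduct.basis B₀ b
  let e : B₀ ⊗[k] D →ₐ[k] B ⊗[k] D := Algebra.TensorProduct.map B₀.val (AlgHom.id k D)
  have he : ∀ z i, bB.repr (e z) i = (b₀.repr z i : B) := fun z i => by
    induction z using TensorProduct.induction_on with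
    | zero => simp
    | tmul c d => simp [e, bB, b₀]
    | add z z' hz hz' => simp [map_add, hz, hz']
  have hinj : Function.Injective e := fun z z' h => b₀.repr.injective (Finsupp.ext fun i =>
    Subtype.ext (by rw [← he, ← he, h]))
  have hlift : ∀ z : B ⊗[k] D, (∀ i, bB.repr z i ∈ B₀) →
      ∃ z₀, e z₀ = z := fun z hz => by
    refine ⟨b₀.repr.symm ((bB.repr z).mapRange (fun c => if hc : c ∈ B₀ then (⟨c, hc⟩ : B₀) else 0)
      (by rw [dif_pos (zero_mem B₀)]; rfl)), bB.repr.injective (Finsupp.ext fun i => ?_)⟩
    rw [he, LinearEquiv.apply_symm_apply, Finsupp.mapRange_apply, dif_pos (hz i)]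
  have hmem : ∀ z : B ⊗[k] D, (bB.repr z).frange ⊆ s → ∀ i, bB.repr z i ∈ B₀ := fun z hz i => by
    by_cases h0 : bB.repr z i = 0
    · rw [h0]; exact zero_mem _
    · exact Algebra.subset_adjoin (hz (Finsupp.mem_frange.2 ⟨h0, i, rfl⟩))
  obtain ⟨x₀, hx₀⟩ := hlift x (hmem x Finset.subset_union_left)
  obtain ⟨y₀, hy₀⟩ := hlift y (hmem y Finset.subset_union_right)
  have h₀ : x₀ * y₀ = 0 := hinj (by rw [map_mul, hx₀, hy₀, hxy, map_zero])
  by_contra hne
  rw [not_or] at hne
  obtain ⟨i, hi⟩ : ∃ i, b₀.repr x₀ i ≠ 0 := by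
    by_contra h
    push Not at h
    exact hne.1 (by rw [← hx₀, show x₀ = 0 from b₀.repr.injective (Finsupp.ext (by simpa using h)), map_zero])
  obtain ⟨j, hj⟩ : ∃ j, b₀.repr y₀ j ≠ 0 := by
    by_contra h
    push Not at h
    exact hne.2 (by rw [← hy₀, show y₀ = 0 from b₀.repr.injective (Finsupp.ext (by simpa using h)), map_zero])
  refine mul_ne_zero hi hj (eq_zero_of_forall_algHom (k := k) fun π => ?_)
  let ev : B₀ ⊗[k] D →ₐ[k] D :=
    (Algebra.TensorProduct.lid k D).toAlgHom.comp (Algebra.TensorProduct.map π (AlgHom.id k D))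
  have hev : ∀ z l, b.repr (ev z) l = π (b₀.repr z l) := fun z l => by
    induction z using TensorProduct.induction_on with
    | zero => simp
    | tmul c d => simp [ev, b₀, mul_comm]
    | add z z' hz hz' => simp [map_add, hz, hz']
  rw [map_mul]
  rcases mul_eq_zero.1 (show ev x₀ * ev y₀ = 0 by rw [← map_mul, h₀, map_zero]) with h | h
  · rw [← hev, h, map_zero, Finsupp.zero_apply, zero_mul]
  · rw [← hev, ← hev, h, map_zero, Finsupp.zero_apply, mul_zero]

end FermatAgent.Jacobian
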