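import Fermat.Agent.Jacobian.Setup.DiagonalClass

/-!
# Rational points of the affine curve as characters
-/

set_option autoImplicit false
set_option linter.unusedSectionVars false

noncomputable section

open CategoryTheory CategoryTheory.Limits AlgebraicGeometry TopologicalSpace NeronModelInfra

namespace FermatAgent.Jacobian

open Cocycle (opull)

universe u

variable {k : Type u} [Field k] [IsAlgClosed k] {C : Scheme.{u}}
  (c : C ⟶ Spec (CommRingCat.of k)) [SmoothOfRelativeDimension 1 c] [IsIntegral C] [IsProper c]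
  (ε : SchemeHomOver (𝟙 (Spec (CommRingCat.of k))) c)
  (x : SchemeHomOver (algSpecMap (k := k) k) c)

theorem top_le_preimage {W : C.Opens} (hx : ptOf c x ∈ W) : ⊤ ≤ x.1 ⁻¹ᵁ W := fun p _ => by
  show x.1 p ∈ W
  rwa [apply_eq_ptOf]

/-- Evaluation of sections at a rational point. -/
def evalHom {W : C.Opens} (hx : ptOf c x ∈ W) : Γ(C, W) →+* k :=
  (x.1.appLE W ⊤ (top_le_preimage c x hx) ≫ (Scheme.ΓSpecIso (CommRingCat.of k)).hom).hom

theorem evalHom_eq_zero_iff {W : C.Opens} (hx : ptOf c x ∈ W) (r : Γ(C, W)) :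
    evalHom c x hx r = 0 ↔ opull x.1 (top_le_preimage c x hx) r = 0 := by
  refine ⟨fun h => (ConcreteCategory.bijective_of_isIso
    (Scheme.ΓSpecIso (CommRingCat.of k)).hom).1 (h.trans (map_zero _).symm), fun h => ?_⟩
  show (Scheme.ΓSpecIso (CommRingCat.of k)).hom (opull x.1 (top_le_preimage c x hx) r) = 0
  rw [h]
  exact map_zero _

theorem evalHom_sectionsHom {W : C.Opens} (hx : ptOf c x ∈ W) (a : k) :
    evalHom c x hx (sectionsHom c W a) = a := by
  have h : ((Scheme.ΓSpecIso (CommRingCat.of k)).inv ≫ c.appLE ⊤ W le_top) ≫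
      x.1.appLE W ⊤ (top_le_preimage c x hx) ≫ (Scheme.ΓSpecIso (CommRingCat.of k)).hom = 𝟙 _ := by
    rw [Category.assoc, Scheme.Hom.appLE_comp_appLE_assoc]
    simp only [x.2]
    simp only [algSpecMap_self]
    simp [Scheme.Hom.appLE]
  exact ConcreteCategory.congr_hom h a

/-- Evaluation at a point of the affine curve. -/
def pointEval (hx : ptOf c x ∈ baseOpen c ε) : (curveDatum c ε).R →ₐ[k] k :=
  { (evalHom c x hx : (curveDatum c ε).R →+* k) with
    commutes' := evalHom_sectionsHom c x hx }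

theorem pointEval_apply (hx : ptOf c x ∈ baseOpen c ε) (r : (curveDatum c ε).R) :
    pointEval c ε x hx r = evalHom c x hx r := rfl

/-- The evaluation at the point of a morphism of the ring of sections. -/
theorem evalHom_eq_of_eq_fromSpec {W : C.Opens} (hW : IsAffineOpen W) (hx : ptOf c x ∈ W)
    (φ : Γ(C, W) ⟶ CommRingCat.of k) (h : x.1 = Spec.map φ ≫ hW.fromSpec) :
    evalHom c x hx = φ.hom := by
  refine congrArg CommRingCat.Hom.hom ?_
  simp only [h]
  rw [← Scheme.Hom.appLE_comp_appLE (Spec.map φ) hW.fromSpec W ⊤ ⊤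
    hW.fromSpec_preimage_self.ge le_top]
  simp [Scheme.Hom.appLE, hW.fromSpec_app_self]
  have hid : ∀ f : Opposite.op (⊤ : (Spec Γ(C, W)).Opens) ⟶ Opposite.op ⊤,
      (Spec Γ(C, W)).presheaf.map f = 𝟙 _ := fun f => by
    rw [show f = 𝟙 _ from Subsingleton.elim _ _]
    exact (Spec Γ(C, W)).presheaf.map_id _
  erw [← Functor.map_comp_assoc, hid, Category.id_comp, Iso.inv_hom_id_assoc]

end FermatAgent.Jacobian
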