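import Fermat.Agent.Jacobian.Setup.Place
import Fermat.Agent.Curve.RR.Setup

/-!
# A proper smooth curve minus a point is affine

Riemann–Roch gives, for every closed point `x` off `P`, a function with poles only at `P` that is a
unit at `x` and vanishes on a prescribed finite set; so the complement of `P` is covered by affine
principal opens whose functions generate the unit ideal.
-/

set_option autoImplicit false

noncomputable section

open CategoryTheory AlgebraicGeometry TopologicalSpace AlgebraicCurve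

namespace FermatAgent.Jacobian

universe u

variable {k : Type u} [Field k] [IsAlgClosed k] {C : Scheme.{u}}
  (c : C ⟶ Spec (CommRingCat.of k)) [SmoothOfRelativeDimension 1 c] [IsIntegral C] [IsProper c]
  {P : C} (hP : P ≠ genericPoint C)

/-- The complement of a closed point. -/
def puncture : C.Opens :=
  ⟨{P}ᶜ, (isClosed_singleton_of_ne_genericPoint c hP).isOpen_compl⟩

omit [IsProper c] in
theorem mem_puncture {x : C} : x ∈ puncture c hP ↔ x ≠ P := Iff.rfl

instance nonempty_puncture : Nonempty (puncture c hP) := ⟨⟨genericPoint C, fun h => hP h.symm⟩⟩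

omit [IsProper c] in
theorem toFunField_germ_ord_nonneg {U : C.Opens} [Nonempty U] {x : C}
    (hx : x ≠ genericPoint C) (hxU : x ∈ U) (s : Γ(C, U)) :
    0 ≤ (pointPlace c x hx).ord (toFunField c U s) :=
  Curve.ord_nonneg_of_mem' _ (toFunField_mem_pointRing c hxU s)

omit [IsProper c] in
/-- A germ is a unit exactly when the order vanishes. -/
theorem isUnit_germ_iff_ord {U : C.Opens} [Nonempty U] {x : C} (hx : x ≠ genericPoint C)
    (hxU : x ∈ U) {s : Γ(C, U)} (hs : s ≠ 0) :
    IsUnit (C.presheaf.germ U x hxU s) ↔ (pointPlace c x hx).ord (toFunField c U s) = 0 := by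
  have hs0 : toFunField c U s ≠ 0 := fun h => hs ((map_eq_zero_iff _ (toFunField_injective c U)).1 h)
  have h0 := toFunField_germ_ord_nonneg c hx hxU s
  constructor
  · intro hu
    obtain ⟨w, hw⟩ := hu.exists_right_inv
    have h1 := congrArg (stalkToFun c x) hw
    rw [map_mul, map_one, stalkToFun_germ] at h1
    have hmem : (toFunField c U s)⁻¹ ∈ pointRing c x :=
      ⟨w, (eq_inv_of_mul_eq_one_right h1)⟩
    have h2 := Curve.ord_nonneg_of_mem' (pointPlace c x hx) hmem
    rw [(pointPlace c x hx).ord_inv] at h2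
    omega
  · intro hord
    have hmem : (toFunField c U s)⁻¹ ∈ (pointPlace c x hx).toValuationSubring :=
      (Curve.mem_iff_ord_nonneg' _).2 (by rw [(pointPlace c x hx).ord_inv]; omega)
    obtain ⟨w, hw⟩ := hmem
    refine IsUnit.of_mul_eq_one w (stalkToFun_injective c x ?_)
    rw [map_mul, map_one, stalkToFun_germ, hw, mul_inv_cancel₀ hs0]

/-- The functions regular away from `P`. -/
theorem mem_range_puncture_iff {f : FunField c} :
    f ∈ Set.range (toFunField c (puncture c hP)) ↔
      ∀ v : Place k (FunField c), v ≠ pointPlace c P hP → f ∈ v.toValuationSubring := by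
  constructor
  · rintro ⟨s, rfl⟩ v hv
    obtain ⟨x, hx, rfl⟩ := exists_center c v
    exact toFunField_mem_pointRing c ((mem_puncture c hP).2 fun h => hv (by subst h; rfl)) s
  · intro h
    have hle : puncture c hP ≤ regOpen (C := C) f := by
      intro x hx
      by_cases hxη : x = genericPoint C
      · subst hxη; exact genericPoint_mem_regOpen (C := C) f
      · exact h (pointPlace c x hxη) fun he => hx (pointPlace_injective c hxη hP he)
    refine ⟨C.presheaf.map (homOfLE hle).op (regFun (C := C) f), ?_⟩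
    rw [toFunField_map]
    exact germ_regFun (C := C) f

/-- For `x` off `P` and finitely many further points, a function with poles only at `P` which is a
unit at `x` and vanishes at those points. -/
theorem exists_separating {x : C} (hx : x ≠ genericPoint C) (hxP : x ≠ P) {Z : Set C}
    (hZ : Z.Finite) (hxZ : x ∉ Z) (hPZ : P ∉ Z) (hηZ : genericPoint C ∉ Z) :
    ∃ g : Γ(C, puncture c hP), g ≠ 0 ∧
      (pointPlace c x hx).ord (toFunField c _ g) = 0 ∧
      ∀ (y : C) (hy : y ≠ genericPoint C), y ∈ Z →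
        0 < (pointPlace c y hy).ord (toFunField c _ g) := by
  classical
  have : Finite Z := hZ.to_subtype
  let f : Z → Place k (FunField c) := fun z => pointPlace c z.1 fun h => hηZ (h ▸ z.2)
  obtain ⟨S, hS⟩ : ∃ S : Finset (Place k (FunField c)), ∀ v, v ∈ S ↔ v ∈ Set.range f :=
    ⟨(Set.finite_range f).toFinset, fun v => Set.Finite.mem_toFinset _⟩
  set E : Divisor k (FunField c) := ∑ v ∈ S, Finsupp.single v 1 with hE
  have hEv : ∀ v, E v = if v ∈ S then 1 else 0 := fun v => by
    rw [hE, Finsupp.finsetSum_apply, Finset.sum_congr rfl fun w _ => Finsupp.single_apply]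
    exact Finset.sum_ite_eq' S v fun _ => (1 : ℤ)
  set N : ℤ := 2 * (genusFF k (FunField c) : ℤ) + S.card with hN
  have hdegE : Divisor.degree E = S.card := by
    rw [hE, map_sum, Finset.sum_congr rfl fun v _ => Curve.RR.degree_single v 1]
    simp
  obtain ⟨g, hg, hg0, hgx⟩ := Curve.RR.exists_mem_ord_eq
    (D := Finsupp.single (pointPlace c P hP) N - E)
    (by rw [map_sub, Curve.RR.degree_single, hdegE]; omega) (pointPlace c x hx)
  have hord : ∀ v : Place k (FunField c), v ≠ pointPlace c P hP → E v ≤ v.ord g := fun v hv => by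
    have h1 := (mem_riemannRochSpace_iff.mp hg v).resolve_left hg0
    rw [Finsupp.sub_apply, Finsupp.single_eq_of_ne hv, zero_sub, neg_neg] at h1
    exact h1
  obtain ⟨s, rfl⟩ := (mem_range_puncture_iff c hP).2 fun v hv =>
    (Curve.mem_iff_ord_nonneg' v).2 (le_trans (by rw [hEv]; split_ifs <;> omega) (hord v hv))
  refine ⟨s, fun h => hg0 (by rw [h, map_zero]), ?_, fun y hy hyZ => ?_⟩
  · rw [hgx, Finsupp.sub_apply, Finsupp.single_eq_of_ne fun h => hxP (pointPlace_injective c hx hP h),
      hEv, if_neg, zero_sub, neg_neg]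
    rw [hS]
    rintro ⟨z, hz⟩
    exact hxZ (pointPlace_injective c _ hx hz ▸ z.2)
  · refine lt_of_lt_of_le ?_ (hord _ fun h => hPZ (pointPlace_injective c hy hP h ▸ hyZ))
    rw [hEv, if_pos ((hS _).2 ⟨⟨y, hyZ⟩, rfl⟩)]
    omega

/-- **A proper smooth curve minus a point is affine.** -/
theorem isAffineOpen_puncture : IsAffineOpen (puncture c hP) := by
  classical
  have key : ∀ (x : C), x ≠ genericPoint C → x ≠ P →
      ∃ g : Γ(C, puncture c hP), g ≠ 0 ∧ IsAffineOpen (C.basicOpen g) ∧ x ∈ C.basicOpen g := by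
    intro x hx hxP
    obtain ⟨_, ⟨W, hW, rfl⟩, hxW, hWle⟩ := C.isBasis_affineOpens.exists_subset_of_mem_open
      ((mem_puncture c hP).2 hxP) (puncture c hP).isOpen
    replace hW : IsAffineOpen W := hW
    have hηW : genericPoint C ∈ W :=
      ((genericPoint_spec C).mem_open_set_iff W.isOpen).mpr ⟨x, Set.mem_univ x, hxW⟩
    set Z : Set C := (puncture c hP : Set C) \ W with hZ
    have hfin : Z.Finite := (finite_of_isClosed c (S := (W : Set C)ᶜ)
      W.isOpen.isClosed_compl (fun h => h hηW)).subset fun y hy => hy.2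
    obtain ⟨g, hg0, hgx, hgZ⟩ := exists_separating c hP hx hxP hfin (fun h => h.2 hxW)
      (fun h => (mem_puncture c hP).1 h.1 rfl) (fun h => h.2 hηW)
    refine ⟨g, hg0, ?_, (Scheme.mem_basicOpen C g x ((mem_puncture c hP).2 hxP)).2
      ((isUnit_germ_iff_ord c hx _ hg0).2 hgx)⟩
    have hle : C.basicOpen g ≤ W := by
      intro y hy
      by_contra hyW
      have hyU : y ∈ puncture c hP := C.basicOpen_le g hy
      have hyη : y ≠ genericPoint C := fun h => hyW (h ▸ hηW)
      have h1 := (Scheme.mem_basicOpen C g y hyU).1 hy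
      rw [isUnit_germ_iff_ord c hyη hyU hg0] at h1
      have := hgZ y hyη ⟨hyU, hyW⟩
      omega
    have h2 : C.basicOpen (C.presheaf.map (homOfLE hWle).op g) = C.basicOpen g := by
      rw [Scheme.basicOpen_res]
      exact inf_eq_right.2 hle
    exact h2 ▸ hW.basicOpen _
  refine isAffineOpen_of_isAffineOpen_basicOpen _
    {g | g ≠ 0 ∧ IsAffineOpen (C.basicOpen g)} ?_ fun g hg => hg.2
  by_contra hne
  obtain ⟨M, hM, hle⟩ := Ideal.exists_le_maximal _ hne
  let : Algebra Γ(C, puncture c hP) (FunField c) := (toFunField c _).toAlgebra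
  let R : Subring (FunField c) := (toFunField c (puncture c hP)).range
  let M' : Ideal R := M.map (toFunField c (puncture c hP)).rangeRestrict
  have hinj : Function.Injective (toFunField c (puncture c hP)).rangeRestrict := fun a b h =>
    toFunField_injective c _ (congrArg Subtype.val h)
  have hM' : M' ≠ ⊤ := fun h => hM.ne_top <| by
    rw [← Ideal.comap_map_of_bijective _ ⟨hinj, RingHom.rangeRestrict_surjective _⟩ (I := M)]
    show M'.comap _ = ⊤
    rw [h, Ideal.comap_top]
  obtain ⟨V, hV, hVM⟩ := Ideal.image_subset_nonunits_valuationSubring M' hM'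
  have hmemM : ∀ g ∈ M, toFunField c _ g ∈ V.nonunits := fun g hg =>
    hVM ⟨_, Ideal.mem_map_of_mem _ hg, rfl⟩
  have hK : ∀ a : k, algebraMap k (FunField c) a ∈ V := fun a =>
    hV ⟨_, toFunField_sectionsHom c (puncture c hP) a⟩
  obtain ⟨f₀, hf₀0, hf₀, hf₀'⟩ := Curve.RR.exists_single_pole (pointPlace c P hP)
    (n := 2 * genusFF k (FunField c) + 1) (by omega) (by omega)
  obtain ⟨x₀, hx₀, hx₀P⟩ : ∃ x₀ : C, x₀ ≠ genericPoint C ∧ x₀ ≠ P := by
    obtain ⟨v, hv⟩ : ∃ v : Place k (FunField c), 0 < v.ord f₀ :=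
      Curve.exists_ord_pos_of_transcendental
        (Curve.transcendental_of_ord_ne_zero (pointPlace c P hP) (by omega))
    obtain ⟨x, hx, rfl⟩ := exists_center c v
    exact ⟨x, hx, fun h => by subst h; omega⟩
  obtain ⟨g₀, hg₀0, hg₀, -⟩ := key x₀ hx₀ hx₀P
  have hne' : V ≠ ⊤ := fun htop => by
    have h := hmemM g₀ (hle (Ideal.subset_span ⟨hg₀0, hg₀⟩))
    rw [htop, ValuationSubring.mem_nonunits_iff_exists_mem_maximalIdeal] at h
    obtain ⟨hm, hmax⟩ := h
    exact hmax (IsUnit.of_mul_eq_one ⟨(toFunField c _ g₀)⁻¹, ValuationSubring.mem_top _⟩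
      (Subtype.ext (mul_inv_cancel₀ fun h0 =>
        hg₀0 ((map_eq_zero_iff _ (toFunField_injective c _)).1 h0))))
  obtain ⟨x, hx, hxv⟩ := exists_center c (Curve.placeOfValuationSubring V hK hne')
  have hxP : x ≠ P := by
    rintro rfl
    obtain ⟨s, hs⟩ := (mem_range_puncture_iff c hP (f := f₀)).2 fun v hv =>
      (Curve.mem_iff_ord_nonneg' v).2 (hf₀' v hv)
    have h1 : f₀ ∈ V := hs ▸ hV ⟨s, rfl⟩
    have h2 : 0 ≤ (pointPlace c x hP).ord f₀ := by
      rw [show pointPlace c x hP = pointPlace c x hx from rfl, hxv]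
      exact Curve.ord_nonneg_of_mem' _ h1
    omega
  obtain ⟨g, hg0, hgaff, hxg⟩ := key x hx hxP
  have h1 := (Scheme.mem_basicOpen C g x ((mem_puncture c hP).2 hxP)).1 hxg
  rw [isUnit_germ_iff_ord c hx _ hg0, hxv] at h1
  have h2 : toFunField c _ g ∈ V.nonunits := hmemM g (hle (Ideal.subset_span ⟨hg0, hgaff⟩))
  rcases (Curve.mem_nonunits_iff_ord_pos (Curve.placeOfValuationSubring V hK hne')).mp h2 with h | h
  · exact hg0 ((map_eq_zero_iff _ (toFunField_injective c _)).1 h)
  · omega

omit [IsProper c] in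
/-- Functions without poles are constant. -/
theorem mem_range_algebraMap_of_ord_nonneg {f : FunField c}
    (h : ∀ v : Place k (FunField c), 0 ≤ v.ord f) : f ∈ Set.range (algebraMap k (FunField c)) :=
  Curve.forall_ord_nonneg_iff.mp h

end FermatAgent.Jacobian
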