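import Fermat.Agent.Jacobian.Setup.Curve
import Fermat.Prelude.Def_AlgebraicGeometry_NeronModelPropertyBundleCarrier

/-!
# Base change of a curve to an algebra

The opens `W_A` of `C_A`, and `Γ(C_A, W_A) = A ⊗ Γ(C, W)` for affine `W`.
-/

set_option autoImplicit false

noncomputable section

open CategoryTheory CategoryTheory.Limits AlgebraicGeometry TopologicalSpace NeronModelInfra

namespace FermatAgent.Jacobian

open scoped TensorProduct

universe u

variable {k : Type u} [Field k] {C : Scheme.{u}} (c : C ⟶ Spec (CommRingCat.of k))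
  (A : Type u) [CommRing A] [Algebra k A]

/-- The structure map of the spectrum of an algebra. -/
abbrev algSpecMap : Spec (CommRingCat.of A) ⟶ Spec (CommRingCat.of k) :=
  Spec.map (CommRingCat.ofHom (algebraMap k A))

/-- The base change of the curve. -/
abbrev curveOver : Scheme.{u} := pullback c (algSpecMap (k := k) A)

/-- The open above an open of the curve. -/
abbrev openAbove (W : C.Opens) : (curveOver c A).Opens :=
  pullback.fst c (algSpecMap (k := k) A) ⁻¹ᵁ W

theorem algSpecMap_self : algSpecMap (k := k) k = 𝟙 (Spec (CommRingCat.of k)) :=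
  Spec.map_id _

/-- A rational point, as a point with values in the algebra `k`. -/
def algPoint {c : C ⟶ Spec (CommRingCat.of k)}
    (x : SchemeHomOver (𝟙 (Spec (CommRingCat.of k))) c) :
    SchemeHomOver (algSpecMap (k := k) k) c :=
  ⟨x.1, x.2.trans algSpecMap_self.symm⟩

/-- A point with values in the algebra `k`, as a rational point. -/
def ratPoint {c : C ⟶ Spec (CommRingCat.of k)}
    (x : SchemeHomOver (algSpecMap (k := k) k) c) :
    SchemeHomOver (𝟙 (Spec (CommRingCat.of k))) c :=
  ⟨x.1, x.2.trans algSpecMap_self⟩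

theorem appTop_algSpecMap :
    (algSpecMap (k := k) A).appTop = (algSpecMap (k := k) A).appLE ⊤ ⊤ le_top := by
  simp [Scheme.Hom.appLE]

theorem isAffineOpen_openAbove {W : C.Opens} (hW : IsAffineOpen W) :
    IsAffineOpen (openAbove c A W) :=
  haveI : IsAffineHom (pullback.fst c (algSpecMap (k := k) A)) :=
    MorphismProperty.pullback_fst _ _ inferInstance
  hW.preimage _

theorem openAbove_inf (W W' : C.Opens) :
    openAbove c A (W ⊓ W') = openAbove c A W ⊓ openAbove c A W' := rfl

theorem openAbove_sup {W W' : C.Opens} (h : W ⊔ W' = ⊤) :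
    openAbove c A W ⊔ openAbove c A W' = ⊤ := by
  show pullback.fst c (algSpecMap (k := k) A) ⁻¹ᵁ (W ⊔ W') = ⊤
  rw [h]
  rfl

/-- A scalar as a function on an open of the base change. -/
def baseSec (W : C.Opens) : A →+* Γ(curveOver c A, openAbove c A W) :=
  ((Scheme.ΓSpecIso (CommRingCat.of A)).inv ≫
    (pullback.snd c (algSpecMap (k := k) A)).appLE ⊤ (openAbove c A W) le_top).hom

/-- A function on the curve as a function on the base change. -/
def curveSec (W : C.Opens) : Γ(C, W) →+* Γ(curveOver c A, openAbove c A W) :=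
  ((pullback.fst c (algSpecMap (k := k) A)).app W).hom

theorem baseSec_algebraMap (W : C.Opens) (a : k) :
    baseSec c A W (algebraMap k A a) = curveSec c A W (sectionsHom c W a) := by
  have h : CommRingCat.ofHom (algebraMap k A) ≫ (Scheme.ΓSpecIso (CommRingCat.of A)).inv ≫
      (pullback.snd c (algSpecMap (k := k) A)).appLE ⊤ (openAbove c A W) le_top =
    (Scheme.ΓSpecIso (CommRingCat.of k)).inv ≫ c.appLE ⊤ W le_top ≫
      (pullback.fst c (algSpecMap (k := k) A)).app W := by
    rw [← Category.assoc, Scheme.ΓSpecIso_inv_naturality, Category.assoc]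
    congr 1
    rw [← Scheme.Hom.appLE_eq_app (pullback.fst c (algSpecMap (k := k) A)), appTop_algSpecMap,
      Scheme.Hom.appLE_comp_appLE, Scheme.Hom.appLE_comp_appLE]
    simp only [pullback.condition]
  exact ConcreteCategory.congr_hom h a

/-- The comparison map `A ⊗ Γ(C, W) → Γ(C_A, W_A)`. -/
def sectionsBC (W : C.Opens) :
    letI := sectionsAlgebra c W
    A ⊗[k] Γ(C, W) →+* Γ(curveOver c A, openAbove c A W) :=
  letI := sectionsAlgebra c W
  ((CommRingCat.isPushout_tensorProduct k A Γ(C, W)).desc
    (CommRingCat.ofHom (baseSec c A W)) (CommRingCat.ofHom (curveSec c A W))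
    (CommRingCat.hom_ext (RingHom.ext (baseSec_algebraMap c A W)))).hom

theorem sectionsBC_tmul (W : C.Opens) (a : A) (s : Γ(C, W)) :
    letI := sectionsAlgebra c W
    sectionsBC c A W (a ⊗ₜ s) = baseSec c A W a * curveSec c A W s := by
  let := sectionsAlgebra c W
  have h := CommRingCat.isPushout_tensorProduct k A Γ(C, W)
  have h1 := ConcreteCategory.congr_hom (h.inl_desc (CommRingCat.ofHom (baseSec c A W))
    (CommRingCat.ofHom (curveSec c A W))
    (CommRingCat.hom_ext (RingHom.ext (baseSec_algebraMap c A W)))) a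
  have h2 := ConcreteCategory.congr_hom (h.inr_desc (CommRingCat.ofHom (baseSec c A W))
    (CommRingCat.ofHom (curveSec c A W))
    (CommRingCat.hom_ext (RingHom.ext (baseSec_algebraMap c A W)))) s
  rw [show a ⊗ₜ[k] s = (a ⊗ₜ[k] (1 : Γ(C, W))) * ((1 : A) ⊗ₜ[k] s) by simp, map_mul]
  exact congrArg₂ (· * ·) h1 h2

/-- Sections on affine opens commute with base change. -/
theorem sectionsBC_bijective {W : C.Opens} (hW : IsAffineOpen W) :
    Function.Bijective (sectionsBC c A W) := by
  let := sectionsAlgebra c W
  have := isIso_pushoutSection_of_isAffineOpen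
    (IsPullback.of_hasPullback c (algSpecMap (k := k) A)) (US := ⊤) (UT := ⊤) (UX := W)
    (UY := openAbove c A W) le_top le_top (by simp) (isAffineOpen_top _) (isAffineOpen_top _) hW
  rw [isIso_pushoutSection_iff] at this
  have h : IsPushout (CommRingCat.ofHom (algebraMap k A))
      (CommRingCat.ofHom (algebraMap k Γ(C, W)))
      (CommRingCat.ofHom (baseSec c A W)) (CommRingCat.ofHom (curveSec c A W)) := by
    refine this.flip.of_iso (Scheme.ΓSpecIso (CommRingCat.of k)) (Scheme.ΓSpecIso (CommRingCat.of A))
      (Iso.refl _) (Iso.refl _) ?_ ?_ ?_ ?_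
    · rw [← appTop_algSpecMap, Scheme.ΓSpecIso_naturality]
    · rw [Iso.refl_hom, Category.comp_id]
      ext a
      simp only [CommRingCat.comp_apply, CommRingCat.hom_ofHom]
      show _ = sectionsHom c W _
      simp [sectionsHom]
    · rw [Iso.refl_hom, Category.comp_id]
      ext a
      simp [baseSec]
    · simp [curveSec, Scheme.Hom.app_eq_appLE]
  let e := (CommRingCat.isPushout_tensorProduct k A Γ(C, W)).isoIsPushout _ _ h
  have he : sectionsBC c A W = e.hom.hom := by
    refine congrArg CommRingCat.Hom.hom ?_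
    refine (CommRingCat.isPushout_tensorProduct k A Γ(C, W)).hom_ext ?_ ?_
    · rw [IsPushout.inl_desc, IsPushout.inl_isoIsPushout_hom]
    · rw [IsPushout.inr_desc, IsPushout.inr_isoIsPushout_hom]
  rw [he]
  exact e.commRingCatIsoToRingEquiv.bijective

theorem sectionsBC_map {W W' : C.Opens} (i : W' ⟶ W) (a : A) (s : Γ(C, W)) :
    letI := sectionsAlgebra c W
    letI := sectionsAlgebra c W'
    (curveOver c A).presheaf.map
        ((TopologicalSpace.Opens.map (pullback.fst c (algSpecMap (k := k) A)).base).map i).op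
        (sectionsBC c A W (a ⊗ₜ s)) =
      sectionsBC c A W' (a ⊗ₜ C.presheaf.map i.op s) := by
  rw [sectionsBC_tmul, sectionsBC_tmul, map_mul]
  congr 1
  · exact ConcreteCategory.congr_hom ((pullback.snd c (algSpecMap (k := k) A)).appLE_map le_top _)
      ((Scheme.ΓSpecIso (CommRingCat.of A)).inv a)
  · exact (ConcreteCategory.congr_hom
      ((pullback.fst c (algSpecMap (k := k) A)).naturality i.op) s).symm

end FermatAgent.Jacobian
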