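import Fermat.Agent.Jacobian.Setup.Datum

/-!
# Expansions of sections on open sets

Every nonempty open has an expansion at the rational point; near the point the sections without
terms below `n` are the multiples of the `n`-th power of the uniformiser.
-/

set_option autoImplicit false

noncomputable section

open CategoryTheory AlgebraicGeometry TopologicalSpace AlgebraicCurve NeronModelInfra

namespace FermatAgent.Jacobian

universe u

variable {k : Type u} [Field k] {C : Scheme.{u}} (c : C ⟶ Spec (CommRingCat.of k))

/-- The sections on an open, as an algebra over `k`. -/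
def SecRing (_c : C ⟶ Spec (CommRingCat.of k)) (W : C.Opens) : Type u := Γ(C, W)

instance (W : C.Opens) : CommRing (SecRing c W) := inferInstanceAs (CommRing Γ(C, W))

instance (W : C.Opens) : Algebra k (SecRing c W) := sectionsAlgebra c W

theorem algebraMap_secRing (W : C.Opens) (a : k) :
    algebraMap k (SecRing c W) a = sectionsHom c W a := rfl

variable [IsAlgClosed k] [SmoothOfRelativeDimension 1 c] [IsIntegral C] [IsProper c]
  (ε : SchemeHomOver (𝟙 (Spec (CommRingCat.of k))) c)

/-- The expansion of sections at the rational point. -/
def expOpen (W : C.Opens) [Nonempty W] : SecRing c W →+* LaurentSeries k :=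
  (expBase c ε).comp (toFunField c W)

theorem expOpen_apply (W : C.Opens) [Nonempty W] (s : SecRing c W) :
    expOpen c ε W s = expBase c ε (toFunField c W s) := rfl

theorem expOpen_injective (W : C.Opens) [Nonempty W] : Function.Injective (expOpen c ε W) :=
  (RingHom.injective (expBase c ε)).comp (toFunField_injective c W)

theorem expOpen_map {W W' : C.Opens} [Nonempty W] [Nonempty W'] (i : W' ⟶ W) (s : SecRing c W) :
    expOpen c ε W' (C.presheaf.map i.op s) = expOpen c ε W s := by
  rw [expOpen_apply, toFunField_map]
  rfl

theorem expOpen_algebraMap (W : C.Opens) [Nonempty W] (a : k) :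
    expOpen c ε W (algebraMap k (SecRing c W) a) = HahnSeries.C a := by
  rw [expOpen_apply, algebraMap_secRing]
  erw [toFunField_sectionsHom]
  rw [expBase_algebraMap]

theorem expOpen_chartParam :
    expOpen c ε (chartOpen c ε) (chartParam c ε) = HahnSeries.single 1 1 := by
  rw [expOpen_apply, toFunField_chartParam]
  exact expField_uniformiser _ _

/-- The uniformiser on the neighbourhood of the point. -/
def chartVar : SecRing c (chartOpen c ε) := chartParam c ε

theorem toFunField_chartVar :
    toFunField c (chartOpen c ε) (chartVar c ε) = (baseUnif c ε : FunField c) :=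
  toFunField_chartParam c ε

theorem expOpen_chartVar :
    expOpen c ε (chartOpen c ε) (chartVar c ε) = HahnSeries.single 1 1 :=
  expOpen_chartParam c ε

/-- Sections near the point have no polar part. -/
theorem coeff_expOpen_of_neg {W : C.Opens} [Nonempty W] (hW : basePt c ε ∈ W) (s : SecRing c W)
    {i : ℤ} (hi : i < 0) : (expOpen c ε W s).coeff i = 0 :=
  (coeff_expBase_eq_zero_iff c ε).2
    (Or.inr (toFunField_germ_ord_nonneg c (basePt_ne c ε) hW s)) i hi

theorem coeff_expOpen_chart_eq_zero_iff (s : SecRing c (chartOpen c ε)) (n : ℕ) :
    (∀ i : ℤ, i < n → (expOpen c ε (chartOpen c ε) s).coeff i = 0) ↔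
      ∃ b : SecRing c (chartOpen c ε), s = chartVar c ε ^ n * b := by
  let V := chartOpen c ε
  set π : FunField c := (baseUnif c ε : FunField c) with hπdef
  have hπ : (basePlace c ε).ord π = 1 := ord_baseUnif c ε
  have hπ0 : π ≠ 0 := fun h => by rw [h] at hπ; simp at hπ
  constructor
  · intro h
    rcases (coeff_expBase_eq_zero_iff c ε (f := toFunField c V s) (n := n)).1 h with h0 | hord
    · exact ⟨0, by rw [mul_zero]; exact toFunField_injective c V (h0.trans (map_zero _).symm)⟩
    set g : FunField c := toFunField c V s * (π ^ n)⁻¹ with hg
    have hV : V ≤ regOpen (C := C) g := by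
      intro x hx
      by_cases hxη : x = genericPoint C
      · subst hxη; exact genericPoint_mem_regOpen (C := C) g
      refine (Curve.mem_iff_ord_nonneg' (pointPlace c x hxη)).2 ?_
      rcases eq_or_ne (toFunField c V s) 0 with hs | hs
      · rw [hg, hs, zero_mul, Place.ord_zero]
      rw [hg, Place.ord_mul _ hs (inv_ne_zero (pow_ne_zero _ hπ0)), Place.ord_inv, Curve.ord_pow']
      by_cases hxP : x = basePt c ε
      · subst hxP
        rw [show pointPlace c _ hxη = basePlace c ε from rfl, hπ]
        omega
      · have hxU : x ∈ C.basicOpen (chartParam c ε) := by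
          rw [← baseOpen_inf_chartOpen]
          exact ⟨hxP, hx⟩
        have hτ0 : chartParam c ε ≠ 0 := fun h => hπ0 (by
          rw [hπdef, ← toFunField_chartParam, h, map_zero])
        have h1 := (Scheme.mem_basicOpen C (chartParam c ε) x hx).1 hxU
        rw [isUnit_germ_iff_ord c hxη hx hτ0, toFunField_chartParam] at h1
        rw [hπdef, h1]
        have := toFunField_germ_ord_nonneg c hxη hx s
        omega
    refine ⟨C.presheaf.map (homOfLE hV).op (regFun (C := C) g), toFunField_injective c V ?_⟩
    show toFunField c V s = toFunField c V (HPow.hPow (α := Γ(C, V)) (chartParam c ε) n *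
      C.presheaf.map (homOfLE hV).op (regFun (C := C) g))
    rw [map_mul, map_pow, toFunField_map, show toFunField c V (chartParam c ε) = π from
      toFunField_chartParam c ε, show toFunField c (regOpen (C := C) g) (regFun (C := C) g) = g from
      germ_regFun (C := C) g, hg, mul_left_comm, mul_inv_cancel₀ (pow_ne_zero _ hπ0), mul_one]
  · rintro ⟨b, rfl⟩ i hi
    rw [map_mul, map_pow, expOpen_chartVar, HahnSeries.single_pow, one_pow,
      HahnSeries.coeff_single_mul, one_mul]
    exact coeff_expOpen_of_neg c ε (basePt_mem_chartOpen c ε) b (by simp; omega)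

end FermatAgent.Jacobian
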