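import Fermat.Agent.Jacobian.Setup.Dedekind

/-!
# Sections and local rings of a smooth curve over an algebraically closed field

The sections on an affine open are a finitely generated Dedekind domain; the local
rings are valuation rings, so every rational function or its inverse is regular at a given point.
-/

set_option autoImplicit false

noncomputable section

open CategoryTheory AlgebraicGeometry

namespace FermatAgent.Jacobian

universe u

variable {k : Type u} [Field k] {C : Scheme.{u}} (c : C ⟶ Spec (CommRingCat.of k))

/-- The constants in the sections of an open. -/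
def sectionsHom (U : C.Opens) : k →+* Γ(C, U) :=
  (c.appLE ⊤ U le_top).hom.comp (Scheme.ΓSpecIso (CommRingCat.of k)).inv.hom

/-- The sections on an open as an algebra over `k`. -/
@[implicit_reducible]
def sectionsAlgebra (U : C.Opens) : Algebra k Γ(C, U) := (sectionsHom c U).toAlgebra

theorem locally_standardSmooth_sections [SmoothOfRelativeDimension 1 c] {U : C.Opens}
    (hU : IsAffineOpen U) :
    RingHom.Locally (RingHom.IsStandardSmoothOfRelativeDimension 1) (sectionsHom c U) := by
  have h := HasRingHomProperty.appLE (@SmoothOfRelativeDimension 1) c inferInstance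
    ⟨⊤, isAffineOpen_top (Spec (CommRingCat.of k))⟩ ⟨U, hU⟩ le_top
  exact (RingHom.locally_respectsIso RingHom.isStandardSmoothOfRelativeDimension_respectsIso).2
    _ (Scheme.ΓSpecIso (CommRingCat.of k)).commRingCatIsoToRingEquiv.symm h

theorem finiteType_sections [LocallyOfFiniteType c] {U : C.Opens} (hU : IsAffineOpen U) :
    (sectionsHom c U).FiniteType := by
  have h := HasRingHomProperty.appLE @LocallyOfFiniteType c inferInstance
    ⟨⊤, isAffineOpen_top (Spec (CommRingCat.of k))⟩ ⟨U, hU⟩ le_top
  exact RingHom.finiteType_respectsIso.2 _
    (Scheme.ΓSpecIso (CommRingCat.of k)).commRingCatIsoToRingEquiv.symm h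

variable [IsAlgClosed k] [SmoothOfRelativeDimension 1 c] [IsIntegral C]

include c

/-- The sections on a nonempty affine open form a Dedekind domain. -/
theorem isDedekindDomain_sections {U : C.Opens} [Nonempty U] (hU : IsAffineOpen U) :
    IsDedekindDomain Γ(C, U) := by
  have : Smooth c := SmoothOfRelativeDimension.smooth 1 c
  let := sectionsAlgebra c U
  have : Algebra.FiniteType k Γ(C, U) := finiteType_sections c hU
  exact isDedekindDomain_of_locally (locally_standardSmooth_sections c hU)

/-- Every local ring is a valuation ring. -/
theorem valuationRing_stalk (x : C) : ValuationRing (C.presheaf.stalk x) := by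
  obtain ⟨_, ⟨U, hU, rfl⟩, hxU, -⟩ :=
    C.isBasis_affineOpens.exists_subset_of_mem_open (Set.mem_univ x) isOpen_univ
  have : Nonempty U := ⟨⟨x, hxU⟩⟩
  have := isDedekindDomain_sections c hU
  let := TopCat.Presheaf.algebra_section_stalk C.presheaf ⟨x, hxU⟩
  have := hU.isLocalization_stalk ⟨x, hxU⟩
  set P := (hU.primeIdealOf ⟨x, hxU⟩).asIdeal
  by_cases hP : P = ⊥
  · have : IsFractionRing Γ(C, U) (C.presheaf.stalk x) := by
      delta IsFractionRing
      convert hU.isLocalization_stalk ⟨x, hxU⟩ using 1
      ext a
      simp [Ideal.mem_primeCompl_iff, P, hP, mem_nonZeroDivisors_iff_ne_zero]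
    let := IsFractionRing.toField Γ(C, U) (K := C.presheaf.stalk x)
    infer_instance
  · have := IsLocalization.AtPrime.isDiscreteValuationRing_of_dedekind_domain Γ(C, U) hP
      (C.presheaf.stalk x)
    infer_instance

/-- A rational function or its inverse is regular at every point. -/
theorem mem_range_or_inv_mem_range (x : C) (t : C.functionField) :
    t ∈ Set.range (algebraMap (C.presheaf.stalk x) C.functionField) ∨
      t⁻¹ ∈ Set.range (algebraMap (C.presheaf.stalk x) C.functionField) := by
  have := valuationRing_stalk c x
  rcases ValuationRing.isInteger_or_isInteger (C.presheaf.stalk x) t with h | h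
  · exact Or.inl h
  · exact Or.inr h

end FermatAgent.Jacobian
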