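import Fermat.Agent.Curve.Basics

/-!
# Expansion at a place

A function regular at a rational place is congruent modulo `π ^ n` to exactly one polynomial of
degree `< n` in a uniformiser `π`; this gives the expansion `F → K((t))`.
-/

set_option autoImplicit false

noncomputable section

open AlgebraicCurve Polynomial

namespace FermatAgent.Jacobian

variable {K F : Type*} [Field K] [Field F] [Algebra K F] [IsAlgClosed K]
  [Curve.IsFunctionField1 K F] {v : Place K F}

local notation "𝒪" => v.toValuationSubring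

variable (π : v.toValuationSubring)

theorem valueAlgHom_uniformiser (hπ : v.ord (π : F) = 1) : Curve.valueAlgHom v π = 0 := by
  rw [Curve.valueAlgHom_apply, Curve.valueAt_eq_zero_iff _ π.2]
  exact Or.inr (by omega)

omit [IsAlgClosed K] [Curve.IsFunctionField1 K F] in
theorem uniformiser_ne_zero (hπ : v.ord (π : F) = 1) : π ≠ 0 := by
  rintro rfl
  simp at hπ

theorem exists_step (hπ : v.ord (π : F) = 1) (f : 𝒪) :
    ∃ g : 𝒪, f = algebraMap K 𝒪 (Curve.valueAlgHom v f) + π * g := by
  set d := f - algebraMap K 𝒪 (Curve.valueAlgHom v f) with hd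
  have hπ0 : (π : F) ≠ 0 := by simpa using uniformiser_ne_zero π hπ
  have hd0 : Curve.valueAlgHom v d = 0 := by simp [hd]
  rw [Curve.valueAlgHom_apply, Curve.valueAt_eq_zero_iff _ d.2] at hd0
  refine ⟨⟨(d : F) / π, ?_⟩, Subtype.ext ?_⟩
  · rcases hd0 with h | h
    · rw [h, zero_div]; exact zero_mem _
    · rw [Curve.mem_iff_ord_nonneg', Curve.ord_div v (fun h0 => by simp [h0] at h) hπ0]
      omega
  · show (f : F) = algebraMap K F (Curve.valueAlgHom v f) + π * ((d : F) / π)
    rw [mul_div_cancel₀ _ hπ0, hd]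
    simp

/-- One step of the expansion. -/
def expStep (hπ : v.ord (π : F) = 1) (f : 𝒪) : 𝒪 := (exists_step π hπ f).choose

theorem expStep_spec (hπ : v.ord (π : F) = 1) (f : 𝒪) :
    f = algebraMap K 𝒪 (Curve.valueAlgHom v f) + π * expStep π hπ f :=
  (exists_step π hπ f).choose_spec

/-- The coefficients of the expansion. -/
def expSeries (hπ : v.ord (π : F) = 1) (f : 𝒪) : PowerSeries K :=
  PowerSeries.mk fun n => Curve.valueAlgHom v ((expStep π hπ)^[n] f)

theorem eq_trunc_add (hπ : v.ord (π : F) = 1) (f : 𝒪) (n : ℕ) :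
    f = aeval π (PowerSeries.trunc n (expSeries π hπ f)) +
      π ^ n * (expStep π hπ)^[n] f := by
  induction n with
  | zero => simp
  | succ n ih =>
    rw [PowerSeries.trunc_succ, map_add, aeval_monomial, Function.iterate_succ_apply']
    conv_lhs => rw [ih, expStep_spec π hπ ((expStep π hπ)^[n] f)]
    rw [expSeries, PowerSeries.coeff_mk]
    ring

theorem X_pow_dvd_of_dvd_aeval (hπ : v.ord (π : F) = 1) (n : ℕ) (p : K[X])
    (h : π ^ n ∣ aeval π p) : X ^ n ∣ p := by
  induction n generalizing p with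
  | zero => simp
  | succ n ih =>
    obtain ⟨g, hg⟩ := h
    have h0 : p.coeff 0 = 0 := by
      have := congrArg (Curve.valueAlgHom v) hg
      rw [← aeval_algHom_apply, map_mul, map_pow, valueAlgHom_uniformiser π hπ,
        zero_pow n.succ_ne_zero, zero_mul] at this
      rwa [coeff_zero_eq_eval_zero, ← coe_aeval_eq_eval]
    obtain ⟨q, rfl⟩ := X_dvd_iff.2 h0
    rw [pow_succ']
    refine mul_dvd_mul_left X (ih q ⟨g, mul_left_cancel₀ (uniformiser_ne_zero π hπ) ?_⟩)
    rw [← mul_assoc, ← pow_succ', ← hg, map_mul, aeval_X]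

theorem coeff_expSeries_eq (hπ : v.ord (π : F) = 1) {f : 𝒪} {p : K[X]} {n : ℕ}
    (h : π ^ n ∣ f - aeval π p) {i : ℕ} (hi : i < n) :
    PowerSeries.coeff i (expSeries π hπ f) = p.coeff i := by
  have h1 : π ^ n ∣ aeval π (PowerSeries.trunc n (expSeries π hπ f) - p) := by
    rw [map_sub]
    have h2 : π ^ n ∣ f - aeval π (PowerSeries.trunc n (expSeries π hπ f)) :=
      ⟨(expStep π hπ)^[n] f, by
        rw [sub_eq_iff_eq_add', ← eq_trunc_add π hπ f n]⟩
    simpa using dvd_sub h h2
  have := Polynomial.X_pow_dvd_iff.1 (X_pow_dvd_of_dvd_aeval π hπ n _ h1) i hi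
  rwa [Polynomial.coeff_sub, PowerSeries.coeff_trunc, if_pos hi, sub_eq_zero] at this

theorem pow_dvd_sub_trunc (hπ : v.ord (π : F) = 1) (f : 𝒪) (n : ℕ) :
    π ^ n ∣ f - aeval π (PowerSeries.trunc n (expSeries π hπ f)) :=
  ⟨(expStep π hπ)^[n] f, by rw [sub_eq_iff_eq_add', ← eq_trunc_add π hπ f n]⟩

/-- The expansion of the functions regular at the place. -/
def expHom (hπ : v.ord (π : F) = 1) : 𝒪 →+* PowerSeries K where
  toFun := expSeries π hπ
  map_one' := PowerSeries.ext fun i => by
    rw [coeff_expSeries_eq π hπ (p := 1) (n := i + 1) (by simp) i.lt_succ_self,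
      PowerSeries.coeff_one, Polynomial.coeff_one]
  map_mul' f g := PowerSeries.ext fun i => by
    rw [coeff_expSeries_eq π hπ (p := PowerSeries.trunc (i + 1) (expSeries π hπ f) *
      PowerSeries.trunc (i + 1) (expSeries π hπ g)) (n := i + 1) ?_ i.lt_succ_self,
      PowerSeries.coeff_mul_eq_coeff_trunc_mul_trunc _ _ i.lt_succ_self, ← Polynomial.coe_mul,
      Polynomial.coeff_coe]
    rw [map_mul]
    exact dvd_mul_sub_mul (pow_dvd_sub_trunc π hπ f _) (pow_dvd_sub_trunc π hπ g _)
  map_zero' := PowerSeries.ext fun i => by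
    rw [coeff_expSeries_eq π hπ (p := 0) (n := i + 1) (by simp) i.lt_succ_self]
    simp
  map_add' f g := PowerSeries.ext fun i => by
    rw [coeff_expSeries_eq π hπ (p := PowerSeries.trunc (i + 1) (expSeries π hπ f) +
      PowerSeries.trunc (i + 1) (expSeries π hπ g)) (n := i + 1) ?_ i.lt_succ_self, map_add,
      Polynomial.coeff_add, PowerSeries.coeff_trunc, PowerSeries.coeff_trunc,
      if_pos i.lt_succ_self, if_pos i.lt_succ_self]
    rw [map_add, add_sub_add_comm]
    exact dvd_add (pow_dvd_sub_trunc π hπ f _) (pow_dvd_sub_trunc π hπ g _)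

theorem coeff_expHom_eq (hπ : v.ord (π : F) = 1) {f : 𝒪} {p : K[X]} {n : ℕ}
    (h : π ^ n ∣ f - aeval π p) {i : ℕ} (hi : i < n) :
    PowerSeries.coeff i (expHom π hπ f) = p.coeff i :=
  coeff_expSeries_eq π hπ h hi

theorem expHom_aeval (hπ : v.ord (π : F) = 1) (p : K[X]) :
    expHom π hπ (aeval π p) = (p : PowerSeries K) :=
  PowerSeries.ext fun i => by
    rw [coeff_expHom_eq π hπ (p := p) (n := i + 1) (by simp) i.lt_succ_self,
      Polynomial.coeff_coe]

theorem expHom_algebraMap (hπ : v.ord (π : F) = 1) (a : K) :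
    expHom π hπ (algebraMap K 𝒪 a) = PowerSeries.C a := by
  rw [← aeval_C π a, expHom_aeval, Polynomial.coe_C]

theorem expHom_uniformiser (hπ : v.ord (π : F) = 1) : expHom π hπ π = PowerSeries.X := by
  have h := expHom_aeval π hπ (X : K[X])
  rwa [aeval_X, Polynomial.coe_X] at h

theorem coeff_expHom_eq_zero_iff (hπ : v.ord (π : F) = 1) {f : 𝒪} {n : ℕ} :
    (∀ i < n, PowerSeries.coeff i (expHom π hπ f) = 0) ↔ π ^ n ∣ f := by
  refine ⟨fun h => ?_, fun h i hi => ?_⟩
  · have h2 := pow_dvd_sub_trunc π hπ f n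
    have : PowerSeries.trunc n (expSeries π hπ f) = 0 := Polynomial.ext fun i => by
      rw [PowerSeries.coeff_trunc, Polynomial.coeff_zero]
      split_ifs with hi
      · exact h i hi
      · rfl
    rwa [this, map_zero, sub_zero] at h2
  · rw [coeff_expHom_eq π hπ (p := 0) (by simpa using h) hi, Polynomial.coeff_zero]

theorem expHom_injective (hπ : v.ord (π : F) = 1) : Function.Injective (expHom π hπ) := by
  rw [injective_iff_map_eq_zero]
  intro f hf
  by_contra h0
  have hF : (f : F) ≠ 0 := by simpa using h0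
  have hπ0 : (π : F) ≠ 0 := by simpa using uniformiser_ne_zero π hπ
  obtain ⟨g, hg⟩ := (coeff_expHom_eq_zero_iff π hπ (n := (v.ord (f : F)).toNat + 1) (f := f)).1
    (fun i _ => by rw [hf, map_zero])
  have hg' : (f : F) = (π : F) ^ ((v.ord (f : F)).toNat + 1) * g := congrArg Subtype.val hg
  have hg0 : (g : F) ≠ 0 := fun h => hF (by rw [hg', h, mul_zero])
  have := congrArg v.ord hg'
  rw [v.ord_mul (pow_ne_zero _ hπ0) hg0, Curve.ord_pow', hπ] at this
  have := Curve.ord_nonneg_of_mem' v g.2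
  have := Curve.ord_nonneg_of_mem' v f.2
  omega

/-- The expansion at the place. -/
def expField (hπ : v.ord (π : F) = 1) : F →+* LaurentSeries K :=
  IsFractionRing.lift (A := 𝒪) (g := (HahnSeries.ofPowerSeries ℤ K).comp (expHom π hπ))
    (HahnSeries.ofPowerSeries_injective.comp (expHom_injective π hπ))

theorem expField_coe (hπ : v.ord (π : F) = 1) (f : 𝒪) :
    expField π hπ (f : F) = HahnSeries.ofPowerSeries ℤ K (expHom π hπ f) :=
  IsFractionRing.lift_algebraMap _ f

theorem expField_algebraMap (hπ : v.ord (π : F) = 1) (a : K) :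
    expField π hπ (algebraMap K F a) = HahnSeries.C a := by
  rw [← v.coe_algebraMap, expField_coe, expHom_algebraMap, HahnSeries.ofPowerSeries_C]

theorem expField_uniformiser (hπ : v.ord (π : F) = 1) :
    expField π hπ (π : F) = HahnSeries.single 1 1 := by
  rw [expField_coe, expHom_uniformiser, HahnSeries.ofPowerSeries_X]

/-- The expansion starts exactly at the order. -/
theorem coeff_expField (hπ : v.ord (π : F) = 1) {f : F} (hf : f ≠ 0) :
    (expField π hπ f).coeff (v.ord f) ≠ 0 ∧
      ∀ i < v.ord f, (expField π hπ f).coeff i = 0 := by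
  have hπ0 : (π : F) ≠ 0 := by simpa using uniformiser_ne_zero π hπ
  set m := v.ord f with hm
  set u := f * (π : F) ^ (-m) with hu
  have hu0 : v.ord u = 0 := by
    rw [hu, v.ord_mul hf (zpow_ne_zero _ hπ0), v.ord_zpow, hπ]; omega
  have hum : u ∈ 𝒪 := (Curve.mem_iff_ord_nonneg' v).2 hu0.ge
  have hune : u ≠ 0 := mul_ne_zero hf (zpow_ne_zero _ hπ0)
  have hfu : f = (π : F) ^ m * u := by
    rw [hu, mul_left_comm, ← zpow_add₀ hπ0, add_neg_cancel, zpow_zero, mul_one]
  have hs : ∀ n : ℤ, expField π hπ ((π : F) ^ n) = HahnSeries.single n 1 := fun n => by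
    rw [map_zpow₀, expField_uniformiser]
    induction n with
    | zero => simp
    | succ n ih => rw [zpow_add_one₀ (by simp), ih, HahnSeries.single_mul_single, one_mul]
    | pred n ih =>
      rw [zpow_sub_one₀ (by simp), ih, HahnSeries.inv_single, inv_one,
        HahnSeries.single_mul_single, one_mul, ← sub_eq_add_neg]
  have hc : ∀ i, (expField π hπ f).coeff i =
      (HahnSeries.ofPowerSeries ℤ K (expHom π hπ ⟨u, hum⟩)).coeff (i - m) := fun i => by
    rw [← expField_coe, hfu, map_mul, hs, HahnSeries.coeff_single_mul, one_mul]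
  refine ⟨?_, fun i hi => ?_⟩
  · rw [hc, sub_self, show (0 : ℤ) = ((0 : ℕ) : ℤ) from rfl, HahnSeries.ofPowerSeries_apply_coeff,
      coeff_expHom_eq π hπ (p := Polynomial.C (Curve.valueAlgHom v ⟨u, hum⟩)) (n := 1) ?_
        Nat.one_pos, Polynomial.coeff_C_zero, Curve.valueAlgHom_apply, ne_eq,
      Curve.valueAt_eq_zero_iff _ hum]
    · rintro (h | h)
      · exact hune h
      · omega
    · rw [pow_one, aeval_C]
      exact ⟨expStep π hπ _, by rw [sub_eq_iff_eq_add', ← expStep_spec]⟩
  · rw [hc, HahnSeries.ofPowerSeries_apply, HahnSeries.embDomain_of_notMem_range]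
    rintro ⟨j, hj⟩
    simp at hj
    omega

theorem coeff_expField_eq_zero_iff (hπ : v.ord (π : F) = 1) {f : F} {n : ℤ} :
    (∀ i < n, (expField π hπ f).coeff i = 0) ↔ f = 0 ∨ n ≤ v.ord f := by
  rcases eq_or_ne f 0 with rfl | hf
  · simp
  obtain ⟨h1, h2⟩ := coeff_expField π hπ hf
  rw [or_iff_right hf]
  exact ⟨fun h => not_lt.1 fun hlt => h1 (h _ hlt), fun h i hi => h2 i (hi.trans_le h)⟩

end FermatAgent.Jacobian
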