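import Fermat.Agent.Jacobian.Setup.Affine
import Fermat.Agent.Jacobian.Setup.Expansion
import Fermat.Agent.Jacobian.Lat.Datum
import Fermat.Prelude.Def_AlgebraicGeometry_NeronModelPropertyBundleCarrier

/-!
# The datum of a curve with a rational point

The affine curve away from the point with its expansion at the point, and a neighbourhood of the
point on which a uniformiser generates the ideal of the point.
-/

set_option autoImplicit false

noncomputable section

open CategoryTheory AlgebraicGeometry TopologicalSpace AlgebraicCurve NeronModelInfra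

namespace FermatAgent.Jacobian

universe u

variable {k : Type u} [Field k] [IsAlgClosed k] {C : Scheme.{u}}
  (c : C ⟶ Spec (CommRingCat.of k)) [SmoothOfRelativeDimension 1 c] [IsIntegral C] [IsProper c]
  (ε : SchemeHomOver (𝟙 (Spec (CommRingCat.of k))) c)

/-- The rational point. -/
def basePt : C := ε.1 (IsLocalRing.closedPoint k)

omit [SmoothOfRelativeDimension 1 c] [IsIntegral C] [IsAlgClosed k] in
theorem isClosedImmersion_section : IsClosedImmersion ε.1 := by
  have : IsClosedImmersion (ε.1 ≫ c) := by rw [ε.2]; infer_instance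
  exact IsClosedImmersion.of_comp ε.1 c

theorem basePt_ne : basePt c ε ≠ genericPoint C := by
  intro h
  have := isClosedImmersion_section c ε
  have hcl : IsClosed (Set.range ε.1) := ε.1.isClosedEmbedding.isClosed_range
  have hsingle : Set.range ε.1 = {basePt c ε} := by
    refine Set.eq_singleton_iff_unique_mem.2 ⟨⟨_, rfl⟩, ?_⟩
    rintro _ ⟨y, rfl⟩
    rw [basePt]
    congr 1
    exact Subsingleton.elim (α := PrimeSpectrum k) y _
  obtain ⟨v⟩ : Nonempty (Place k (FunField c)) := inferInstance
  obtain ⟨x, hx, -⟩ := exists_center c v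
  rw [hsingle, h] at hcl
  have := (genericPoint_spec C).def
  rw [hcl.closure_eq] at this
  exact hx (Set.mem_singleton_iff.1 (this.symm ▸ Set.mem_univ x))

/-- The place of the rational point. -/
def basePlace : Place k (FunField c) := pointPlace c (basePt c ε) (basePt_ne c ε)

/-- The curve minus the rational point. -/
def baseOpen : C.Opens := puncture c (basePt_ne c ε)

instance nonempty_baseOpen : Nonempty (baseOpen c ε) := nonempty_puncture c _

theorem isAffineOpen_baseOpen : IsAffineOpen (baseOpen c ε) := isAffineOpen_puncture c _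

theorem exists_uniformiser : ∃ π : (basePlace c ε).toValuationSubring,
    (basePlace c ε).ord (π : FunField c) = 1 := by
  obtain ⟨f, -, hf⟩ := Curve.RR.exists_ord_eq (basePlace c ε) 1
  exact ⟨⟨f, (Curve.mem_iff_ord_nonneg' _).2 (by omega)⟩, hf⟩

/-- A uniformiser at the rational point. -/
def baseUnif : (basePlace c ε).toValuationSubring := (exists_uniformiser c ε).choose

theorem ord_baseUnif : (basePlace c ε).ord (baseUnif c ε : FunField c) = 1 :=
  (exists_uniformiser c ε).choose_spec

/-- The expansion of rational functions at the rational point. -/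
def expBase : FunField c →+* LaurentSeries k := expField (baseUnif c ε) (ord_baseUnif c ε)

theorem coeff_expBase_eq_zero_iff {f : FunField c} {n : ℤ} :
    (∀ i < n, (expBase c ε f).coeff i = 0) ↔ f = 0 ∨ n ≤ (basePlace c ε).ord f :=
  coeff_expField_eq_zero_iff _ _

theorem expBase_algebraMap (a : k) :
    expBase c ε (algebraMap k (FunField c) a) = HahnSeries.C a :=
  expField_algebraMap _ _ a

/-- The datum of a curve with a rational point. -/
def curveDatum : CurveDatum k :=
  letI := sectionsAlgebra c (baseOpen c ε)
  { R := Γ(C, baseOpen c ε)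
    commRing := inferInstance
    algebra := sectionsAlgebra c (baseOpen c ε)
    domain := inferInstance
    dedekind := isDedekindDomain_sections c (isAffineOpen_baseOpen c ε)
    finiteType :=
      have : Smooth c := SmoothOfRelativeDimension.smooth 1 c
      finiteType_sections c (isAffineOpen_baseOpen c ε)
    exp := (expBase c ε).comp (toFunField c (baseOpen c ε))
    exp_injective := (RingHom.injective (expBase c ε)).comp (toFunField_injective c _)
    exp_algebraMap := fun a => by
      show expBase c ε (toFunField c _ (sectionsHom c _ a)) = _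
      rw [toFunField_sectionsHom, expBase_algebraMap]
    const := fun r hr => by
      have h := (coeff_expBase_eq_zero_iff c ε (f := toFunField c (baseOpen c ε) r) (n := 0)).1 hr
      obtain ⟨a, ha⟩ := mem_range_algebraMap_of_ord_nonneg c (f := toFunField c (baseOpen c ε) r)
        fun v => by
          by_cases hv : v = basePlace c ε
          · subst hv
            rcases h with h | h
            · rw [h, Place.ord_zero]
            · exact h
          · exact Curve.ord_nonneg_of_mem' v
              ((mem_range_puncture_iff c (basePt_ne c ε)).1 ⟨r, rfl⟩ v hv)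
      refine ⟨a, toFunField_injective c (baseOpen c ε) ?_⟩
      rw [← ha]
      exact toFunField_sectionsHom c (baseOpen c ε) a
    exists_pole := by
      refine ⟨2 * (genusFF k (FunField c) : ℤ) + 1, fun n hn => ?_⟩
      obtain ⟨m, rfl⟩ := Int.eq_ofNat_of_zero_le (show 0 ≤ n by omega)
      obtain ⟨f, hf0, hfP, hf⟩ := Curve.RR.exists_single_pole (basePlace c ε) (n := m)
        (by omega) (by omega)
      obtain ⟨r, rfl⟩ := (mem_range_puncture_iff c (basePt_ne c ε) (f := f)).2 fun v hv =>
        (Curve.mem_iff_ord_nonneg' v).2 (hf v hv)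
      obtain ⟨h1, h2⟩ := coeff_expField (baseUnif c ε) (ord_baseUnif c ε) hf0
      rw [hfP] at h1 h2
      exact ⟨r, h1, h2⟩ }

theorem exists_chart : ∃ V : C.Opens, IsAffineOpen V ∧ basePt c ε ∈ V ∧
    ∃ τ : Γ(C, V), baseOpen c ε ⊓ V = C.basicOpen τ ∧ ∀ _ : Nonempty V,
      toFunField c V τ = (baseUnif c ε : FunField c) := by
  classical
  set π : FunField c := (baseUnif c ε : FunField c) with hπdef
  have hπ := ord_baseUnif c ε
  have hreg : basePt c ε ∈ regOpen (C := C) π := (baseUnif c ε).2
  -- the other zeros
  set S : Set C := {x | ∃ hx : x ≠ genericPoint C, x ≠ basePt c ε ∧ (pointPlace c x hx).ord π ≠ 0}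
  have hS : S.Finite := by
    have hfin := Curve.finite_setOf_ord_ne_zero (K := k) π
    refine Set.Finite.subset ((hfin.preimage (placeEquiv c).injective.injOn).image Subtype.val) ?_
    rintro x ⟨hx, -, hord⟩
    exact ⟨⟨x, hx⟩, hord, rfl⟩
  have hScl : IsClosed S := by
    rw [← Set.biUnion_of_singleton S]
    exact hS.isClosed_biUnion fun x hx => isClosed_singleton_of_ne_genericPoint c hx.1
  obtain ⟨_, ⟨V, hV, rfl⟩, hPV, hle⟩ := C.isBasis_affineOpens.exists_subset_of_mem_open
    (show basePt c ε ∈ (regOpen (C := C) π : Set C) ∩ Sᶜ from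
      ⟨hreg, fun ⟨_, h, _⟩ => h rfl⟩)
    ((regOpen (C := C) π).isOpen.inter hScl.isOpen_compl)
  have hVreg : V ≤ regOpen (C := C) π := fun x hx => (hle hx).1
  have : Nonempty V := ⟨⟨_, hPV⟩⟩
  set τ := C.presheaf.map (homOfLE hVreg).op (regFun (C := C) π) with hτdef
  have hτ : toFunField c V τ = π := by
    rw [toFunField_map]
    exact germ_regFun (C := C) π
  have hπ0 : π ≠ 0 := fun h => by rw [hπdef] at h; rw [h] at hπ; simp at hπ
  have hτ0 : τ ≠ 0 := fun h => hπ0 (by rw [← hτ, h, map_zero])
  refine ⟨V, hV, hPV, τ, Opens.ext (Set.ext fun x => ?_), fun _ => hτ⟩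
  have hbasic : x ∈ C.basicOpen τ ↔ x ∈ V ∧ x ≠ basePt c ε := by
    constructor
    · intro hx
      have hxV : x ∈ V := C.basicOpen_le τ hx
      refine ⟨hxV, ?_⟩
      rintro rfl
      have h1 := (Scheme.mem_basicOpen C τ _ hxV).1 hx
      rw [isUnit_germ_iff_ord c (basePt_ne c ε) hxV hτ0, hτ] at h1
      exact absurd (h1.symm.trans hπ) zero_ne_one
    · rintro ⟨hxV, hxP⟩
      rw [Scheme.mem_basicOpen C τ x hxV]
      by_cases hx : x = genericPoint C
      · subst hx
        exact isUnit_iff_ne_zero.2 fun h => hτ0
          (germ_injective_of_isIntegral C _ hxV (h.trans (map_zero _).symm))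
      · rw [isUnit_germ_iff_ord c hx hxV hτ0, hτ]
        by_contra hne
        exact (hle hxV).2 ⟨hx, hxP, hne⟩
  exact ⟨fun h => hbasic.2 ⟨h.2, h.1⟩, fun h => ⟨(hbasic.1 h).2, (hbasic.1 h).1⟩⟩

/-- An affine neighbourhood of the rational point on which the uniformiser cuts out the point. -/
def chartOpen : C.Opens := (exists_chart c ε).choose

theorem isAffineOpen_chartOpen : IsAffineOpen (chartOpen c ε) := (exists_chart c ε).choose_spec.1

theorem basePt_mem_chartOpen : basePt c ε ∈ chartOpen c ε := (exists_chart c ε).choose_spec.2.1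

instance nonempty_chartOpen : Nonempty (chartOpen c ε) := ⟨⟨_, basePt_mem_chartOpen c ε⟩⟩

/-- The uniformiser on the neighbourhood. -/
def chartParam : Γ(C, chartOpen c ε) := (exists_chart c ε).choose_spec.2.2.choose

theorem baseOpen_inf_chartOpen :
    baseOpen c ε ⊓ chartOpen c ε = C.basicOpen (chartParam c ε) :=
  (exists_chart c ε).choose_spec.2.2.choose_spec.1

theorem toFunField_chartParam :
    toFunField c (chartOpen c ε) (chartParam c ε) = (baseUnif c ε : FunField c) :=
  (exists_chart c ε).choose_spec.2.2.choose_spec.2 (nonempty_chartOpen c ε)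

theorem baseOpen_sup_chartOpen : baseOpen c ε ⊔ chartOpen c ε = ⊤ := by
  refine top_le_iff.1 fun x _ => ?_
  by_cases hx : x = basePt c ε
  · exact Or.inr (hx ▸ basePt_mem_chartOpen c ε)
  · exact Or.inl hx

end FermatAgent.Jacobian
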