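import Fermat.Agent.Jacobian.Setup.SmoothDvr

/-!
# Smooth affine curves over an algebraically closed field are Dedekind
-/

set_option autoImplicit false

noncomputable section

namespace FermatAgent.Jacobian

universe u

variable {k : Type u} [Field k] [IsAlgClosed k]

open scoped KaehlerDifferential

/-- At every maximal ideal of an algebra locally standard smooth of relative dimension one, the
maximal ideal of the localisation is principal. -/
theorem isPrincipal_maximalIdeal_of_locally {A : Type u} [CommRing A] [Algebra k A]
    [Algebra.FiniteType k A]
    (h : RingHom.Locally (RingHom.IsStandardSmoothOfRelativeDimension 1) (algebraMap k A))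
    (m : Ideal A) [m.IsMaximal] :
    (IsLocalRing.maximalIdeal (Localization.AtPrime m)).IsPrincipal := by
  obtain ⟨s, hs, hsm⟩ := h
  obtain ⟨r, hr, hrm⟩ : ∃ r ∈ s, r ∉ m := by
    by_contra hc
    push Not at hc
    exact Ideal.IsPrime.ne_top' (top_le_iff.1 (hs ▸ Ideal.span_le.2 hc))
  let Ar := Localization.Away r
  have : Algebra.IsStandardSmoothOfRelativeDimension 1 k Ar := by
    rw [← RingHom.isStandardSmoothOfRelativeDimension_algebraMap,
      IsScalarTower.algebraMap_eq k A Ar]
    exact hsm r hr
  have : IsJacobsonRing A := isJacobsonRing_of_finiteType (A := k)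
  have disj : Disjoint (Submonoid.powers r : Set A) m := by
    rw [Set.disjoint_left]
    rintro _ ⟨i, rfl⟩ hi
    exact hrm (Ideal.IsPrime.mem_of_pow_mem inferInstance i hi)
  set m' := m.map (algebraMap A Ar) with hm'
  have : m'.IsPrime := IsLocalization.isPrime_of_isPrime_disjoint (Submonoid.powers r) _ _
    inferInstance disj
  have : m'.IsMaximal := IsLocalization.isMaximal_of_isMaximal_disjoint r m inferInstance hrm
  have hcomap : m'.comap (algebraMap A Ar) = m :=
    IsLocalization.under_map_of_isPrime_disjoint (Submonoid.powers r) _ inferInstance disj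
  have : IsLocalization.AtPrime (Localization.AtPrime m') m := by
    convert IsLocalization.isLocalization_isLocalization_atPrime_isLocalization
      (Submonoid.powers r) (Localization.AtPrime m') m'
    exact hcomap.symm
  obtain ⟨g, hg, hle⟩ := exists_span_sup_sq_of_standardSmooth (k := k) m'
  have : IsNoetherianRing A := Algebra.FiniteType.isNoetherianRing k A
  have : IsNoetherianRing Ar := IsLocalization.isNoetherianRing (Submonoid.powers r) Ar inferInstance
  obtain ⟨⟨x, hx⟩⟩ := isPrincipal_maximalIdeal_of_sup_sq m' hg hle
  let e : Localization.AtPrime m' ≃ₐ[A] Localization.AtPrime m :=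
    IsLocalization.algEquiv m.primeCompl _ _
  refine ⟨⟨e x, ?_⟩⟩
  have h1 := congrArg (fun I : Ideal (Localization.AtPrime m') => I.map e.toRingEquiv) hx
  simp only [Ideal.submodule_span_eq, Ideal.map_span, Set.image_singleton] at h1 ⊢
  refine Eq.trans ?_ h1
  rw [← Localization.AtPrime.map_eq_maximalIdeal, ← Localization.AtPrime.map_eq_maximalIdeal]
  have e1 : (e.toRingEquiv : Localization.AtPrime m' →+* Localization.AtPrime m).comp
      ((algebraMap Ar (Localization.AtPrime m')).comp (algebraMap A Ar)) =
        algebraMap A (Localization.AtPrime m) := RingHom.ext fun a => by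
    simp only [RingHom.comp_apply, ← IsScalarTower.algebraMap_apply A Ar (Localization.AtPrime m')]
    exact e.commutes a
  rw [← e1, ← Ideal.map_map, ← Ideal.map_map]
  rfl

/-- **A smooth affine curve over an algebraically closed field is a Dedekind domain.** -/
theorem isDedekindDomain_of_locally {A : Type u} [CommRing A] [IsDomain A] [Algebra k A]
    [Algebra.FiniteType k A]
    (h : RingHom.Locally (RingHom.IsStandardSmoothOfRelativeDimension 1) (algebraMap k A)) :
    IsDedekindDomain A := by
  have : IsNoetherianRing A := Algebra.FiniteType.isNoetherianRing k A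
  have hdvr : ∀ (m : Ideal A) [m.IsMaximal], m ≠ ⊥ →
      IsDiscreteValuationRing (Localization.AtPrime m) := fun m _ hm =>
    ((IsDiscreteValuationRing.TFAE _
      (IsLocalization.AtPrime.not_isField A hm (Localization.AtPrime m))).out 4 0).mp
        (isPrincipal_maximalIdeal_of_locally h m)
  have hN : IsNoetherianRing A := inferInstance
  have : IsDedekindDomainDvr A :=
    { hN with
      is_dvr_at_nonzero_prime := fun P hP hPp => by
        obtain ⟨m, hm, hPm⟩ := P.exists_le_maximal hPp.ne_top
        have hm0 : m ≠ ⊥ := fun h0 => hP (le_bot_iff.1 (h0 ▸ hPm))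
        have := hdvr m hm0
        have hdisj : Disjoint (m.primeCompl : Set A) P := Set.disjoint_left.2 fun a ha haP => ha (hPm haP)
        have hP' : (P.map (algebraMap A (Localization.AtPrime m))).IsPrime :=
          IsLocalization.isPrime_of_isPrime_disjoint m.primeCompl _ _ hPp hdisj
        have hne : P.map (algebraMap A (Localization.AtPrime m)) ≠ ⊥ := by
          rw [Ne, Ideal.map_eq_bot_iff_of_injective
            (IsLocalization.injective (Localization.AtPrime m) m.primeCompl_le_nonZeroDivisors)]
          exact hP
        have hPm' : P = m := by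
          have h2 := hP'.isMaximal hne
          rw [← IsLocalization.under_map_of_isPrime_disjoint m.primeCompl (Localization.AtPrime m)
            hPp hdisj, IsLocalRing.eq_maximalIdeal h2, Localization.AtPrime.under_maximalIdeal]
        subst hPm'
        exact hdvr P hP }
  infer_instance

end FermatAgent.Jacobian
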