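import Fermat.Agent.Jacobian.Setup.DiagonalAlg
import Fermat.Agent.Jacobian.Setup.Curve
import Fermat.Agent.Jacobian.Glue.GeomIntegral

/-!
# The diagonal of a smooth curve is an effective Cartier divisor

Every point of `C ×_k C` has a neighbourhood with an equation of the diagonal: a function vanishing
on the diagonal dividing, in every local ring, all functions vanishing on the diagonal.
-/

set_option autoImplicit false

noncomputable section

open CategoryTheory CategoryTheory.Limits AlgebraicGeometry TopologicalSpace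

namespace FermatAgent.Jacobian

open scoped TensorProduct

universe u

variable {k : Type u} [Field k] {C : Scheme.{u}} (c : C ⟶ Spec (CommRingCat.of k))

/-- The square of a curve. -/
abbrev curveSq : Scheme.{u} := pullback c c

/-- The diagonal. -/
abbrev curveDiag : C ⟶ curveSq c := pullback.diagonal c

/-- The open `W × W`. -/
abbrev openSq (W : C.Opens) : (curveSq c).Opens :=
  pullback.fst c c ⁻¹ᵁ W ⊓ pullback.snd c c ⁻¹ᵁ W

theorem diag_preimage_openSq (W : C.Opens) : curveDiag c ⁻¹ᵁ openSq c W = W := by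
  show (curveDiag c ≫ pullback.fst c c) ⁻¹ᵁ W ⊓ (curveDiag c ≫ pullback.snd c c) ⁻¹ᵁ W = W
  rw [pullback.diagonal_fst, pullback.diagonal_snd]
  simp

/-- An equation of the diagonal on an open. -/
def IsDiagEq (O : (curveSq c).Opens) (f : Γ(curveSq c, O)) : Prop :=
  (curveDiag c).app O f = 0 ∧
    ∀ (y : curveSq c) (hy : y ∈ O) (V : (curveSq c).Opens) (hyV : y ∈ V)
      (h : Γ(curveSq c, V)), (curveDiag c).app V h = 0 →
      (curveSq c).presheaf.germ O y hy f ∣ (curveSq c).presheaf.germ V y hyV h

theorem IsDiagEq.isUnit_germ {O : (curveSq c).Opens} {f : Γ(curveSq c, O)} (hf : IsDiagEq c O f)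
    [IsSeparated c] {y : curveSq c} (hy : y ∈ O) (hyd : y ∉ Set.range (curveDiag c)) :
    IsUnit ((curveSq c).presheaf.germ O y hy f) := by
  let V : (curveSq c).Opens :=
    ⟨(Set.range (curveDiag c))ᶜ, (curveDiag c).isClosedEmbedding.isClosed_range.isOpen_compl⟩
  have hV : curveDiag c ⁻¹ᵁ V = ⊥ := Opens.ext (Set.eq_empty_of_forall_notMem
    fun x hx => hx ⟨x, rfl⟩)
  have : Subsingleton Γ(C, curveDiag c ⁻¹ᵁ V) := by
    rw [hV]; exact CommRingCat.subsingleton_of_isTerminal C.sheaf.isTerminalOfEmpty
  have h := hf.2 y hy V hyd 1 (Subsingleton.elim _ _)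
  rw [map_one] at h
  exact isUnit_of_dvd_one h

/-- Off the diagonal the constant one is an equation. -/
theorem isDiagEq_one [IsSeparated c] :
    IsDiagEq c ⟨(Set.range (curveDiag c))ᶜ,
      (curveDiag c).isClosedEmbedding.isClosed_range.isOpen_compl⟩ 1 := by
  refine ⟨?_, fun y hy V hyV h _ => ?_⟩
  · have hbot : curveDiag c ⁻¹ᵁ (⟨(Set.range (curveDiag c))ᶜ,
        (curveDiag c).isClosedEmbedding.isClosed_range.isOpen_compl⟩ : (curveSq c).Opens) = ⊥ :=
      Opens.ext (Set.eq_empty_of_forall_notMem fun x hx => hx ⟨x, rfl⟩)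
    have : Subsingleton Γ(C, curveDiag c ⁻¹ᵁ (⟨(Set.range (curveDiag c))ᶜ,
        (curveDiag c).isClosedEmbedding.isClosed_range.isOpen_compl⟩ : (curveSq c).Opens)) := by
      rw [hbot]; exact CommRingCat.subsingleton_of_isTerminal C.sheaf.isTerminalOfEmpty
    exact Subsingleton.elim _ _
  · rw [map_one]
    exact one_dvd _

theorem exists_standardSmooth_affine [SmoothOfRelativeDimension 1 c] (x : C) :
    ∃ W : C.Opens, IsAffineOpen W ∧ x ∈ W ∧
      RingHom.IsStandardSmoothOfRelativeDimension 1 (sectionsHom c W) := by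
  obtain ⟨U, -, W, hW, hxW, e, he⟩ :=
    SmoothOfRelativeDimension.exists_isStandardSmoothOfRelativeDimension (n := 1) (f := c) x
  obtain rfl : U = ⊤ := top_le_iff.1 fun p _ => by
    rw [Subsingleton.elim (α := PrimeSpectrum k) p (c x)]
    exact e hxW
  exact ⟨W, hW, hxW, RingHom.isStandardSmoothOfRelativeDimension_respectsIso.2 _
    (Scheme.ΓSpecIso (CommRingCat.of k)).commRingCatIsoToRingEquiv.symm he⟩

/-- A function on the first factor. -/
def fstSec (W : C.Opens) : Γ(C, W) →+* Γ(curveSq c, openSq c W) :=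
  ((pullback.fst c c).appLE W (openSq c W) inf_le_left).hom

/-- A function on the second factor. -/
def sndSec (W : C.Opens) : Γ(C, W) →+* Γ(curveSq c, openSq c W) :=
  ((pullback.snd c c).appLE W (openSq c W) inf_le_right).hom

/-- Restriction to the diagonal. -/
def diagSec (W : C.Opens) : Γ(curveSq c, openSq c W) →+* Γ(C, W) :=
  ((curveDiag c).appLE (openSq c W) W (diag_preimage_openSq c W).ge).hom

theorem diagSec_fstSec (W : C.Opens) (s : Γ(C, W)) : diagSec c W (fstSec c W s) = s := by
  have h : (pullback.fst c c).appLE W (openSq c W) inf_le_left ≫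
      (curveDiag c).appLE (openSq c W) W (diag_preimage_openSq c W).ge = 𝟙 _ := by
    rw [Scheme.Hom.appLE_comp_appLE]
    simp only [pullback.diagonal_fst]
    simp [Scheme.Hom.appLE]
    exact (Category.id_comp _).trans (C.presheaf.map_id _)
  exact ConcreteCategory.congr_hom h s

theorem diagSec_sndSec (W : C.Opens) (s : Γ(C, W)) : diagSec c W (sndSec c W s) = s := by
  have h : (pullback.snd c c).appLE W (openSq c W) inf_le_right ≫
      (curveDiag c).appLE (openSq c W) W (diag_preimage_openSq c W).ge = 𝟙 _ := by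
    rw [Scheme.Hom.appLE_comp_appLE]
    simp only [pullback.diagonal_snd]
    simp [Scheme.Hom.appLE]
    exact (Category.id_comp _).trans (C.presheaf.map_id _)
  exact ConcreteCategory.congr_hom h s

theorem isPushout_openSq {W : C.Opens} (hW : IsAffineOpen W) :
    IsPushout (CommRingCat.ofHom (sectionsHom c W)) (CommRingCat.ofHom (sectionsHom c W))
      (CommRingCat.ofHom (fstSec c W)) (CommRingCat.ofHom (sndSec c W)) := by
  have := isIso_pushoutSection_of_isAffineOpen
    (IsPullback.of_hasPullback c c) (US := ⊤) (UT := W) (UX := W)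
    (UY := openSq c W) le_top le_top rfl (isAffineOpen_top _) hW hW
  rw [isIso_pushoutSection_iff] at this
  refine this.of_iso (Scheme.ΓSpecIso (CommRingCat.of k)) (Iso.refl _) (Iso.refl _) (Iso.refl _)
    ?_ ?_ ?_ ?_
  all_goals
    ext a
    simp [sectionsHom, fstSec, sndSec]

/-- `Γ(W × W) = Γ(W) ⊗ Γ(W)`. -/
def openSqIso {W : C.Opens} (hW : IsAffineOpen W) :
    letI := sectionsAlgebra c W
    CommRingCat.of (Γ(C, W) ⊗[k] Γ(C, W)) ≅ Γ(curveSq c, openSq c W) :=
  letI := sectionsAlgebra c W
  (CommRingCat.isPushout_tensorProduct k Γ(C, W) Γ(C, W)).isoIsPushout _ _ (isPushout_openSq c hW)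

theorem diagSec_openSqIso {W : C.Opens} (hW : IsAffineOpen W) :
    letI := sectionsAlgebra c W
    ∀ z, diagSec c W ((openSqIso c hW).hom z) = Algebra.TensorProduct.lmul' k z := by
  let := sectionsAlgebra c W
  have h : (openSqIso c hW).hom ≫ CommRingCat.ofHom (diagSec c W) =
      CommRingCat.ofHom (Algebra.TensorProduct.lmul' k (S := Γ(C, W))).toRingHom := by
    refine (CommRingCat.isPushout_tensorProduct k Γ(C, W) Γ(C, W)).hom_ext ?_ ?_
    · rw [openSqIso, IsPushout.inl_isoIsPushout_hom_assoc]
      ext s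
      show diagSec c W (fstSec c W s) = Algebra.TensorProduct.lmul' k (s ⊗ₜ 1)
      rw [diagSec_fstSec, Algebra.TensorProduct.lmul'_apply_tmul, mul_one]
    · rw [openSqIso, IsPushout.inr_isoIsPushout_hom_assoc]
      ext s
      show diagSec c W (sndSec c W s) = Algebra.TensorProduct.lmul' k (1 ⊗ₜ s)
      rw [diagSec_sndSec, Algebra.TensorProduct.lmul'_apply_tmul, one_mul]
  exact fun z => ConcreteCategory.congr_hom h z

/-- Around a point of the diagonal there is an equation. -/
theorem exists_isDiagEq_diag [SmoothOfRelativeDimension 1 c] (x : C) :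
    ∃ (O : (curveSq c).Opens) (f : Γ(curveSq c, O)), curveDiag c x ∈ O ∧ IsDiagEq c O f := by
  obtain ⟨W, hW, hxW, hsm⟩ := exists_standardSmooth_affine c x
  let := sectionsAlgebra c W
  have : Algebra.IsStandardSmoothOfRelativeDimension 1 k Γ(C, W) := by
    rw [← RingHom.isStandardSmoothOfRelativeDimension_algebraMap]
    exact hsm
  have : Nonempty W := ⟨⟨x, hxW⟩⟩
  obtain ⟨f₀, e₀, hf₀, -, he₀, hdvd⟩ := exists_diagonal_equation (k := k) (S := Γ(C, W))
  let φ := openSqIso c hW
  have hdiag : ∀ z, diagSec c W (φ.hom z) = Algebra.TensorProduct.lmul' k z :=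
    diagSec_openSqIso c hW
  have : IsAffine (W : Scheme.{u}) := hW
  have : IsAffine ((⊤ : (Spec (CommRingCat.of k)).Opens) : Scheme.{u}) := isAffineOpen_top _
  have hO : IsAffineOpen (openSq c W) :=
    .of_isIso (Scheme.Hom.isPullback_resLE (IsPullback.of_hasPullback c c)
      (US := ⊤) (UT := W) (UX := W) le_top le_top (UY := openSq c W) rfl).isoPullback.hom
  set e := φ.hom e₀ with he
  set f := φ.hom f₀ with hf
  set O := (curveSq c).basicOpen e with hOdef
  have hdO : curveDiag c x ∈ O := by
    have hmem : curveDiag c x ∈ openSq c W := (diag_preimage_openSq c W).ge hxW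
    have h1 : x ∈ C.basicOpen (diagSec c W e) := by
      rw [hdiag, he₀, Scheme.basicOpen_one]
      exact hxW
    rw [diagSec, Scheme.Hom.appLE, CommRingCat.comp_apply, Scheme.basicOpen_res] at h1
    have h2 : x ∈ curveDiag c ⁻¹ᵁ (curveSq c).basicOpen e := by
      rw [Scheme.preimage_basicOpen]
      exact h1.2
    exact h2
  refine ⟨O, (curveSq c).presheaf.map (homOfLE ((curveSq c).basicOpen_le e)).op f, hdO, ?_, ?_⟩
  · have h0 : diagSec c W f = 0 := by rw [hdiag, hf₀]
    have hle : curveDiag c ⁻¹ᵁ O ≤ W := fun z hz =>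
      (diag_preimage_openSq c W).le ((curveSq c).basicOpen_le e hz)
    have h1 : (curveSq c).presheaf.map (homOfLE ((curveSq c).basicOpen_le e)).op ≫
        (curveDiag c).app O = (curveDiag c).appLE (openSq c W) W (diag_preimage_openSq c W).ge ≫
          C.presheaf.map (homOfLE hle).op := by
      rw [← Scheme.Hom.appLE_eq_app, Scheme.Hom.map_appLE, Scheme.Hom.appLE_map]
    have h2 := ConcreteCategory.congr_hom h1 f
    rw [CommRingCat.comp_apply, CommRingCat.comp_apply] at h2
    exact h2.trans ((congrArg _ h0).trans (map_zero _))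
  · intro y hy V hyV h hh
    have hyW : y ∈ openSq c W := (curveSq c).basicOpen_le e hy
    obtain ⟨g, hgV, hyg⟩ := hO.exists_basicOpen_le (V := V) ⟨y, hyV⟩ hyW
    replace hyg : y ∈ (curveSq c).basicOpen g := hyg
    let := (((curveSq c).presheaf.map (homOfLE ((curveSq c).basicOpen_le g)).op).hom).toAlgebra
    have := hO.isLocalization_basicOpen g
    obtain ⟨n, a, ha⟩ := IsLocalization.Away.surj g
      ((curveSq c).presheaf.map (homOfLE hgV).op h)
    -- `a` vanishes on the diagonal inside the basic open of `g`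
    have hle : curveDiag c ⁻¹ᵁ (curveSq c).basicOpen g ≤ W := fun z hz =>
      (diag_preimage_openSq c W).le ((curveSq c).basicOpen_le g hz)
    have h1 : C.presheaf.map (homOfLE hle).op (diagSec c W a) = 0 := by
      have e1 : (curveDiag c).app _
          ((curveSq c).presheaf.map (homOfLE ((curveSq c).basicOpen_le g)).op a) = 0 := by
        change _ = (curveSq c).presheaf.map (homOfLE ((curveSq c).basicOpen_le g)).op a at ha
        rw [← ha, map_mul]
        have e2 : (curveDiag c).app _ ((curveSq c).presheaf.map (homOfLE hgV).op h) = 0 := by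
          rw [← CommRingCat.comp_apply, Scheme.Hom.naturality, CommRingCat.comp_apply, hh, map_zero]
        rw [e2, zero_mul]
      rw [← e1]
      have h3 : (curveSq c).presheaf.map (homOfLE ((curveSq c).basicOpen_le g)).op ≫
          (curveDiag c).app _ = (curveDiag c).appLE (openSq c W) W (diag_preimage_openSq c W).ge ≫
            C.presheaf.map (homOfLE hle).op := by
        rw [← Scheme.Hom.appLE_eq_app, Scheme.Hom.map_appLE, Scheme.Hom.appLE_map]
      exact (ConcreteCategory.congr_hom h3 a).symm
    have hbas : curveDiag c ⁻¹ᵁ (curveSq c).basicOpen g = C.basicOpen (diagSec c W g) := by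
      rw [diagSec, Scheme.Hom.appLE, CommRingCat.comp_apply, Scheme.basicOpen_res,
        Scheme.preimage_basicOpen]
      refine (inf_eq_right.2 fun z hz => ?_).symm
      exact (diag_preimage_openSq c W).le
        (C.basicOpen_le _ hz : z ∈ curveDiag c ⁻¹ᵁ openSq c W)
    obtain ⟨m, hm⟩ : ∃ m : ℕ, diagSec c W g ^ m * diagSec c W a = 0 := by
      let := ((C.presheaf.map (homOfLE (C.basicOpen_le (diagSec c W g))).op).hom).toAlgebra
      have := hW.isLocalization_basicOpen (diagSec c W g)
      have h2 : C.presheaf.map (homOfLE (C.basicOpen_le (diagSec c W g))).op (diagSec c W a) =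
          0 := by
        rw [show homOfLE (C.basicOpen_le (diagSec c W g)) = eqToHom hbas.symm ≫ homOfLE hle from
          rfl, op_comp, Functor.map_comp, CommRingCat.comp_apply, h1, map_zero]
      change algebraMap _ _ (diagSec c W a) = 0 at h2
      rw [IsLocalization.map_eq_zero_iff (Submonoid.powers (diagSec c W g))] at h2
      obtain ⟨⟨_, m, rfl⟩, hm⟩ := h2
      exact ⟨m, hm⟩
    obtain ⟨b, hb⟩ := hdvd (φ.inv (g ^ m * a)) (by
      rw [← hdiag, Iso.inv_hom_id_apply, map_mul, map_pow, hm])
    have hb' : e * (g ^ m * a) = f * φ.hom b := by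
      have := congrArg φ.hom hb
      simpa only [map_mul, map_pow, Iso.inv_hom_id_apply] using this
    have hge : ∀ z : Γ(curveSq c, openSq c W), y ∈ (curveSq c).basicOpen z →
        IsUnit ((curveSq c).presheaf.germ (openSq c W) y hyW z) := fun z hz =>
      (Scheme.mem_basicOpen _ z y hyW).1 hz
    have hG := congrArg ((curveSq c).presheaf.germ (openSq c W) y hyW) hb'
    simp only [map_mul, map_pow] at hG
    have hA : (curveSq c).presheaf.germ V y hyV h *
        (curveSq c).presheaf.germ (openSq c W) y hyW g ^ n =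
          (curveSq c).presheaf.germ (openSq c W) y hyW a := by
      have h5 : (curveSq c).presheaf.map (homOfLE hgV).op h *
          (curveSq c).presheaf.map (homOfLE ((curveSq c).basicOpen_le g)).op g ^ n =
            (curveSq c).presheaf.map (homOfLE ((curveSq c).basicOpen_le g)).op a := ha
      have h6 := congrArg ((curveSq c).presheaf.germ ((curveSq c).basicOpen g) y hyg) h5
      rw [map_mul, map_pow, TopCat.Presheaf.germ_res_apply, TopCat.Presheaf.germ_res_apply,
        TopCat.Presheaf.germ_res_apply] at h6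
      exact h6
    rw [TopCat.Presheaf.germ_res_apply]
    have h4 : (curveSq c).presheaf.germ (openSq c W) y hyW f ∣
        (curveSq c).presheaf.germ (openSq c W) y hyW a :=
      ((hge g hyg).pow m).dvd_mul_left.1 ((hge e hy).dvd_mul_left.1 ⟨_, hG⟩)
    rw [← hA] at h4
    exact ((hge g hyg).pow n).dvd_mul_right.1 h4

/-- Every point has a neighbourhood with an equation of the diagonal. -/
theorem exists_isDiagEq [SmoothOfRelativeDimension 1 c] [IsSeparated c] (y : curveSq c) :
    ∃ (O : (curveSq c).Opens) (f : Γ(curveSq c, O)), y ∈ O ∧ IsDiagEq c O f := by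
  by_cases hy : y ∈ Set.range (curveDiag c)
  · obtain ⟨x, rfl⟩ := hy
    exact exists_isDiagEq_diag c x
  · exact ⟨_, 1, hy, isDiagEq_one c⟩

end FermatAgent.Jacobian
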