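import Mathlib

/-!
# The equation of the diagonal of a standard smooth curve

The ideal of the diagonal in `S ⊗ S` is principal near the diagonal: a lift of a basis of the
differentials generates it modulo its square, and Nakayama gives an element `e` congruent to `1`
with `e I ⊆ (f)`.
-/

set_option autoImplicit false

noncomputable section

namespace FermatAgent.Jacobian

open scoped TensorProduct KaehlerDifferential

universe u v

variable {k : Type u} [Field k] {S : Type v} [CommRing S] [Algebra k S]

/-- Near the diagonal the ideal of the diagonal is generated by one element. -/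
theorem exists_diagonal_equation [Nontrivial S]
    [Algebra.IsStandardSmoothOfRelativeDimension 1 k S] :
    ∃ f e : S ⊗[k] S, Algebra.TensorProduct.lmul' k f = 0 ∧ f ≠ 0 ∧
      Algebra.TensorProduct.lmul' k e = 1 ∧
      ∀ x : S ⊗[k] S, Algebra.TensorProduct.lmul' k x = 0 → f ∣ e * x := by
  have : Algebra.IsStandardSmooth k S :=
    Algebra.IsStandardSmoothOfRelativeDimension.isStandardSmooth 1
  set I := KaehlerDifferential.ideal k S with hI
  have hmem : ∀ x, x ∈ I ↔ Algebra.TensorProduct.lmul' k x = 0 := fun x => Iff.rfl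
  have hrank : Module.finrank S Ω[S⁄k] = 1 := Module.finrank_eq_of_rank_eq (by
    rw [Algebra.IsStandardSmoothOfRelativeDimension.rank_kaehlerDifferential 1])
  let ω := Module.finBasisOfFinrankEq S Ω[S⁄k] hrank
  obtain ⟨⟨f, hf⟩, hfω⟩ : ∃ f : I, KaehlerDifferential.fromIdeal k S f = ω 0 :=
    Ideal.toCotangent_surjective I (ω 0)
  have hle : I ≤ Ideal.span {f} ⊔ I • I := by
    intro x hx
    have h1 : KaehlerDifferential.fromIdeal k S ⟨x, hx⟩ =
        KaehlerDifferential.fromIdeal k S
          ⟨algebraMap S (S ⊗[k] S) (ω.repr (KaehlerDifferential.fromIdeal k S ⟨x, hx⟩) 0) * f,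
            I.mul_mem_left _ hf⟩ := by
      have hc := ω.sum_repr (KaehlerDifferential.fromIdeal k S ⟨x, hx⟩)
      rw [Fin.sum_univ_one, ← hfω, ← algebraMap_smul (S ⊗[k] S), ← map_smul] at hc
      exact hc.symm
    have h2 := (Ideal.toCotangent_eq I).1 h1
    rw [show x = algebraMap S (S ⊗[k] S)
        (ω.repr (KaehlerDifferential.fromIdeal k S ⟨x, hx⟩) 0) * f +
          (x - algebraMap S (S ⊗[k] S)
            (ω.repr (KaehlerDifferential.fromIdeal k S ⟨x, hx⟩) 0) * f) by ring]
    refine Submodule.add_mem_sup (Ideal.mul_mem_left _ _ (Ideal.mem_span_singleton_self f)) ?_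
    rw [smul_eq_mul, ← pow_two]
    exact h2
  have hfg : I.FG := KaehlerDifferential.ideal_fg k S
  let Q := (S ⊗[k] S) ⧸ Ideal.span {f}
  let π := Submodule.mkQ (Ideal.span {f} : Submodule (S ⊗[k] S) (S ⊗[k] S))
  obtain ⟨e, he, hek⟩ := Submodule.exists_sub_one_mem_and_smul_eq_zero_of_fg_of_le_smul I
    (Submodule.map π I) (Submodule.FG.map π hfg) (by
      rw [← Submodule.map_smul'']
      refine (Submodule.map_mono hle).trans ?_
      rw [Submodule.map_sup, sup_le_iff]
      exact ⟨le_trans (le_of_eq (Submodule.mkQ_map_self _)) bot_le, le_rfl⟩)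
  refine ⟨f, e, (hmem f).1 hf, ?_, ?_, fun x hx => ?_⟩
  · intro h0
    refine ω.ne_zero 0 ?_
    rw [← hfω, ← map_zero (KaehlerDifferential.fromIdeal k S)]
    exact congrArg _ (Subtype.ext h0)
  · have := (hmem _).1 he
    rwa [map_sub, map_one, sub_eq_zero] at this
  · rw [← Ideal.mem_span_singleton]
    refine (Submodule.Quotient.mk_eq_zero (Ideal.span {f})).1 ?_
    have h := hek (π x) (Submodule.mem_map_of_mem ((hmem x).2 hx))
    rw [← map_smul] at h
    exact h

end FermatAgent.Jacobian
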