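import Fermat.Agent.Jacobian.Setup.DiagonalUnits
import Fermat.Agent.Jacobian.Setup.Natural
import Fermat.Agent.Jacobian.Cocycle.Cover

/-!
# The class of the diagonal

The cocycle of the equations of the diagonal, its restriction to `C × x` for a rational point `x`,
and the class `O(Δ) - O(ε × C)` normalised along the section.
-/

set_option autoImplicit false
set_option linter.unusedSectionVars false

noncomputable section

open CategoryTheory CategoryTheory.Limits AlgebraicGeometry AlgebraicGeometry.RelPicard
  TopologicalSpace NeronModelInfra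

namespace FermatAgent.Jacobian

open Cocycle (opull)

universe u

variable {k : Type u} [Field k] {C : Scheme.{u}} (c : C ⟶ Spec (CommRingCat.of k))

instance isIso_algSpecMap_self : IsIso (algSpecMap (k := k) k) := by
  rw [algSpecMap_self]; infer_instance

instance subsingleton_spec_field : Subsingleton (Spec (CommRingCat.of k)) :=
  inferInstanceAs (Subsingleton (PrimeSpectrum k))

instance isIntegral_curveOver_self [IsIntegral C] : IsIntegral (curveOver c k) :=
  have : Nonempty (curveOver c k) :=
    ⟨inv (pullback.fst c (algSpecMap (k := k) k)) (genericPoint C)⟩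
  isIntegral_of_isOpenImmersion (pullback.fst c (algSpecMap (k := k) k))

variable (x : SchemeHomOver (algSpecMap (k := k) k) c)

/-- The point of the curve. -/
def ptOf : C := x.1 (IsLocalRing.closedPoint k)

theorem apply_eq_ptOf (p : Spec (CommRingCat.of k)) : x.1 p = ptOf c x :=
  congrArg _ (Subsingleton.elim p _)

/-- The point of `C_k` over the point. -/
def secOf : Spec (CommRingCat.of k) ⟶ curveOver c k :=
  pullback.lift x.1 (𝟙 _) (by rw [x.2, Category.id_comp])

/-- `C → C × C`, the inclusion of `C × x`. -/
abbrev sqMap : curveOver c k ⟶ curveSq c := baseChangeSnd c x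

theorem sqMap_fst : sqMap c x ≫ pullback.fst c c = pullback.fst c (algSpecMap (k := k) k) := by
  rw [sqMap, baseChangeSnd, pullback.lift_fst, Category.comp_id]

theorem sqMap_snd :
    sqMap c x ≫ pullback.snd c c = pullback.snd c (algSpecMap (k := k) k) ≫ x.1 :=
  pullback.lift_snd _ _ _

theorem secOf_sqMap : secOf c x ≫ sqMap c x = x.1 ≫ curveDiag c := by
  refine pullback.hom_ext ?_ ?_
  · rw [Category.assoc, sqMap_fst, secOf, pullback.lift_fst, Category.assoc, pullback.diagonal_fst,
      Category.comp_id]
  · rw [Category.assoc, sqMap_snd, secOf, pullback.lift_snd_assoc, Category.id_comp, Category.assoc,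
      pullback.diagonal_snd, Category.comp_id]

theorem fst_secOf (p : Spec (CommRingCat.of k)) :
    pullback.fst c (algSpecMap (k := k) k) (secOf c x p) = ptOf c x := by
  rw [← Scheme.Hom.comp_apply, secOf, pullback.lift_fst]
  exact apply_eq_ptOf c x p

theorem eq_secOf_of_fst_eq {p : curveOver c k}
    (h : pullback.fst c (algSpecMap (k := k) k) p = ptOf c x) :
    p = secOf c x (IsLocalRing.closedPoint k) :=
  (pullback.fst c (algSpecMap (k := k) k)).isOpenEmbedding.injective
    (h.trans (fst_secOf c x _).symm)

theorem sqMap_mem_range_iff {p : curveOver c k} :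
    sqMap c x p ∈ Set.range (curveDiag c) ↔
      pullback.fst c (algSpecMap (k := k) k) p = ptOf c x := by
  constructor
  · rintro ⟨q, hq⟩
    have h1 := congrArg (pullback.fst c c) hq
    have h2 := congrArg (pullback.snd c c) hq
    rw [← Scheme.Hom.comp_apply, ← Scheme.Hom.comp_apply, pullback.diagonal_fst, sqMap_fst] at h1
    rw [← Scheme.Hom.comp_apply, ← Scheme.Hom.comp_apply, pullback.diagonal_snd, sqMap_snd] at h2
    rw [← h1, h2]
    exact apply_eq_ptOf c x _
  · intro h
    refine ⟨ptOf c x, ?_⟩
    rw [eq_secOf_of_fst_eq c x h, ← Scheme.Hom.comp_apply, secOf_sqMap]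
    rfl

variable (ε : SchemeHomOver (𝟙 (Spec (CommRingCat.of k))) c)

theorem secOf_algPoint : secOf c (algPoint ε) = rigSection c (algSpecMap (k := k) k) ε := by
  refine pullback.hom_ext ?_ ?_
  · rw [secOf, rigSection, pullback.lift_fst, pullback.lift_fst]
    exact ((congrArg (· ≫ ε.1) (algSpecMap_self (k := k))).trans (Category.id_comp _)).symm
  · rw [secOf, rigSection, pullback.lift_snd, pullback.lift_snd]

section Smooth

variable [IsAlgClosed k] [SmoothOfRelativeDimension 1 c] [IsIntegral C] [IsProper c]

/-- The chosen open around a point of `C × C`. -/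
def diagOpen (y : curveSq c) : (curveSq c).Opens := (exists_isDiagEq c y).choose

/-- The chosen equation of the diagonal. -/
def diagEq (y : curveSq c) : Γ(curveSq c, diagOpen c y) :=
  (exists_isDiagEq c y).choose_spec.choose

theorem mem_diagOpen (y : curveSq c) : y ∈ diagOpen c y :=
  (exists_isDiagEq c y).choose_spec.choose_spec.1

theorem isDiagEq_diagEq (y : curveSq c) : IsDiagEq c (diagOpen c y) (diagEq c y) :=
  (exists_isDiagEq c y).choose_spec.choose_spec.2

/-- The ratio of two equations. -/
def diagTrans (i j : curveSq c) : Γ(curveSq c, diagOpen c i ⊓ diagOpen c j) :=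
  ((isDiagEq_diagEq c i).exists_unit c (isDiagEq_diagEq c j)).choose

theorem isUnit_diagTrans (i j : curveSq c) : IsUnit (diagTrans c i j) :=
  ((isDiagEq_diagEq c i).exists_unit c (isDiagEq_diagEq c j)).choose_spec.1

theorem diagEq_mul_trans (i j : curveSq c) {W : (curveSq c).Opens} (hi : W ≤ diagOpen c i)
    (hj : W ≤ diagOpen c j) :
    ores hi (diagEq c i) * ores (le_inf hi hj) (diagTrans c i j) = ores hj (diagEq c j) := by
  have h : ores inf_le_left (diagEq c i) * diagTrans c i j = ores inf_le_right (diagEq c j) :=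
    ((isDiagEq_diagEq c i).exists_unit c (isDiagEq_diagEq c j)).choose_spec.2
  have h' := congrArg (ores (le_inf hi hj)) h
  rwa [ores_mul, ores_ores, ores_ores] at h'

theorem diagEq_cancel (i : curveSq c) {W : (curveSq c).Opens} (hi : W ≤ diagOpen c i)
    {a b : Γ(curveSq c, W)} (h : ores hi (diagEq c i) * a = ores hi (diagEq c i) * b) : a = b := by
  rcases isEmpty_or_nonempty W with hW | hW
  · have : Subsingleton Γ(curveSq c, W) := by
      rw [show W = ⊥ from Opens.ext (Set.eq_empty_of_forall_notMem fun y hy => hW.false ⟨y, hy⟩)]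
      exact CommRingCat.subsingleton_of_isTerminal (curveSq c).sheaf.isTerminalOfEmpty
    exact Subsingleton.elim _ _
  · obtain ⟨⟨y, hy⟩⟩ := hW
    have : Nonempty W := ⟨⟨y, hy⟩⟩
    refine mul_left_cancel₀ (fun h0 => (isDiagEq_diagEq c i).germ_ne_zero c (hi hy) ?_) h
    have h1 := congrArg ((curveSq c).presheaf.germ W y hy) h0
    rw [map_zero] at h1
    rw [← h1]
    exact ((curveSq c).presheaf.germ_res_apply _ _ _ _).symm

/-- The line bundle of the diagonal. -/
def diagGl : Gl (curveSq c) where
  ι := curveSq c
  U := diagOpen c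
  cover y := ⟨y, mem_diagOpen c y⟩
  g := diagTrans c
  isUnit := isUnit_diagTrans c
  cocycle i j l W hi hj hl := by
    refine diagEq_cancel c i hi ?_
    rw [← mul_assoc, diagEq_mul_trans c i j hi hj, diagEq_mul_trans c j l hj hl,
      diagEq_mul_trans c i l hi hl]

/-! ### The restriction to `C × x` -/

/-- The restriction of an equation to `C × x`. -/
def pullEq (i : curveSq c) : Γ(curveOver c k, sqMap c x ⁻¹ᵁ diagOpen c i) :=
  opull (sqMap c x) le_rfl (diagEq c i)

theorem germ_pullEq (i : curveSq c) {p : curveOver c k} (hp : p ∈ sqMap c x ⁻¹ᵁ diagOpen c i) :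
    (curveOver c k).presheaf.germ _ p hp (pullEq c x i) =
      (sqMap c x).stalkMap p ((curveSq c).presheaf.germ _ (sqMap c x p) hp (diagEq c i)) := by
  rw [pullEq, Cocycle.opull, ores_self]
  exact (Scheme.Hom.germ_stalkMap_apply _ _ _ _ _).symm

/-- Away from the point the restricted equations are invertible. -/
theorem isUnit_germ_pullEq (i : curveSq c) {p : curveOver c k}
    (hp : p ∈ sqMap c x ⁻¹ᵁ diagOpen c i)
    (hne : pullback.fst c (algSpecMap (k := k) k) p ≠ ptOf c x) :
    IsUnit ((curveOver c k).presheaf.germ _ p hp (pullEq c x i)) := by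
  rw [germ_pullEq]
  exact ((isDiagEq_diagEq c i).isUnit_germ c hp
    fun h => hne ((sqMap_mem_range_iff c x).mp h)).map ((sqMap c x).stalkMap p).hom

/-- At the point the restricted equations vanish. -/
theorem opull_secOf_pullEq (i : curveSq c) {W : (Spec (CommRingCat.of k)).Opens}
    (h : W ≤ secOf c x ⁻¹ᵁ sqMap c x ⁻¹ᵁ diagOpen c i) :
    opull (secOf c x) h (pullEq c x i) = 0 := by
  rw [pullEq, Cocycle.opull_opull, opull_congr (secOf_sqMap c x)]
  have h0 : opull (curveDiag c) (le_refl (curveDiag c ⁻¹ᵁ diagOpen c i)) (diagEq c i) = 0 := by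
    rw [Cocycle.opull, ores_self]
    exact (isDiagEq_diagEq c i).1
  have hW : W ≤ x.1 ⁻¹ᵁ curveDiag c ⁻¹ᵁ diagOpen c i := by
    intro p hp
    have h1 : secOf c x ≫ sqMap c x = x.1 ≫ curveDiag c := secOf_sqMap c x
    show (x.1 ≫ curveDiag c) p ∈ diagOpen c i
    rw [← h1]
    exact h hp
  rw [← Cocycle.opull_opull x.1 (curveDiag c) le_rfl hW, h0]
  exact (congrArg (ores hW) (map_zero (x.1.app _).hom)).trans (ores_zero _)

/-- At every point the restricted equations divide the functions vanishing at `x`. -/
theorem pullEq_dvd (i : curveSq c) {W : C.Opens} (r : Γ(C, W)) (hW : ⊤ ≤ x.1 ⁻¹ᵁ W)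
    (hr : opull x.1 hW r = 0) {p : curveOver c k} (hp : p ∈ sqMap c x ⁻¹ᵁ diagOpen c i)
    (hpW : p ∈ openAbove c k W) :
    (curveOver c k).presheaf.germ _ p hp (pullEq c x i) ∣
      (curveOver c k).presheaf.germ _ p hpW (curveSec c k W r) := by
  have hq : sqMap c x p ∈ openSq c W := by
    refine ⟨?_, ?_⟩
    · show (sqMap c x ≫ pullback.fst c c) p ∈ W
      rw [sqMap_fst]
      exact hpW
    · show (sqMap c x ≫ pullback.snd c c) p ∈ W
      rw [sqMap_snd]
      exact hW (Set.mem_univ (pullback.snd c (algSpecMap (k := k) k) p))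
  set h := fstSec c W r - sndSec c W r with hh
  have hd : (curveDiag c).app (openSq c W) h = 0 := by
    have h1 : diagSec c W h = 0 := by rw [hh, map_sub, diagSec_fstSec, diagSec_sndSec, sub_self]
    have h2 : (curveDiag c).app (openSq c W) h =
        ores (diag_preimage_openSq c W).le (diagSec c W h) :=
      (ores_self _).symm.trans
        (ores_ores (diag_preimage_openSq c W).le (diag_preimage_openSq c W).ge _).symm
    rw [h2, h1, ores_zero]
  have hdvd := (isDiagEq_diagEq c i).2 (sqMap c x p) hp (openSq c W) hq h hd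
  have h3 := map_dvd ((sqMap c x).stalkMap p).hom hdvd
  rw [germ_pullEq]
  refine h3.trans (Eq.dvd ?_)
  have hle : sqMap c x ⁻¹ᵁ openSq c W ≤ openAbove c k W := fun z hz => by
    show pullback.fst c (algSpecMap (k := k) k) z ∈ W
    rw [← sqMap_fst c x]
    exact hz.1
  have e1 : opull (sqMap c x) (le_refl (sqMap c x ⁻¹ᵁ openSq c W)) (fstSec c W r) =
      ores hle (curveSec c k W r) := by
    change opull (sqMap c x) le_rfl
      (opull (pullback.fst c c) (inf_le_left : openSq c W ≤ _) r) = _
    rw [Cocycle.opull_opull, opull_congr (sqMap_fst c x)]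
    rfl
  have e2 : opull (sqMap c x) (le_refl (sqMap c x ⁻¹ᵁ openSq c W)) (sndSec c W r) = 0 := by
    change opull (sqMap c x) le_rfl
      (opull (pullback.snd c c) (inf_le_right : openSq c W ≤ _) r) = _
    rw [Cocycle.opull_opull, opull_congr (sqMap_snd c x),
      ← Cocycle.opull_opull (pullback.snd c (algSpecMap (k := k) k)) x.1 hW
        (le_top : sqMap c x ⁻¹ᵁ openSq c W ≤ pullback.snd c (algSpecMap (k := k) k) ⁻¹ᵁ ⊤), hr]
    exact (congrArg (ores _) (map_zero ((pullback.snd c _).app ⊤).hom)).trans (ores_zero _)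
  have e3 : (sqMap c x).app (openSq c W) h = ores hle (curveSec c k W r) := by
    rw [hh, map_sub]
    rw [Cocycle.opull, ores_self] at e1 e2
    rw [e1, e2, sub_zero]
  rw [Scheme.Hom.germ_stalkMap_apply, e3]
  exact (curveOver c k).presheaf.germ_res_apply _ _ _ _

/-- The restricted equations are nonzero in every local ring. -/
theorem germ_pullEq_ne_zero (i : curveSq c) {p : curveOver c k}
    (hp : p ∈ sqMap c x ⁻¹ᵁ diagOpen c i) (hx : ptOf c x ≠ genericPoint C) :
    (curveOver c k).presheaf.germ _ p hp (pullEq c x i) ≠ 0 := by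
  intro h0
  have hη : genericPoint (curveOver c k) ∈ sqMap c x ⁻¹ᵁ diagOpen c i :=
    ((genericPoint_spec (curveOver c k)).mem_open_set_iff (sqMap c x ⁻¹ᵁ diagOpen c i).isOpen).mpr
      ⟨p, Set.mem_univ p, hp⟩
  have hu := isUnit_germ_pullEq c x i hη fun h => hx (h.symm.trans
    (genericPoint_eq_of_isOpenImmersion (pullback.fst c (algSpecMap (k := k) k))))
  rw [← map_zero ((curveOver c k).presheaf.germ _ p hp).hom] at h0
  rw [germ_injective_of_isIntegral (curveOver c k) p hp h0, map_zero] at hu
  exact not_isUnit_zero hu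

/-! ### The classes -/

/-- The class of the diagonal. -/
def diagClass : PicC (curveSq c) := (diagGl c).cls

/-- The class of a point on `C_k`. -/
def pointClass : PicC (curveOver c k) := PicC.pull (sqMap c x) (diagClass c)

omit [IsAlgClosed k] [SmoothOfRelativeDimension 1 c] [IsIntegral C] [IsProper c] in
/-- The projection `C × C → C_k`. -/
def toSelf : curveSq c ⟶ curveOver c k :=
  pullback.lift (pullback.fst c c) (pullback.snd c c ≫ c)
    (by rw [algSpecMap_self, Category.comp_id, pullback.condition])

/-- `O(Δ) - O(ε × C)`. -/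
def preDeltaClass : PicC (curveSq c) :=
  diagClass c * (PicC.pull (toSelf c) (pointClass c (algPoint ε)))⁻¹

/-- `O(Δ) - O(ε × C)`, normalised along the section. -/
def deltaClass : PicC (curveSq c) :=
  preDeltaClass c ε *
    (PicC.pull (pullback.snd c c ≫ rigSection c c ε) (preDeltaClass c ε))⁻¹

theorem pull_rigSection_deltaClass :
    PicC.pull (rigSection c c ε) (deltaClass c ε) = 1 := by
  rw [deltaClass, map_mul, map_inv, ← PicC.pull_comp, ← Category.assoc]
  rw [show rigSection c c ε ≫ pullback.snd c c = 𝟙 C from pullback.lift_snd _ _ _,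
    Category.id_comp, mul_inv_cancel]

theorem sqMap_toSelf : sqMap c x ≫ toSelf c = 𝟙 _ := by
  refine pullback.hom_ext ?_ ?_
  · rw [Category.assoc, toSelf, pullback.lift_fst, sqMap_fst, Category.id_comp]
  · rw [Category.assoc, toSelf, pullback.lift_snd, ← Category.assoc, sqMap_snd, Category.assoc,
      x.2, Category.id_comp]
    exact (congrArg (pullback.snd c (algSpecMap (k := k) k) ≫ ·)
      (algSpecMap_self (k := k))).trans (Category.comp_id _)

/-- The value at a rational point. -/
theorem pull_deltaClass :
    PicC.pull (sqMap c x) (deltaClass c ε) =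
      pointClass c x * (pointClass c (algPoint ε))⁻¹ := by
  rw [deltaClass, map_mul, map_inv, preDeltaClass, map_mul, map_inv, ← PicC.pull_comp,
    sqMap_toSelf, PicC.pull_id, ← PicC.pull_comp, ← Category.assoc, sqMap_snd, Category.assoc,
    PicC.pull_comp, PicC.eq_one_of_subsingleton (PicC.pull (x.1 ≫ rigSection c c ε) _), map_one, inv_one, mul_one]
  rfl

/-- The value at the base point is trivial. -/
theorem pull_deltaClass_self :
    PicC.pull (sqMap c (algPoint ε)) (deltaClass c ε) = 1 := by
  rw [pull_deltaClass, mul_inv_cancel]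

end Smooth

end FermatAgent.Jacobian
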