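import Fermat.Agent.Jacobian.Setup.Curve

/-!
# The open set where a rational function is regular

The regular locus of a rational function is open and carries a section equal to the function.
-/

set_option autoImplicit false

noncomputable section

open CategoryTheory AlgebraicGeometry TopologicalSpace Opposite Polynomial

namespace FermatAgent.Jacobian

universe u

variable {C : Scheme.{u}} [IsIntegral C] (t : C.functionField)

/-- The points where `t` is regular. -/
def regLocus : Set C :=
  {x | t ∈ Set.range (algebraMap (C.presheaf.stalk x) C.functionField)}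

theorem exists_section {x : C} (hx : x ∈ regLocus t) :
    ∃ (W : C.Opens) (_ : Nonempty W), x ∈ W ∧ ∃ s : Γ(C, W), C.germToFunctionField W s = t := by
  obtain ⟨a, ha⟩ := hx
  obtain ⟨W, hW, s, rfl⟩ := C.presheaf.exists_germ_eq a
  have : Nonempty W := ⟨⟨x, hW⟩⟩
  exact ⟨W, this, hW, s, by rw [← ha, Scheme.algebraMap_germ_eq_germToFunctionField]⟩

theorem mem_regLocus_of_section {W : C.Opens} [Nonempty W] {s : Γ(C, W)}
    (hs : C.germToFunctionField W s = t) {x : C} (hx : x ∈ W) : x ∈ regLocus t :=
  ⟨C.presheaf.germ W x hx s, by rw [Scheme.algebraMap_germ_eq_germToFunctionField, hs]⟩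

theorem isOpen_regLocus : IsOpen (regLocus t) := isOpen_iff_forall_mem_open.2 fun x hx => by
  obtain ⟨W, _, hxW, s, hs⟩ := exists_section t hx
  exact ⟨W, fun y hy => mem_regLocus_of_section t hs hy, W.isOpen, hxW⟩

/-- The open set where `t` is regular. -/
def regOpen : C.Opens := ⟨regLocus t, isOpen_regLocus t⟩

theorem genericPoint_mem_regOpen : genericPoint C ∈ regOpen t := by
  obtain ⟨W, hW, s, hs⟩ := C.presheaf.exists_germ_eq t
  have : Nonempty W := ⟨⟨_, hW⟩⟩
  exact mem_regLocus_of_section t hs hW

instance : Nonempty (regOpen t) := ⟨⟨_, genericPoint_mem_regOpen t⟩⟩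

theorem exists_regFun : ∃ s : Γ(C, regOpen t), C.germToFunctionField (regOpen t) s = t := by
  choose W hW hxW s hs using fun x : regOpen t => exists_section t x.2
  have hle : ∀ x, W x ≤ regOpen t := fun x y hy =>
    @mem_regLocus_of_section _ _ t (W x) (hW x) (s x) (hs x) y hy
  have hcompat : TopCat.Presheaf.IsCompatible C.presheaf W s := fun i j => by
    have hg : genericPoint C ∈ W i ⊓ W j :=
      ⟨((genericPoint_spec C).mem_open_set_iff (W i).isOpen).mpr (by simpa using hW i),
        ((genericPoint_spec C).mem_open_set_iff (W j).isOpen).mpr (by simpa using hW j)⟩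
    refine germ_injective_of_isIntegral (X := C) (genericPoint C) hg ?_
    rw [TopCat.Presheaf.germ_res_apply, TopCat.Presheaf.germ_res_apply]
    exact (hs i).trans (hs j).symm
  obtain ⟨r, hr, -⟩ := C.sheaf.existsUnique_gluing' W (regOpen t) (fun x => homOfLE (hle x))
    (fun y hy => Opens.mem_iSup.2 ⟨⟨y, hy⟩, hxW ⟨y, hy⟩⟩) s hcompat
  refine ⟨r, ?_⟩
  let x₀ : regOpen t := ⟨_, genericPoint_mem_regOpen t⟩
  refine Eq.trans ?_ (hs x₀)
  rw [← hr x₀]
  exact (C.presheaf.germ_res_apply _ _ _ _).symm

/-- The section of `t` on the open set where it is regular. -/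
def regFun : Γ(C, regOpen t) := (exists_regFun t).choose

theorem germ_regFun : C.germToFunctionField (regOpen t) (regFun t) = t :=
  (exists_regFun t).choose_spec

end FermatAgent.Jacobian
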