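import Fermat.Agent.Jacobian.Setup.Diagonal
import Fermat.Agent.Jacobian.Setup.RatOpen

/-!
# The transition functions of the diagonal

`C ×_k C` is integral, and two equations of the diagonal differ by a unit on the intersection.
-/

set_option autoImplicit false

noncomputable section

open CategoryTheory CategoryTheory.Limits AlgebraicGeometry TopologicalSpace

namespace FermatAgent.Jacobian

universe u

variable {k : Type u} [Field k] [IsAlgClosed k] {C : Scheme.{u}}
  (c : C ⟶ Spec (CommRingCat.of k)) [SmoothOfRelativeDimension 1 c] [IsIntegral C] [IsProper c]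

instance isIntegral_curveSq : IsIntegral (curveSq c) :=
  have : Smooth c := SmoothOfRelativeDimension.smooth 1 c
  have : GeometricallyIntegral c := geometricallyIntegral_of_isAlgClosed c
  have : IsLocallyNoetherian C := LocallyOfFiniteType.isLocallyNoetherian c
  inferInstance

variable {O O' : (curveSq c).Opens} {f : Γ(curveSq c, O)} {f' : Γ(curveSq c, O')}

omit [IsProper c] [IsAlgClosed k] [SmoothOfRelativeDimension 1 c] [IsIntegral C] in
theorem IsDiagEq.dvd_germ (hf : IsDiagEq c O f) (hf' : IsDiagEq c O' f') {y : curveSq c}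
    (hy : y ∈ O) (hy' : y ∈ O') :
    (curveSq c).presheaf.germ O y hy f ∣ (curveSq c).presheaf.germ O' y hy' f' :=
  hf.2 y hy O' hy' f' hf'.1

/-- An equation of the diagonal is nonzero in every local ring. -/
theorem IsDiagEq.germ_ne_zero (hf : IsDiagEq c O f) {y : curveSq c} (hy : y ∈ O) :
    (curveSq c).presheaf.germ O y hy f ≠ 0 := by
  have hη : genericPoint (curveSq c) ∈ O :=
    ((genericPoint_spec (curveSq c)).mem_open_set_iff O.isOpen).mpr ⟨y, Set.mem_univ y, hy⟩
  have hnd : genericPoint (curveSq c) ∉ Set.range (curveDiag c) := by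
    -- otherwise a nonzero equation would be invertible at a point of the diagonal
    rintro ⟨x, hx⟩
    obtain ⟨W, hW, hxW, hsm⟩ := exists_standardSmooth_affine c x
    let := sectionsAlgebra c W
    have : Algebra.IsStandardSmoothOfRelativeDimension 1 k Γ(C, W) := by
      rw [← RingHom.isStandardSmoothOfRelativeDimension_algebraMap]
      exact hsm
    have : Nonempty W := ⟨⟨x, hxW⟩⟩
    obtain ⟨f₀, -, hf₀, hne, -, -⟩ := exists_diagonal_equation (k := k) (S := Γ(C, W))
    set g := (openSqIso c hW).hom f₀
    have hxO : curveDiag c x ∈ openSq c W := (diag_preimage_openSq c W).ge hxW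
    have hg : (curveSq c).presheaf.germ (openSq c W) (curveDiag c x) hxO g ≠ 0 := by
      intro h0
      rw [← map_zero ((curveSq c).presheaf.germ (openSq c W) (curveDiag c x) hxO).hom] at h0
      refine hne ?_
      have h2 := congrArg (openSqIso c hW).inv
        (germ_injective_of_isIntegral (curveSq c) _ hxO h0)
      rwa [Iso.hom_inv_id_apply, map_zero] at h2
    obtain ⟨w, hw⟩ := (isField_stalk_of_closure_mem_irreducibleComponents (curveSq c)
      (curveDiag c x) (by
        simp [irreducibleComponents_eq_singleton, hx,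
          (genericPoint_spec (curveSq c)).def])).mul_inv_cancel hg
    have hu := (IsUnit.of_mul_eq_one w hw).map ((curveDiag c).stalkMap x).hom
    erw [Scheme.Hom.germ_stalkMap_apply] at hu
    have h5 : C.presheaf.germ (curveDiag c ⁻¹ᵁ openSq c W) x hxO
        ((curveDiag c).app (openSq c W) g) = 0 := by
      rw [← TopCat.Presheaf.germ_res_apply C.presheaf
        (homOfLE (diag_preimage_openSq c W).ge) x hxW]
      exact (congrArg _ ((diagSec_openSqIso c hW f₀).trans hf₀)).trans (map_zero _)
    rw [h5] at hu
    exact not_isUnit_zero hu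
  intro h0
  have h1 := hf.isUnit_germ c hη hnd
  rw [← map_zero ((curveSq c).presheaf.germ O y hy).hom] at h0
  have h2 := germ_injective_of_isIntegral (curveSq c) _ hy h0
  rw [h2, map_zero] at h1
  exact not_isUnit_zero h1

/-- Two equations of the diagonal differ by a unit. -/
theorem IsDiagEq.exists_unit (hf : IsDiagEq c O f) (hf' : IsDiagEq c O' f') :
    ∃ u : Γ(curveSq c, O ⊓ O'), IsUnit u ∧
      (curveSq c).presheaf.map (homOfLE inf_le_left).op f * u =
        (curveSq c).presheaf.map (homOfLE inf_le_right).op f' := by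
  rcases isEmpty_or_nonempty (O ⊓ O' : (curveSq c).Opens) with he | hne
  · have : Subsingleton Γ(curveSq c, O ⊓ O') := by
      rw [show O ⊓ O' = ⊥ from Opens.ext (Set.eq_empty_of_forall_notMem
        fun y hy => he.false ⟨y, hy⟩)]
      exact CommRingCat.subsingleton_of_isTerminal (curveSq c).sheaf.isTerminalOfEmpty
    exact ⟨1, isUnit_one, Subsingleton.elim _ _⟩
  obtain ⟨⟨y₀, hy₀⟩⟩ := hne
  have : Nonempty O := ⟨⟨y₀, hy₀.1⟩⟩
  have : Nonempty O' := ⟨⟨y₀, hy₀.2⟩⟩
  have : Nonempty (O ⊓ O' : (curveSq c).Opens) := ⟨⟨y₀, hy₀⟩⟩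
  set a := (curveSq c).germToFunctionField O f with ha
  set a' := (curveSq c).germToFunctionField O' f' with ha'
  have ha0 : a ≠ 0 := hf.germ_ne_zero c _
  have hle : O ⊓ O' ≤ regOpen (a' / a) := by
    rintro y ⟨hy, hy'⟩
    obtain ⟨q, hq⟩ := hf.dvd_germ c hf' hy hy'
    refine ⟨q, ?_⟩
    have h := congrArg (algebraMap _ (curveSq c).functionField) hq
    rw [map_mul, Scheme.algebraMap_germ_eq_germToFunctionField,
      Scheme.algebraMap_germ_eq_germToFunctionField, ← ha, ← ha'] at h
    rw [h, mul_div_cancel_left₀ _ ha0]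
  set u := (curveSq c).presheaf.map (homOfLE hle).op (regFun (a' / a)) with hu
  have hug : (curveSq c).germToFunctionField (O ⊓ O') u = a' / a :=
    ((curveSq c).presheaf.germ_res_apply _ _ _ _).trans (germ_regFun _)
  refine ⟨u, ?_, (curveSq c).germToFunctionField_injective (O ⊓ O') ?_⟩
  · refine RingedSpace.isUnit_of_isUnit_germ (curveSq c).toRingedSpace _ _ fun y hy => ?_
    obtain ⟨q, hq⟩ := hf'.dvd_germ c hf hy.2 hy.1
    have ha0' : a' ≠ 0 := hf'.germ_ne_zero c _
    refine IsUnit.of_mul_eq_one q ?_
    refine IsFractionRing.injective ((curveSq c).presheaf.stalk y) (curveSq c).functionField ?_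
    have h := congrArg (algebraMap _ (curveSq c).functionField) hq
    rw [map_mul, Scheme.algebraMap_germ_eq_germToFunctionField,
      Scheme.algebraMap_germ_eq_germToFunctionField, ← ha, ← ha'] at h
    rw [map_mul, map_one]
    erw [Scheme.algebraMap_germ_eq_germToFunctionField, hug]
    rw [div_mul_eq_mul_div, ← h, div_self ha0]
  · rw [map_mul, hug]
    erw [TopCat.Presheaf.germ_res_apply, TopCat.Presheaf.germ_res_apply]
    exact mul_div_cancel₀ a' ha0

end FermatAgent.Jacobian
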