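import Fermat.Agent.Jacobian.Setup.Points
import Fermat.Agent.Curve.Basics
import Fermat.Agent.Curve.RR.Main

/-!
# The function field of a smooth curve

The function field is a function field in one variable in the sense of `FermatAgent.Curve`: the
differentials have rank one by smoothness.
-/

set_option autoImplicit false

noncomputable section

open CategoryTheory AlgebraicGeometry TopologicalSpace IntermediateField
open scoped KaehlerDifferential TensorProduct

namespace FermatAgent.Jacobian

universe u v

/-- A finitely generated extension with differentials of rank one is a function field. -/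
theorem isFunctionField1_of_finrank_kaehler {K : Type u} {F : Type v} [Field K] [Field F]
    [Algebra K F] [PerfectField K] [Algebra.EssFiniteType K F]
    (h : Module.finrank F Ω[F⁄K] = 1) : Curve.IsFunctionField1 K F := by
  obtain ⟨s, hs, hsep⟩ := exists_isTranscendenceBasis_and_isSeparable_of_perfectField K F
  have hrange : Set.range (Subtype.val : {a // a ∈ s} → F) = (s : Set F) := Subtype.range_coe
  have : Algebra.IsSeparable (adjoin K (Set.range (Subtype.val : {a // a ∈ s} → F))) F := by
    rw [hrange]; exact hsep
  obtain ⟨b, -⟩ := Curve.exists_kaehlerBasis hs.1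
  have hcard := Module.finrank_eq_card_basis b
  rw [h, Fintype.card_coe] at hcard
  obtain ⟨t, rfl⟩ := Finset.card_eq_one.mp hcard.symm
  refine ⟨⟨t, hs.1.transcendental ⟨t, Finset.mem_singleton_self t⟩, ?_⟩⟩
  have : Algebra.EssFiniteType K⟮t⟯ F := Algebra.EssFiniteType.of_comp K K⟮t⟯ F
  have : Algebra.IsAlgebraic K⟮t⟯ F := by
    have h := hs.isAlgebraic_field
    rwa [hrange, Finset.coe_singleton] at h
  exact Algebra.finite_of_essFiniteType_of_isAlgebraic

variable {k : Type u} [Field k] {C : Scheme.{u}} (c : C ⟶ Spec (CommRingCat.of k))

/-- The constants commute with restriction. -/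
theorem map_sectionsHom {U V : C.Opens} (i : U ⟶ V) (a : k) :
    C.presheaf.map i.op (sectionsHom c V a) = sectionsHom c U a := by
  exact ConcreteCategory.congr_hom (c.appLE_map le_top i.op)
    ((Scheme.ΓSpecIso (CommRingCat.of k)).inv a)

variable [IsIntegral C]

/-- The function field, as a field over `k`. -/
def FunField (_c : C ⟶ Spec (CommRingCat.of k)) : Type u := C.functionField

instance : Field (FunField c) := inferInstanceAs (Field C.functionField)

instance nonempty_top : Nonempty (⊤ : C.Opens) := ⟨⟨genericPoint C, trivial⟩⟩

/-- A regular function as a rational function. -/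
def toFunField (U : C.Opens) [Nonempty U] : Γ(C, U) →+* FunField c :=
  (C.germToFunctionField U).hom

theorem toFunField_injective (U : C.Opens) [Nonempty U] : Function.Injective (toFunField c U) :=
  C.germToFunctionField_injective U

theorem toFunField_map {U V : C.Opens} [Nonempty U] [Nonempty V] (i : U ⟶ V) (s : Γ(C, V)) :
    toFunField c U (C.presheaf.map i.op s) = toFunField c V s :=
  C.presheaf.germ_res_apply i _ _ s

instance : Algebra k (FunField c) := ((toFunField c ⊤).comp (sectionsHom c ⊤)).toAlgebra

theorem toFunField_sectionsHom (U : C.Opens) [Nonempty U] (a : k) :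
    toFunField c U (sectionsHom c U a) = algebraMap k (FunField c) a := by
  rw [← map_sectionsHom c (homOfLE le_top : U ⟶ ⊤), toFunField_map]
  rfl

instance (U : C.Opens) [Nonempty U] : Algebra Γ(C, U) (FunField c) := (toFunField c U).toAlgebra

theorem isScalarTower_sections (U : C.Opens) [Nonempty U] :
    letI := sectionsAlgebra c U
    IsScalarTower k Γ(C, U) (FunField c) :=
  letI := sectionsAlgebra c U
  IsScalarTower.of_algebraMap_eq fun a => (toFunField_sectionsHom c U a).symm

theorem isFractionRing_sections {U : C.Opens} [Nonempty U] (hU : IsAffineOpen U) :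
    IsFractionRing Γ(C, U) (FunField c) :=
  functionField_isFractionRing_of_isAffineOpen C U hU

theorem essFiniteType_funField [SmoothOfRelativeDimension 1 c] :
    Algebra.EssFiniteType k (FunField c) := by
  have : Smooth c := SmoothOfRelativeDimension.smooth 1 c
  obtain ⟨_, ⟨U, hU, rfl⟩, hxU, -⟩ :=
    C.isBasis_affineOpens.exists_subset_of_mem_open (Set.mem_univ (genericPoint C)) isOpen_univ
  have : Nonempty U := ⟨⟨_, hxU⟩⟩
  let := sectionsAlgebra c U
  have := isScalarTower_sections c U
  have := isFractionRing_sections c hU
  have : Algebra.FiniteType k Γ(C, U) := finiteType_sections c hU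
  have : Algebra.EssFiniteType Γ(C, U) (FunField c) :=
    Algebra.EssFiniteType.of_isLocalization _ (nonZeroDivisors Γ(C, U))
  exact Algebra.EssFiniteType.comp k Γ(C, U) (FunField c)

theorem finrank_kaehler_funField [SmoothOfRelativeDimension 1 c] :
    Module.finrank (FunField c) Ω[FunField c⁄k] = 1 := by
  obtain ⟨_, ⟨U, hU, rfl⟩, hxU, -⟩ :=
    C.isBasis_affineOpens.exists_subset_of_mem_open (Set.mem_univ (genericPoint C)) isOpen_univ
  have : Nonempty U := ⟨⟨_, hxU⟩⟩
  let := sectionsAlgebra c U
  have := isScalarTower_sections c U
  have := isFractionRing_sections c hU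
  obtain ⟨s, hs, hsm⟩ := locally_standardSmooth_sections c hU
  obtain ⟨r, hr, hr0⟩ : ∃ r ∈ s, r ≠ 0 := by
    by_contra hc
    push Not at hc
    have : Ideal.span s ≤ ⊥ := Ideal.span_le.2 fun x hx => by simp [hc x hx]
    exact bot_ne_top (le_bot_iff.1 (hs ▸ this)).symm
  let Ar := Localization.Away r
  have : Algebra.IsStandardSmoothOfRelativeDimension 1 k Ar := by
    rw [← RingHom.isStandardSmoothOfRelativeDimension_algebraMap,
      IsScalarTower.algebraMap_eq k Γ(C, U) Ar]
    exact hsm r hr
  have : Algebra.IsStandardSmooth k Ar :=
    Algebra.IsStandardSmoothOfRelativeDimension.isStandardSmooth 1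
  have hu : IsUnit (algebraMap Γ(C, U) (FunField c) r) :=
    isUnit_iff_ne_zero.2 fun h => hr0 ((map_eq_zero_iff _ (toFunField_injective c U)).1 h)
  let : Algebra Ar (FunField c) :=
    (IsLocalization.Away.lift r (g := algebraMap Γ(C, U) (FunField c)) hu).toAlgebra
  have : IsScalarTower Γ(C, U) Ar (FunField c) :=
    IsScalarTower.of_algebraMap_eq fun x => (IsLocalization.Away.lift_eq r hu x).symm
  have : IsScalarTower k Ar (FunField c) := IsScalarTower.of_algebraMap_eq fun a => by
    rw [IsScalarTower.algebraMap_apply k Γ(C, U) Ar,
      ← IsScalarTower.algebraMap_apply Γ(C, U) Ar (FunField c),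
      ← IsScalarTower.algebraMap_apply k Γ(C, U) (FunField c)]
  have : IsDomain Ar := IsLocalization.isDomain_localization
    (powers_le_nonZeroDivisors_of_noZeroDivisors hr0)
  have : IsFractionRing Ar (FunField c) :=
    IsFractionRing.isFractionRing_of_isDomain_of_isLocalization (Submonoid.powers r) Ar _
  have : Algebra.FormallyEtale Ar (FunField c) :=
    Algebra.FormallyEtale.of_isLocalization (nonZeroDivisors Ar)
  rw [← (KaehlerDifferential.tensorKaehlerEquivOfFormallyEtale k Ar (FunField c)).finrank_eq,
    Module.finrank_baseChange]
  exact Module.finrank_eq_of_rank_eq (by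
    rw [Algebra.IsStandardSmoothOfRelativeDimension.rank_kaehlerDifferential 1])

instance isFunctionField1_funField [IsAlgClosed k] [SmoothOfRelativeDimension 1 c] :
    Curve.IsFunctionField1 k (FunField c) :=
  have := essFiniteType_funField c
  isFunctionField1_of_finrank_kaehler (finrank_kaehler_funField c)

end FermatAgent.Jacobian
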