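import Fermat.Agent.Jacobian.Setup.Field
import Fermat.Agent.Jacobian.Setup.RatOpen

/-!
# Closed points of a proper smooth curve are the places of its function field

The local ring of a closed point is a place; by the valuative criterion every place has exactly
one such point.
-/

set_option autoImplicit false

noncomputable section

open CategoryTheory AlgebraicGeometry TopologicalSpace AlgebraicCurve

namespace FermatAgent.Jacobian

universe u

variable {k : Type u} [Field k] {C : Scheme.{u}} (c : C ⟶ Spec (CommRingCat.of k)) [IsIntegral C]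

/-- A germ as a rational function. -/
def stalkToFun (x : C) : C.presheaf.stalk x →+* FunField c :=
  algebraMap (C.presheaf.stalk x) C.functionField

theorem stalkToFun_injective (x : C) : Function.Injective (stalkToFun c x) :=
  IsFractionRing.injective (C.presheaf.stalk x) C.functionField

theorem stalkToFun_germ {U : C.Opens} [Nonempty U] {x : C} (hx : x ∈ U) (s : Γ(C, U)) :
    stalkToFun c x (C.presheaf.germ U x hx s) = toFunField c U s :=
  Scheme.algebraMap_germ_eq_germToFunctionField C hx s

/-- The constants in a local ring. -/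
def stalkConst (x : C) : k →+* C.presheaf.stalk x :=
  (C.presheaf.germ ⊤ x trivial).hom.comp (sectionsHom c ⊤)

theorem stalkToFun_stalkConst (x : C) (a : k) :
    stalkToFun c x (stalkConst c x a) = algebraMap k (FunField c) a :=
  (stalkToFun_germ c (U := ⊤) trivial _).trans (toFunField_sectionsHom c ⊤ a)

omit [IsIntegral C] in
theorem fromSpecStalk_comp (x : C) :
    C.fromSpecStalk x ≫ c = Spec.map (CommRingCat.ofHom (stalkConst c x)) := by
  refine ext_of_isAffine ?_
  rw [Scheme.Hom.comp_appTop, Scheme.fromSpecStalk_appTop]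
  refine (cancel_mono (Scheme.ΓSpecIso _).hom).1 ?_
  rw [Category.assoc, Category.assoc, Scheme.ΓSpecIso_naturality]
  ext a
  simp [stalkConst, sectionsHom, Scheme.Hom.appLE, Scheme.Hom.appTop]

theorem fromSpecStalk_genericPoint_comp :
    C.fromSpecStalk (genericPoint C) ≫ c =
      Spec.map (CommRingCat.ofHom (algebraMap k (FunField c))) := by
  rw [fromSpecStalk_comp]
  rfl

theorem fromSpecStalk_genericPoint_eq (x : C) :
    Spec.map (CommRingCat.ofHom (stalkToFun c x)) ≫ C.fromSpecStalk x =
      C.fromSpecStalk (genericPoint C) :=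
  Scheme.SpecMap_stalkSpecializes_fromSpecStalk ((genericPoint_spec C).specializes trivial)

variable [IsAlgClosed k] [SmoothOfRelativeDimension 1 c]

/-- The local ring at a point, inside the function field. -/
def pointRing (x : C) : ValuationSubring (FunField c) where
  toSubring := (stalkToFun c x).range
  mem_or_inv_mem' f := mem_range_or_inv_mem_range c x f

theorem mem_pointRing {x : C} {f : FunField c} :
    f ∈ pointRing c x ↔ ∃ s, stalkToFun c x s = f := Iff.rfl

theorem toFunField_mem_pointRing {U : C.Opens} [Nonempty U] {x : C} (hx : x ∈ U) (s : Γ(C, U)) :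
    toFunField c U s ∈ pointRing c x :=
  ⟨_, stalkToFun_germ c hx s⟩

theorem algebraMap_mem_pointRing (x : C) (a : k) :
    algebraMap k (FunField c) a ∈ pointRing c x :=
  ⟨_, stalkToFun_stalkConst c x a⟩

omit [IsAlgClosed k] [SmoothOfRelativeDimension 1 c] in
theorem primeIdealOf_ne_bot {U : C.Opens} (hU : IsAffineOpen U) {x : C} (hxU : x ∈ U)
    (hx : x ≠ genericPoint C) : (hU.primeIdealOf ⟨x, hxU⟩).asIdeal ≠ ⊥ := by
  have : Nonempty U := ⟨⟨x, hxU⟩⟩
  intro hP0
  refine hx ?_
  have h1 : hU.primeIdealOf ⟨x, hxU⟩ = genericPoint (Spec Γ(C, U)) :=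
    (PrimeSpectrum.ext hP0).trans (genericPoint_eq_bot_of_affine _).symm
  have h2 := congrArg hU.fromSpec h1
  rw [hU.fromSpec_primeIdealOf] at h2
  exact h2.trans (genericPoint_eq_of_isOpenImmersion hU.fromSpec)

theorem pointRing_ne_top {x : C} (hx : x ≠ genericPoint C) : pointRing c x ≠ ⊤ := by
  intro htop
  obtain ⟨_, ⟨U, hU, rfl⟩, hxU, -⟩ :=
    C.isBasis_affineOpens.exists_subset_of_mem_open (Set.mem_univ x) isOpen_univ
  have : Nonempty U := ⟨⟨x, hxU⟩⟩
  have := isDedekindDomain_sections c hU
  let := TopCat.Presheaf.algebra_section_stalk C.presheaf ⟨x, hxU⟩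
  have := hU.isLocalization_stalk ⟨x, hxU⟩
  refine IsLocalization.AtPrime.not_isField Γ(C, U) (primeIdealOf_ne_bot hU hxU hx)
    (C.presheaf.stalk x) ?_
  have hbij : Function.Bijective (stalkToFun c x) :=
    ⟨stalkToFun_injective c x, fun f => (mem_pointRing c).1 (htop ▸ ValuationSubring.mem_top f)⟩
  exact (RingEquiv.ofBijective _ hbij).toMulEquiv.isField (Field.toIsField (FunField c))

/-- The place of a closed point. -/
def pointPlace (x : C) (hx : x ≠ genericPoint C) : Place k (FunField c) :=
  Curve.placeOfValuationSubring (pointRing c x) (algebraMap_mem_pointRing c x)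
    (pointRing_ne_top c hx)

theorem pointRing_genericPoint : pointRing c (genericPoint C) = ⊤ := by
  refine eq_top_iff.2 fun f _ => ⟨f, ?_⟩
  show (C.presheaf.stalkSpecializes _) f = f
  rw [TopCat.Presheaf.stalkSpecializes_refl]
  rfl

variable [IsProper c]

/-- Every place is centred at a point. -/
theorem exists_center (v : Place k (FunField c)) :
    ∃ (x : C) (hx : x ≠ genericPoint C), pointPlace c x hx = v := by
  let R := v.toValuationSubring
  let ι : CommRingCat.of R ⟶ CommRingCat.of (FunField c) := CommRingCat.ofHom R.subtype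
  let S : ValuativeCommSq c :=
    { R := R
      K := FunField c
      i₁ := C.fromSpecStalk (genericPoint C)
      i₂ := Spec.map (CommRingCat.ofHom (algebraMap k R))
      commSq := ⟨(fromSpecStalk_genericPoint_comp c).trans (by
        rw [← Spec.map_comp, ← CommRingCat.ofHom_comp]
        rfl)⟩ }
  have hcrit : ValuativeCriterion c := by
    have h : IsProper c := inferInstance
    rw [IsProper.eq_valuativeCriterion] at h
    exact h.1.1.1
  obtain ⟨⟨⟨l, hl₁, -⟩⟩, -⟩ := (hcrit S).some
  let : IsLocalRing (CommRingCat.of R) := inferInstanceAs (IsLocalRing R)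
  set x := l (IsLocalRing.closedPoint R) with hxdef
  let ψ := Scheme.stalkClosedPointTo (R := CommRingCat.of R) l
  have hψ : ψ ≫ ι = CommRingCat.ofHom (stalkToFun c x) := by
    refine Spec.map_injective ((cancel_mono (C.fromSpecStalk x)).1 ?_)
    rw [fromSpecStalk_genericPoint_eq, Spec.map_comp, Category.assoc,
      Scheme.Spec_stalkClosedPointTo_fromSpecStalk]
    exact hl₁
  have hle : pointRing c x ≤ R := by
    rintro _ ⟨s, rfl⟩
    have h := ConcreteCategory.congr_hom hψ s
    exact h ▸ (ψ s).2
  have hx : x ≠ genericPoint C := fun h => v.ne_top' (top_le_iff.1 (by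
    rw [← pointRing_genericPoint c, ← h]; exact hle))
  exact ⟨x, hx, Curve.place_eq_of_le hle⟩

theorem pointRing_injective : Function.Injective (pointRing c) := by
  intro x y hxy
  let R := pointRing c x
  let ι : CommRingCat.of R ⟶ CommRingCat.of (FunField c) := CommRingCat.ofHom R.subtype
  let S : ValuativeCommSq c :=
    { R := R
      K := FunField c
      i₁ := C.fromSpecStalk (genericPoint C)
      i₂ := Spec.map (CommRingCat.ofHom
        ((algebraMap k (FunField c)).codRestrict R.toSubring (algebraMap_mem_pointRing c x)))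
      commSq := ⟨(fromSpecStalk_genericPoint_comp c).trans (by
        rw [← Spec.map_comp, ← CommRingCat.ofHom_comp]
        rfl)⟩ }
  have key : ∀ z : C, pointRing c z = R →
      ∃ L : S.commSq.LiftStruct, L.l (IsLocalRing.closedPoint R) = z := by
    intro z hz
    let ψ₀ : C.presheaf.stalk z →+* R :=
      (stalkToFun c z).codRestrict R.toSubring fun s => show _ ∈ R from hz ▸ ⟨s, rfl⟩
    have hbij : Function.Bijective ψ₀ := by
      refine ⟨fun a b h => stalkToFun_injective c z (congrArg Subtype.val h), fun r => ?_⟩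
      obtain ⟨s, hs⟩ := (mem_pointRing c).1 (hz.symm ▸ r.2 : (r : FunField c) ∈ pointRing c z)
      exact ⟨s, Subtype.ext hs⟩
    let ψ : C.presheaf.stalk z ⟶ CommRingCat.of R := CommRingCat.ofHom ψ₀
    have : IsLocalHom ψ.hom := ⟨fun a ha => by
      obtain ⟨u, hu⟩ := ha
      obtain ⟨b, hb⟩ := hbij.2 ↑u⁻¹
      exact IsUnit.of_mul_eq_one b (hbij.1 (by
        rw [map_mul, map_one, hb, show ψ₀ a = ↑u from hu.symm, Units.mul_inv]))⟩
    refine ⟨⟨Spec.map ψ ≫ C.fromSpecStalk z, ?_, ?_⟩, ?_⟩
    · rw [← Category.assoc, ← Spec.map_comp]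
      exact fromSpecStalk_genericPoint_eq c z
    · rw [Category.assoc, fromSpecStalk_comp, ← Spec.map_comp]
      congr 1
      refine CommRingCat.hom_ext (RingHom.ext fun a => ?_)
      exact Subtype.ext (stalkToFun_stalkConst c z a)
    · let : IsLocalRing (CommRingCat.of R) := inferInstanceAs (IsLocalRing R)
      show C.fromSpecStalk z (Spec.map ψ (IsLocalRing.closedPoint (CommRingCat.of R))) = z
      erw [Spec_closedPoint]
      exact Scheme.fromSpecStalk_closedPoint
  obtain ⟨Lx, hLx⟩ := key x rfl
  obtain ⟨Ly, hLy⟩ := key y hxy.symm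
  have := IsSeparated.valuativeCriterion c S
  rw [← hLx, ← hLy, Subsingleton.elim Lx Ly]

theorem pointPlace_injective {x y : C} (hx : x ≠ genericPoint C) (hy : y ≠ genericPoint C)
    (h : pointPlace c x hx = pointPlace c y hy) : x = y :=
  pointRing_injective c (congrArg Place.toValuationSubring h)

/-- The closed points are the places. -/
def placeEquiv : {x : C // x ≠ genericPoint C} ≃ Place k (FunField c) :=
  Equiv.ofBijective (fun x => pointPlace c x.1 x.2)
    ⟨fun x y h => Subtype.ext (pointPlace_injective c x.2 y.2 h), fun v => by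
      obtain ⟨x, hx, h⟩ := exists_center c v
      exact ⟨⟨x, hx⟩, h⟩⟩

end FermatAgent.Jacobian
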