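import Fermat.Agent.Jacobian.Setup.Curve

/-!
# The topological space of a curve

A point of a smooth curve is closed or generic; proper closed subsets are finite.
-/

set_option autoImplicit false

noncomputable section

open CategoryTheory AlgebraicGeometry TopologicalSpace

namespace FermatAgent.Jacobian

universe u

variable {k : Type u} [Field k] [IsAlgClosed k] {C : Scheme.{u}}
  (c : C ⟶ Spec (CommRingCat.of k)) [SmoothOfRelativeDimension 1 c] [IsIntegral C]

include c

/-- A point other than the generic one is closed. -/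
theorem isClosed_singleton_of_ne_genericPoint {x : C} (hx : x ≠ genericPoint C) :
    IsClosed ({x} : Set C) := by
  have : Smooth c := SmoothOfRelativeDimension.smooth 1 c
  have : JacobsonSpace C := LocallyOfFiniteType.jacobsonSpace c
  obtain ⟨_, ⟨U, hU, rfl⟩, hxU, -⟩ :=
    C.isBasis_affineOpens.exists_subset_of_mem_open (Set.mem_univ x) isOpen_univ
  replace hU : IsAffineOpen U := hU
  have : Nonempty U := ⟨⟨x, hxU⟩⟩
  have := isDedekindDomain_sections c hU
  set P := hU.primeIdealOf ⟨x, hxU⟩ with hP
  by_cases hP0 : P.asIdeal = ⊥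
  · refine absurd ?_ hx
    have h1 : P = genericPoint (Spec Γ(C, U)) :=
      (PrimeSpectrum.ext hP0).trans (genericPoint_eq_bot_of_affine _).symm
    have h2 := congrArg hU.fromSpec h1
    rw [hP, hU.fromSpec_primeIdealOf] at h2
    exact h2.trans (genericPoint_eq_of_isOpenImmersion hU.fromSpec)
  · have hmax : P.asIdeal.IsMaximal := P.2.isMaximal hP0
    have hcl : IsClosed ({P} : Set (PrimeSpectrum Γ(C, U))) :=
      (PrimeSpectrum.isClosed_singleton_iff_isMaximal _).2 hmax
    refine isClosed_singleton_of_isLocallyClosed_singleton ?_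
    have := hcl.isLocallyClosed.image hU.fromSpec.isOpenEmbedding.isInducing
      hU.fromSpec.isOpenEmbedding.isOpen_range.isLocallyClosed
    convert this
    refine (Set.ext fun y => ?_).symm
    refine ⟨?_, fun hy => ⟨P, rfl, (hU.fromSpec_primeIdealOf ⟨x, hxU⟩).trans hy.symm⟩⟩
    rintro ⟨_, rfl, rfl⟩
    exact hU.fromSpec_primeIdealOf ⟨x, hxU⟩

/-- A closed set missing the generic point is finite. -/
theorem finite_of_isClosed [IsProper c] {S : Set C} (hS : IsClosed S) (hη : genericPoint C ∉ S) :
    S.Finite := by
  have : IsLocallyNoetherian C := LocallyOfFiniteType.isLocallyNoetherian c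
  have : CompactSpace C := QuasiCompact.compactSpace_of_compactSpace c
  have : AlgebraicGeometry.IsNoetherian C := {}
  obtain ⟨T, hT, hTcl, hTirr, rfl⟩ := NoetherianSpace.exists_finite_set_isClosed_irreducible hS
  refine Set.Finite.sUnion hT fun Z hZ => ?_
  have hg := (hTirr Z hZ).isGenericPoint_genericPoint (hTcl Z hZ)
  have hne : (hTirr Z hZ).genericPoint ≠ genericPoint C := fun h =>
    hη ⟨Z, hZ, h ▸ hg.mem⟩
  rw [← hg.def, (isClosed_singleton_of_ne_genericPoint c hne).closure_eq]
  exact Set.finite_singleton _

end FermatAgent.Jacobian
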