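import Fermat.Agent.Jacobian.Lat.Datum

/-!
# Expansions after extension of scalars

For the extension `tensorExp` of an expansion `S → k((t))` to `A ⊗ S → A((t))`, vanishing of
coefficients is tested on the coordinates in a basis of `A`.
-/

set_option autoImplicit false

noncomputable section

universe u

namespace FermatAgent.Jacobian

open scoped TensorProduct

variable {k : Type u} [Field k] {S : Type u} [CommRing S] [Algebra k S]
  (e : S →+* LaurentSeries k) (he : ∀ a : k, e (algebraMap k S a) = HahnSeries.C a)
  (A : Type u) [CommRing A] [Algebra k A]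

theorem coeff_C_mul (a : A) (x : LaurentSeries A) (i : ℤ) :
    (HahnSeries.C a * x).coeff i = a * x.coeff i := by
  rw [HahnSeries.C_apply, HahnSeries.coeff_single_zero_mul]

/-- The coefficients are read off in a basis of `A`. -/
theorem coeff_tensorExp_eq_zero_iff {ι : Type*} [DecidableEq ι] (b : Module.Basis ι k A) (x : A ⊗[k] S) (i : ℤ) :
    (tensorExp e he A x).coeff i = 0 ↔
      ∀ j, (e (TensorProduct.equivFinsuppOfBasisLeft b x j)).coeff i = 0 := by
  set f := TensorProduct.equivFinsuppOfBasisLeft b x with hf
  have hx : x = f.sum fun j s => b j ⊗ₜ[k] s := by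
    rw [← TensorProduct.equivFinsuppOfBasisLeft_symm_apply, LinearEquiv.symm_apply_apply]
  have key : (tensorExp e he A x).coeff i =
      ∑ j ∈ f.support, ((e (f j)).coeff i) • b j := by
    rw [hx, Finsupp.sum, map_sum, HahnSeries.coeff_sum]
    refine Finset.sum_congr rfl fun j _ => ?_
    rw [tensorExp_tmul, coeff_C_mul, coeff_lsMap, mul_comm, Algebra.smul_def]
  rw [key]
  constructor
  · intro h j
    by_cases hj : j ∈ f.support
    · exact (linearIndependent_iff'.1 b.linearIndependent) f.support _ h j hj
    · rw [Finsupp.notMem_support_iff.1 hj, map_zero, HahnSeries.coeff_zero]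
  · intro h
    exact Finset.sum_eq_zero fun j _ => by rw [h j, zero_smul]

theorem tensorExp_injective (hinj : Function.Injective e) : Function.Injective (tensorExp e he A) := by
  rw [injective_iff_map_eq_zero]
  classical
  intro x hx
  let b := Module.Free.chooseBasis k A
  refine (TensorProduct.equivFinsuppOfBasisLeft b).injective (Finsupp.ext fun j => ?_)
  rw [map_zero, Finsupp.zero_apply]
  refine (map_eq_zero_iff e hinj).1 (HahnSeries.ext (funext fun i => ?_))
  rw [HahnSeries.coeff_zero]
  exact (coeff_tensorExp_eq_zero_iff e he A b x i).1 (by rw [hx, HahnSeries.coeff_zero]) j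

/-- If the sections without terms below `n` are the multiples of `s₀`, so it is over `A`. -/
theorem exists_mul_of_coeff_tensorExp (n : ℤ) {s₀ : S}
    (hS : ∀ s, (∀ i < n, (e s).coeff i = 0) → ∃ b, s = s₀ * b) {x : A ⊗[k] S}
    (hx : ∀ i < n, (tensorExp e he A x).coeff i = 0) :
    ∃ y : A ⊗[k] S, x = ((1 : A) ⊗ₜ[k] s₀) * y := by
  classical
  let b := Module.Free.chooseBasis k A
  set f := TensorProduct.equivFinsuppOfBasisLeft b x with hf
  choose g hg using fun j => hS (f j) fun i hi =>
    (coeff_tensorExp_eq_zero_iff e he A b x i).1 (hx i hi) j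
  refine ⟨∑ j ∈ f.support, b j ⊗ₜ[k] g j, ?_⟩
  rw [Finset.mul_sum]
  conv_lhs => rw [← (TensorProduct.equivFinsuppOfBasisLeft b).symm_apply_apply x,
    TensorProduct.equivFinsuppOfBasisLeft_symm_apply, ← hf, Finsupp.sum]
  refine Finset.sum_congr rfl fun j _ => ?_
  rw [Algebra.TensorProduct.tmul_mul_tmul, one_mul, ← hg j]

end FermatAgent.Jacobian
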