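import Fermat.Agent.Jacobian.Setup.BaseChange
import Fermat.Agent.Jacobian.Setup.Chart
import Fermat.Agent.Jacobian.Setup.TensorExpansion

/-!
# Expansions of sections on the base change

For a nonempty affine open `W` of `C` the sections on `W_A` expand in `A((t))`, compatibly with
restriction; `U_A` gives the ring of the datum, and near the point a section without terms below
`n` is a multiple of the `n`-th power of the uniformiser.
-/

set_option autoImplicit false

noncomputable section

open CategoryTheory AlgebraicGeometry TopologicalSpace AlgebraicCurve NeronModelInfra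

namespace FermatAgent.Jacobian

open scoped TensorProduct

universe u

variable {k : Type u} [Field k] [IsAlgClosed k] {C : Scheme.{u}}
  (c : C ⟶ Spec (CommRingCat.of k)) [SmoothOfRelativeDimension 1 c] [IsIntegral C] [IsProper c]
  (ε : SchemeHomOver (𝟙 (Spec (CommRingCat.of k))) c) (A : Type u) [CommRing A] [Algebra k A]

/-- Sections on an affine open after base change, as a tensor product. -/
def sectionsEquiv {W : C.Opens} (hW : IsAffineOpen W) :
    A ⊗[k] SecRing c W ≃+* Γ(curveOver c A, openAbove c A W) :=
  RingEquiv.ofBijective (sectionsBC c A W :) (sectionsBC_bijective c A hW)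

omit [IsAlgClosed k] [SmoothOfRelativeDimension 1 c] [IsIntegral C] [IsProper c] in
theorem sectionsEquiv_tmul {W : C.Opens} (hW : IsAffineOpen W) (a : A) (s : SecRing c W) :
    sectionsEquiv c A hW (a ⊗ₜ s) = baseSec c A W a * curveSec c A W s :=
  sectionsBC_tmul c A W a s

/-- The expansion of the sections on `W_A`. -/
def expSec (W : C.Opens) [Nonempty W] (hW : IsAffineOpen W) :
    Γ(curveOver c A, openAbove c A W) →+* LaurentSeries A :=
  (tensorExp (expOpen c ε W) (expOpen_algebraMap c ε W) A).comp
    (sectionsEquiv c A hW).symm.toRingHom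

theorem expSec_sectionsEquiv {W : C.Opens} [Nonempty W] (hW : IsAffineOpen W)
    (x : A ⊗[k] SecRing c W) :
    expSec c ε A W hW (sectionsEquiv c A hW x) =
      tensorExp (expOpen c ε W) (expOpen_algebraMap c ε W) A x := by
  simp [expSec]

theorem expSec_injective (W : C.Opens) [Nonempty W] (hW : IsAffineOpen W) :
    Function.Injective (expSec c ε A W hW) :=
  (tensorExp_injective _ (expOpen_algebraMap c ε W) A (expOpen_injective c ε W)).comp
    (sectionsEquiv c A hW).symm.injective

/-- The expansion does not depend on the open. -/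
theorem expSec_map {W W' : C.Opens} [Nonempty W] [Nonempty W'] (hW : IsAffineOpen W)
    (hW' : IsAffineOpen W') (i : W' ⟶ W) (x : Γ(curveOver c A, openAbove c A W)) :
    expSec c ε A W' hW' ((curveOver c A).presheaf.map
        ((TopologicalSpace.Opens.map
          (CategoryTheory.Limits.pullback.fst c (algSpecMap (k := k) A)).base).map i).op x) =
      expSec c ε A W hW x := by
  obtain ⟨y, rfl⟩ := (sectionsEquiv c A hW).surjective x
  induction y using TensorProduct.induction_on with
  | zero => simp
  | add y z hy hz => rw [map_add, map_add, map_add, map_add, hy, hz]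
  | tmul a s =>
    have h : (curveOver c A).presheaf.map
        ((TopologicalSpace.Opens.map
          (CategoryTheory.Limits.pullback.fst c (algSpecMap (k := k) A)).base).map i).op
        (sectionsEquiv c A hW (a ⊗ₜ s)) = sectionsEquiv c A hW' (a ⊗ₜ C.presheaf.map i.op s) :=
      sectionsBC_map c A i a s
    rw [h, expSec_sectionsEquiv, expSec_sectionsEquiv, tensorExp_tmul, tensorExp_tmul]
    exact congrArg (fun z => HahnSeries.C a * lsMap (algebraMap k A) z) (expOpen_map c ε i s)

/-- On `U_A` the expansions are those of the datum. -/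
theorem expSec_baseOpen (x : (curveDatum c ε).RA A) :
    expSec c ε A (baseOpen c ε) (isAffineOpen_baseOpen c ε)
        (sectionsEquiv c A (isAffineOpen_baseOpen c ε) x) =
      (curveDatum c ε).expA A x := by
  erw [expSec_sectionsEquiv]
  rfl

/-- Near the point the expansions have no polar part. -/
theorem expSec_mem_fil {W : C.Opens} [Nonempty W] (hW : IsAffineOpen W) (hP : basePt c ε ∈ W)
    (x : Γ(curveOver c A, openAbove c A W)) : expSec c ε A W hW x ∈ fil A 0 := by
  obtain ⟨y, rfl⟩ := (sectionsEquiv c A hW).surjective x
  rw [expSec_sectionsEquiv, mem_fil]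
  intro i hi
  induction y using TensorProduct.induction_on with
  | zero => simp
  | add y z hy hz => rw [map_add, HahnSeries.coeff_add, hy, hz, add_zero]
  | tmul a s =>
    rw [tensorExp_tmul, coeff_C_mul, coeff_lsMap, coeff_expOpen_of_neg c ε hP s hi, map_zero,
      mul_zero]

/-- The uniformiser on `V_A`. -/
def chartVarA : Γ(curveOver c A, openAbove c A (chartOpen c ε)) :=
  curveSec c A (chartOpen c ε) (chartParam c ε)

theorem expSec_chartVarA :
    expSec c ε A (chartOpen c ε) (isAffineOpen_chartOpen c ε) (chartVarA c ε A) =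
      HahnSeries.single 1 1 := by
  have h : chartVarA c ε A =
      sectionsEquiv c A (isAffineOpen_chartOpen c ε) ((1 : A) ⊗ₜ chartVar c ε) := by
    rw [sectionsEquiv_tmul, map_one, one_mul]
    rfl
  rw [h, expSec_sectionsEquiv, tensorExp_tmul, expOpen_chartVar, map_one, one_mul]
  ext i
  rw [coeff_lsMap]
  rcases eq_or_ne i 1 with rfl | hi <;> simp [*]

/-- A section on `V_A` without terms below `n` is a multiple of the `n`-th power of the
uniformiser. -/
theorem expSec_chart_mem_fil_iff (n : ℕ) (x : Γ(curveOver c A, openAbove c A (chartOpen c ε))) :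
    expSec c ε A (chartOpen c ε) (isAffineOpen_chartOpen c ε) x ∈ fil A n ↔
      ∃ y, x = chartVarA c ε A ^ n * y := by
  constructor
  · intro hx
    obtain ⟨x, rfl⟩ := (sectionsEquiv c A (isAffineOpen_chartOpen c ε)).surjective x
    rw [expSec_sectionsEquiv] at hx
    obtain ⟨y, rfl⟩ := exists_mul_of_coeff_tensorExp _ _ A (n : ℤ)
      (fun s hs => (coeff_expOpen_chart_eq_zero_iff c ε s n).1 hs) hx
    refine ⟨sectionsEquiv c A (isAffineOpen_chartOpen c ε) y, ?_⟩
    rw [map_mul, sectionsEquiv_tmul, map_one, one_mul]
    exact congrArg (· * _) ((map_pow (curveSec c A (chartOpen c ε)) (chartParam c ε) n))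
  · rintro ⟨y, rfl⟩ i hi
    rw [map_mul, map_pow, expSec_chartVarA, HahnSeries.single_pow, one_pow,
      HahnSeries.coeff_single_mul, one_mul]
    exact expSec_mem_fil c ε A _ (basePt_mem_chartOpen c ε) y _ (by simp; omega)

/-- Scalars expand to constants. -/
theorem expSec_baseSec {W : C.Opens} [Nonempty W] (hW : IsAffineOpen W) (a : A) :
    expSec c ε A W hW (baseSec c A W a) = HahnSeries.C a := by
  have h : baseSec c A W a = sectionsEquiv c A hW (a ⊗ₜ (1 : SecRing c W)) := by
    rw [sectionsEquiv_tmul]
    show _ = _ * curveSec c A W (1 : Γ(C, W))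
    rw [map_one, mul_one]
  rw [h, expSec_sectionsEquiv, tensorExp_tmul, map_one, map_one, mul_one]

instance nonempty_overlap : Nonempty (baseOpen c ε ⊓ chartOpen c ε : C.Opens) := by
  have h : ∀ W : C.Opens, Nonempty W → genericPoint C ∈ W := fun W hW =>
    ((genericPoint_spec C).mem_open_set_iff W.isOpen).mpr (by simpa using hW)
  exact ⟨⟨genericPoint C, h _ inferInstance, h _ inferInstance⟩⟩

theorem isAffineOpen_overlap : IsAffineOpen (baseOpen c ε ⊓ chartOpen c ε) := by
  rw [baseOpen_inf_chartOpen]
  exact (isAffineOpen_chartOpen c ε).basicOpen _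

/-- The overlap of the two opens above is the locus of invertibility of the uniformiser. -/
theorem openAbove_overlap :
    openAbove c A (baseOpen c ε) ⊓ openAbove c A (chartOpen c ε) =
      (curveOver c A).basicOpen (chartVarA c ε A) := by
  rw [← openAbove_inf, baseOpen_inf_chartOpen]
  exact Scheme.preimage_basicOpen _ _

theorem isAffineOpen_openAbove_overlap :
    IsAffineOpen (openAbove c A (baseOpen c ε) ⊓ openAbove c A (chartOpen c ε)) :=
  isAffineOpen_openAbove c A (isAffineOpen_overlap c ε)

theorem openAbove_base_sup_chart :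
    openAbove c A (baseOpen c ε) ⊔ openAbove c A (chartOpen c ε) = ⊤ :=
  openAbove_sup c A (baseOpen_sup_chartOpen c ε)

end FermatAgent.Jacobian
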