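import Mathlib

/-!
# A smooth algebra of relative dimension one over an algebraically closed field is Dedekind

At a maximal ideal `m` the derivation `a ↦ a - a(m)` into `m / m ^ 2` shows that the cotangent
space is a quotient of the differentials, so `m` is principal modulo `m ^ 2`; a domain with this
property at all maximal ideals is a Dedekind domain.
-/

set_option autoImplicit false

noncomputable section

namespace FermatAgent.Jacobian

open scoped KaehlerDifferential

universe u v

variable {k : Type u} [Field k] [IsAlgClosed k]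

/-- At a maximal ideal of a standard smooth algebra of relative dimension one, `m` is principal
modulo `m ^ 2`. -/
theorem exists_span_sup_sq_of_standardSmooth {A : Type v} [CommRing A] [Algebra k A]
    [Algebra.IsStandardSmoothOfRelativeDimension 1 k A] (m : Ideal A) [m.IsMaximal] :
    ∃ g ∈ m, m ≤ Ideal.span {g} ⊔ m ^ 2 := by
  have : Algebra.IsStandardSmooth k A :=
    Algebra.IsStandardSmoothOfRelativeDimension.isStandardSmooth 1
  have : Nontrivial A := ⟨⟨0, 1, fun h => Ideal.IsPrime.ne_top'
    ((Ideal.eq_top_iff_one m).2 (h ▸ m.zero_mem))⟩⟩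
  have : Algebra.FinitePresentation k A := inferInstance
  let := Ideal.Quotient.field m
  have : Module.Finite k (A ⧸ m) := finite_of_finite_type_of_isJacobsonRing k (A ⧸ m)
  have hbij := IsAlgClosed.algebraMap_bijective_of_isIntegral (k := k) (K := A ⧸ m)
  have hex : ∀ a : A, ∃ c : k, a - algebraMap k A c ∈ m := fun a => by
    obtain ⟨c, hc⟩ := hbij.2 (Ideal.Quotient.mk m a)
    exact ⟨c, Ideal.Quotient.eq.1 (by rw [← Ideal.Quotient.algebraMap_eq,
      ← IsScalarTower.algebraMap_apply, hc]; rfl)⟩
  choose π hπ using hex
  have huniq : ∀ (a : A) (c : k), a - algebraMap k A c ∈ m → π a = c := fun a c h => hbij.1 (by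
    rw [IsScalarTower.algebraMap_apply k A (A ⧸ m) (π a),
      IsScalarTower.algebraMap_apply k A (A ⧸ m) c, Ideal.Quotient.algebraMap_eq, Ideal.Quotient.eq]
    simpa using sub_mem h (hπ a))
  have hadd : ∀ a b, π (a + b) = π a + π b := fun a b => huniq _ _ (by
    rw [map_add, add_sub_add_comm]; exact add_mem (hπ a) (hπ b))
  have hsmul : ∀ (c : k) a, π (c • a) = c * π a := fun c a => huniq _ _ (by
    rw [map_mul, Algebra.smul_def, ← mul_sub]; exact Ideal.mul_mem_left _ _ (hπ a))
  let D₀ : A →ₗ[k] m.Cotangent :=
    { toFun := fun a => m.toCotangent ⟨a - algebraMap k A (π a), hπ a⟩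
      map_add' := fun a b => by
        rw [← map_add]
        congr 1
        refine Subtype.ext ?_
        show a + b - algebraMap k A (π (a + b)) =
          (a - algebraMap k A (π a)) + (b - algebraMap k A (π b))
        rw [hadd, map_add]
        ring
      map_smul' := fun c a => by
        rw [RingHom.id_apply, ← algebraMap_smul A c (m.toCotangent _), ← map_smul]
        congr 1
        refine Subtype.ext ?_
        show c • a - algebraMap k A (π (c • a)) = algebraMap k A c * (a - algebraMap k A (π a))
        rw [hsmul, map_mul, Algebra.smul_def]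
        ring }
  have hleib : ∀ a b, D₀ (a * b) = a • D₀ b + b • D₀ a := fun a b => by
    show m.toCotangent _ = a • m.toCotangent _ + b • m.toCotangent _
    rw [← map_smul, ← map_smul, ← map_add, Ideal.toCotangent_eq]
    have hab : π (a * b) = π a * π b := huniq _ _ (by
      rw [map_mul, show a * b - algebraMap k A (π a) * algebraMap k A (π b) =
        a * (b - algebraMap k A (π b)) + algebraMap k A (π b) * (a - algebraMap k A (π a)) by ring]
      exact add_mem (Ideal.mul_mem_left _ _ (hπ b)) (Ideal.mul_mem_left _ _ (hπ a)))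
    show a * b - algebraMap k A (π (a * b)) -
      (a * (b - algebraMap k A (π b)) + b * (a - algebraMap k A (π a))) ∈ m ^ 2
    rw [hab, map_mul, show a * b - algebraMap k A (π a) * algebraMap k A (π b) -
      (a * (b - algebraMap k A (π b)) + b * (a - algebraMap k A (π a))) =
        -((a - algebraMap k A (π a)) * (b - algebraMap k A (π b))) by ring, pow_two]
    exact neg_mem (Ideal.mul_mem_mul (hπ a) (hπ b))
  let L : Ω[A⁄k] →ₗ[A] m.Cotangent := (Derivation.mk' D₀ hleib).liftKaehlerDifferential
  have hrank : Module.finrank A Ω[A⁄k] = 1 := Module.finrank_eq_of_rank_eq (by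
    rw [Algebra.IsStandardSmoothOfRelativeDimension.rank_kaehlerDifferential 1])
  let ω := Module.finBasisOfFinrankEq A Ω[A⁄k] hrank
  obtain ⟨⟨g, hg⟩, hgω⟩ := m.toCotangent_surjective (L (ω 0))
  refine ⟨g, hg, fun a ha => ?_⟩
  have hLa : L (KaehlerDifferential.D k A a) = m.toCotangent ⟨a, ha⟩ := by
    rw [Derivation.liftKaehlerDifferential_comp_D]
    show m.toCotangent _ = _
    congr 1
    refine Subtype.ext ?_
    show a - algebraMap k A (π a) = a
    rw [huniq a 0 (by simpa using ha), map_zero, sub_zero]
  have hc := ω.sum_repr (KaehlerDifferential.D k A a)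
  rw [Fin.sum_univ_one] at hc
  rw [← hc, map_smul, ← hgω, ← map_smul, Ideal.toCotangent_eq] at hLa
  rw [show a = ω.repr (KaehlerDifferential.D k A a) 0 * g +
    -(ω.repr (KaehlerDifferential.D k A a) 0 * g - a) by ring]
  exact Submodule.add_mem_sup (Ideal.mul_mem_left _ _ (Ideal.mem_span_singleton_self g))
    (neg_mem hLa)

/-- A prime ideal principal modulo its square has a principal maximal ideal in the localisation. -/
theorem isPrincipal_maximalIdeal_of_sup_sq {A : Type v} [CommRing A] [IsNoetherianRing A]
    (m : Ideal A) [m.IsPrime] {g : A} (hg : g ∈ m) (h : m ≤ Ideal.span {g} ⊔ m ^ 2) :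
    (IsLocalRing.maximalIdeal (Localization.AtPrime m)).IsPrincipal := by
  set M := IsLocalRing.maximalIdeal (Localization.AtPrime m)
  have hM : m.map (algebraMap A (Localization.AtPrime m)) = M :=
    Localization.AtPrime.map_eq_maximalIdeal
  have hle : M ≤ Ideal.span {algebraMap A (Localization.AtPrime m) g} := by
    have h1 : M ≤ Ideal.span {algebraMap A _ g} ⊔ M ^ 2 := by
      have := Ideal.map_mono (f := algebraMap A (Localization.AtPrime m)) h
      rwa [Ideal.map_sup, Ideal.map_span, Set.image_singleton, Ideal.map_pow, hM] at this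
    refine Submodule.le_of_le_smul_of_le_jacobson_bot (IsNoetherian.noetherian M)
      (le_of_eq (IsLocalRing.jacobson_eq_maximalIdeal ⊥ bot_ne_top).symm) ?_
    rwa [smul_eq_mul, ← pow_two]
  refine ⟨⟨algebraMap A (Localization.AtPrime m) g, ?_⟩⟩
  refine le_antisymm hle ((Ideal.span_singleton_le_iff_mem M).2 ?_)
  exact hM ▸ Ideal.mem_map_of_mem _ hg

end FermatAgent.Jacobian
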